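/-
DS programme (S48), chapter G-PER, brick PER-C (helper78): abstract Hecke pairs.

For a subgroup `Γ ≤ SL(2, ℤ)` and a finite index type `I`, a `HeckeReps Γ I` is a family of
representatives `α i ∈ GL(2, ℝ)` together with a permutation action `perm` of `Γ` on `I` and a
cocycle `coc : Γ → I → Γ` such that

  `α i * γ = coc γ i * α (perm γ i)`      (in `GL(2, ℝ)`),

and the cocycle identities `perm (γ δ) i = perm δ (perm γ i)`,
`coc (γ δ) i = coc γ i * coc δ (perm γ i)`  (they are automatic when the `α i` lie in distinct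
left `Γ`-cosets, see `ofDistinct`).  It induces the transfer (double-coset) operator

  `dHom φ γ = ∑ i, φ (coc γ i)`

on `Hom(Γ, A)` for every abelian group `A`; the operator is natural in `A`, linear, and preserves
the prelude's parabolic homomorphisms.  Pattern: `ES/HEQ/DoubleCoset27`, `DoubleCosetPar27`
(which are the special case `Γ₀(N)`, `T_p`).
-/
import Mathlib
import Fermat.Prelude.Def_ModularCurve_PeriodMap
import Fermat.Agent.ES.HEQ.DoubleCosetPar27

set_option autoImplicit false
set_option linter.dupNamespace false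

open Matrix ModularCurve.Period
open scoped MatrixGroups

namespace Fermat.Agent.DS.Per1.HeckeReps

/-- Abstract Hecke representatives for `Γ`, indexed by `I`. -/
structure HeckeReps (Γ : Subgroup SL(2, ℤ)) (I : Type*) where
  /-- the representatives -/
  α : I → GL (Fin 2) ℝ
  /-- the permutation action of `Γ` on the index set -/
  perm : Γ → Equiv.Perm I
  /-- the cocycle -/
  coc : Γ → I → Γ
  /-- the defining relation `α i * γ = coc γ i * α (perm γ i)` -/
  rel : ∀ (γ : Γ) (i : I),
    α i * Matrix.SpecialLinearGroup.mapGL ℝ (γ : SL(2, ℤ))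
      = Matrix.SpecialLinearGroup.mapGL ℝ ((coc γ i : Γ) : SL(2, ℤ)) * α (perm γ i)
  /-- `perm` is a right action -/
  perm_mul : ∀ (γ δ : Γ) (i : I), perm (γ * δ) i = perm δ (perm γ i)
  /-- the cocycle identity -/
  coc_mul : ∀ (γ δ : Γ) (i : I), coc (γ * δ) i = coc γ i * coc δ (perm γ i)

namespace HeckeReps

variable {Γ : Subgroup SL(2, ℤ)} {I : Type*} (H : HeckeReps Γ I)

/-! ### Formal consequences of the cocycle identities -/

@[simp] theorem perm_one (i : I) : H.perm 1 i = i := by
  have h := H.perm_mul 1 1 i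
  rw [mul_one] at h
  exact ((H.perm 1).injective h).symm

@[simp] theorem coc_one (i : I) : H.coc 1 i = 1 := by
  have h := H.coc_mul 1 1 i
  rw [mul_one, perm_one] at h
  have h2 : H.coc 1 i * H.coc 1 i = H.coc 1 i * 1 := by rw [mul_one]; exact h.symm
  exact mul_left_cancel h2

theorem perm_pow (γ : Γ) (m : ℕ) (i : I) : H.perm (γ ^ m) i = ((H.perm γ) ^ m) i := by
  induction m with
  | zero => simp
  | succ m ih => rw [pow_succ, H.perm_mul, ih, pow_succ', Equiv.Perm.mul_apply]

theorem perm_inv_perm (γ : Γ) (i : I) : H.perm γ⁻¹ (H.perm γ i) = i := by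
  rw [← H.perm_mul, mul_inv_cancel, perm_one]

theorem perm_perm_inv (γ : Γ) (i : I) : H.perm γ (H.perm γ⁻¹ i) = i := by
  rw [← H.perm_mul, inv_mul_cancel, perm_one]

theorem coc_inv (γ : Γ) (i : I) : H.coc γ⁻¹ (H.perm γ i) = (H.coc γ i)⁻¹ := by
  have h := H.coc_mul γ γ⁻¹ i
  rw [mul_inv_cancel, coc_one] at h
  exact eq_inv_of_mul_eq_one_right h.symm

/-- If `perm γ` fixes `i`, then `coc (γ ^ m) i = (coc γ i) ^ m`. -/
theorem coc_pow_of_fixed {γ : Γ} {i : I} (h : H.perm γ i = i) (m : ℕ) :
    H.coc (γ ^ m) i = H.coc γ i ^ m := by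
  have hfix : ∀ r : ℕ, H.perm (γ ^ r) i = i := by
    intro r
    induction r with
    | zero => simp
    | succ r ih => rw [pow_succ, H.perm_mul, ih, h]
  induction m with
  | zero => simp
  | succ m ih => rw [pow_succ, H.coc_mul, ih, hfix m, pow_succ]

/-- The value of a homomorphism on the cocycle of a power is the sum along the path. -/
theorem map_coc_pow {A : Type*} [AddCommGroup A] (φ : Additive Γ →+ A) (γ : Γ) (m : ℕ) (i : I) :
    φ (Additive.ofMul (H.coc (γ ^ m) i))
      = ∑ s ∈ Finset.range m, φ (Additive.ofMul (H.coc γ (((H.perm γ) ^ s) i))) := by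
  induction m with
  | zero => simp
  | succ m ih =>
    rw [pow_succ, H.coc_mul, ofMul_mul, map_add, ih, Finset.sum_range_succ, perm_pow]

/-! ### The relation in `GL(2, ℝ)` and on the upper half plane -/

/-- The relation on `ℍ`: `α i • (γ • z) = coc γ i • (α (perm γ i) • z)`. -/
theorem smul_smul (γ : Γ) (i : I) (z : UpperHalfPlane) :
    H.α i • ((γ : SL(2, ℤ)) • z)
      = ((H.coc γ i : Γ) : SL(2, ℤ)) • (H.α (H.perm γ i) • z) := by
  show H.α i • (Matrix.SpecialLinearGroup.mapGL ℝ (γ : SL(2, ℤ)) • z)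
    = Matrix.SpecialLinearGroup.mapGL ℝ ((H.coc γ i : Γ) : SL(2, ℤ)) • (H.α (H.perm γ i) • z)
  rw [← mul_smul, ← mul_smul, H.rel]

private theorem trace_mapGL (g : SL(2, ℤ)) :
    ((Matrix.SpecialLinearGroup.mapGL ℝ g : GL (Fin 2) ℝ) : Matrix (Fin 2) (Fin 2) ℝ).trace
      = (((g : Matrix (Fin 2) (Fin 2) ℤ).trace : ℤ) : ℝ) := by
  rw [Matrix.SpecialLinearGroup.mapGL_coe_matrix, Matrix.trace_fin_two, Matrix.trace_fin_two]
  simp

/-- At a fixed index, `coc γ i = α i * γ * (α i)⁻¹` has the same trace as `γ`. -/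
theorem trace_coc_of_fixed {γ : Γ} {i : I} (h : H.perm γ i = i) :
    (((H.coc γ i : Γ) : SL(2, ℤ)) : Matrix (Fin 2) (Fin 2) ℤ).trace
      = ((γ : SL(2, ℤ)) : Matrix (Fin 2) (Fin 2) ℤ).trace := by
  have hr := H.rel γ i
  rw [h] at hr
  have h2 : Matrix.SpecialLinearGroup.mapGL ℝ ((H.coc γ i : Γ) : SL(2, ℤ))
      = H.α i * Matrix.SpecialLinearGroup.mapGL ℝ (γ : SL(2, ℤ)) * (H.α i)⁻¹ := by
    rw [hr, mul_inv_cancel_right]
  have h3 := congrArg (fun g : GL (Fin 2) ℝ => (g : Matrix (Fin 2) (Fin 2) ℝ).trace) h2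
  simp only [Matrix.GeneralLinearGroup.coe_mul] at h3
  rw [Matrix.trace_mul_comm, ← Matrix.mul_assoc, ← Matrix.GeneralLinearGroup.coe_mul,
    inv_mul_cancel, Matrix.GeneralLinearGroup.coe_one, Matrix.one_mul, trace_mapGL,
    trace_mapGL] at h3
  exact_mod_cast h3

/-! ### The transfer operator on `Hom(Γ, A)` -/

section Operator

variable [Fintype I]

/-- The transfer (double-coset) operator attached to `H` on additive homomorphisms `Γ → A`. -/
noncomputable def dHom (A : Type*) [AddCommGroup A] :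
    (Additive Γ →+ A) →+ (Additive Γ →+ A) where
  toFun φ :=
    { toFun := fun γ => ∑ i : I, φ (Additive.ofMul (H.coc (Additive.toMul γ) i))
      map_zero' := by simp
      map_add' := by
        intro γ δ
        have h1 : ∀ i : I,
            φ (Additive.ofMul (H.coc (Additive.toMul (γ + δ)) i))
              = φ (Additive.ofMul (H.coc (Additive.toMul γ) i))
                + φ (Additive.ofMul (H.coc (Additive.toMul δ) (H.perm (Additive.toMul γ) i))) := by
          intro i
          rw [toMul_add, H.coc_mul, ofMul_mul, map_add]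
        simp only [h1, Finset.sum_add_distrib]
        congr 1
        exact Equiv.sum_comp (H.perm (Additive.toMul γ))
          (fun i => φ (Additive.ofMul (H.coc (Additive.toMul δ) i))) }
  map_zero' := by
    ext γ
    simp
  map_add' φ ψ := by
    ext γ
    simp [Finset.sum_add_distrib]

theorem dHom_apply {A : Type*} [AddCommGroup A] (φ : Additive Γ →+ A) (γ : Γ) :
    H.dHom A φ (Additive.ofMul γ) = ∑ i : I, φ (Additive.ofMul (H.coc γ i)) := rfl

/-- Naturality in the coefficient group. -/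
theorem dHom_comp {A B : Type*} [AddCommGroup A] [AddCommGroup B] (f : A →+ B)
    (φ : Additive Γ →+ A) : H.dHom B (f.comp φ) = f.comp (H.dHom A φ) := by
  ext γ
  simp [dHom]

theorem dHom_smul {R A : Type*} [Semiring R] [AddCommGroup A] [Module R A] (c : R)
    (φ : Additive Γ →+ A) : H.dHom A (c • φ) = c • H.dHom A φ := by
  ext γ
  simp [dHom, Finset.smul_sum]

/-- The transfer operator as an `R`-linear map. -/
noncomputable def dLin (R A : Type*) [Semiring R] [AddCommGroup A] [Module R A] :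
    (Additive Γ →+ A) →ₗ[R] (Additive Γ →+ A) where
  toFun := H.dHom A
  map_add' := map_add (H.dHom A)
  map_smul' c φ := H.dHom_smul c φ

@[simp] theorem dLin_apply (R : Type*) {A : Type*} [Semiring R] [AddCommGroup A] [Module R A]
    (φ : Additive Γ →+ A) : H.dLin R A φ = H.dHom A φ := rfl

/-- `dHom φ γ = 0` as soon as `φ` kills all `coc (γ ^ m) i` with `i` fixed by `perm (γ ^ m)`
(these are the `α i * γ ^ m * (α i)⁻¹`). -/
theorem dHom_apply_eq_zero {A : Type*} [AddCommGroup A] (φ : Additive Γ →+ A) (γ : Γ)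
    (h : ∀ (m : ℕ) (i : I), 0 < m → H.perm (γ ^ m) i = i →
      φ (Additive.ofMul (H.coc (γ ^ m) i)) = 0) :
    H.dHom A φ (Additive.ofMul γ) = 0 := by
  classical
  rw [dHom_apply]
  refine Fermat.Agent.ES.HEQ.DoubleCoset27.sum_eq_zero_of_cycle_sums (H.perm γ)
    (fun i => φ (Additive.ofMul (H.coc γ i))) ?_ Finset.univ (fun i _ => Finset.mem_univ _)
  intro i m hm hfix
  rw [← H.map_coc_pow]
  exact h m i hm (by rw [H.perm_pow]; exact hfix)

/-- The transfer operator preserves parabolic homomorphisms. -/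
theorem isParabolicHom_dHom {A : Type*} [AddCommGroup A] {φ : Additive Γ →+ A}
    (hφ : IsParabolicHom Γ φ) : IsParabolicHom Γ (H.dHom A φ) := by
  intro γ hγ
  refine H.dHom_apply_eq_zero φ γ ?_
  intro m i _ hfix
  refine hφ _ ?_
  rw [H.trace_coc_of_fixed hfix, Subgroup.coe_pow]
  exact Fermat.Agent.ES.HEQ.DoubleCosetPar27.trace_pow_sq_eq_four _ hγ m

/-- The transfer operator preserves the homomorphisms killing all elements of finite order. -/
theorem dHom_apply_eq_zero_of_pow_eq_one {A : Type*} [AddCommGroup A]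
    {φ : Additive Γ →+ A}
    (hφ : ∀ (δ : Γ) (r : ℕ), 0 < r → δ ^ r = 1 → φ (Additive.ofMul δ) = 0)
    (γ : Γ) {r : ℕ} (hr0 : 0 < r) (hr : γ ^ r = 1) :
    H.dHom A φ (Additive.ofMul γ) = 0 := by
  refine H.dHom_apply_eq_zero φ γ ?_
  intro m i _ hfix
  refine hφ _ r hr0 ?_
  rw [← H.coc_pow_of_fixed hfix, ← pow_mul, mul_comm, pow_mul, hr, one_pow, coc_one]

/-- The transfer operator on `parabolicHoms R Γ A`. -/
noncomputable def dPar (R A : Type*) [Semiring R] [AddCommGroup A] [Module R A] :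
    parabolicHoms R Γ A →ₗ[R] parabolicHoms R Γ A where
  toFun φ := ⟨H.dHom A φ.1, H.isParabolicHom_dHom φ.2⟩
  map_add' φ ψ := Subtype.ext (map_add (H.dHom A) φ.1 ψ.1)
  map_smul' c φ := Subtype.ext (H.dHom_smul c φ.1)

@[simp] theorem coe_dPar (R : Type*) {A : Type*} [Semiring R] [AddCommGroup A] [Module R A]
    (φ : parabolicHoms R Γ A) :
    ((H.dPar R A φ : parabolicHoms R Γ A) : Additive Γ →+ A) = H.dHom A φ.1 := rfl

/-- Naturality of `dPar` with respect to a linear map of coefficient modules, on underlying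
homomorphisms. -/
theorem coe_dPar_comp (R : Type*) {A B : Type*} [Semiring R] [AddCommGroup A] [Module R A]
    [AddCommGroup B] [Module R B] (f : A →+ B) (φ : parabolicHoms R Γ A)
    (ψ : parabolicHoms R Γ B) (h : (ψ : Additive Γ →+ B) = f.comp (φ : Additive Γ →+ A)) :
    ((H.dPar R B ψ : parabolicHoms R Γ B) : Additive Γ →+ B)
      = f.comp ((H.dPar R A φ : parabolicHoms R Γ A) : Additive Γ →+ A) := by
  rw [coe_dPar, coe_dPar, h, H.dHom_comp]

/-- The transfer operator on characters `Γ →* M` (multiplicative notation). -/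
noncomputable def dMul {M : Type*} [CommGroup M] (χ : Γ →* M) : Γ →* M where
  toFun γ := ∏ i : I, χ (H.coc γ i)
  map_one' := by simp
  map_mul' γ δ := by
    simp only [H.coc_mul, map_mul, Finset.prod_mul_distrib]
    congr 1
    exact Equiv.prod_comp (H.perm γ) (fun i => χ (H.coc δ i))

theorem dMul_apply {M : Type*} [CommGroup M] (χ : Γ →* M) (γ : Γ) :
    H.dMul χ γ = ∏ i : I, χ (H.coc γ i) := rfl

theorem dMul_comp {M M' : Type*} [CommGroup M] [CommGroup M'] (f : M →* M') (χ : Γ →* M) :
    H.dMul (f.comp χ) = f.comp (H.dMul χ) := by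
  ext γ
  simp [dMul]

/-- `dMul` is `dHom` read multiplicatively. -/
theorem dMul_eq_toMul_dHom {M : Type*} [CommGroup M] (χ : Γ →* M) (γ : Γ) :
    H.dMul χ γ
      = Additive.toMul (H.dHom (Additive M) (MonoidHom.toAdditive χ) (Additive.ofMul γ)) := by
  rw [dHom_apply, toMul_sum, dMul_apply]
  rfl

end Operator

end HeckeReps

end Fermat.Agent.DS.Per1.HeckeReps
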