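/-
Programme DS (S48), chapter X1-PER, brick PER-A (helper91).

The period map of weight-2 cusp forms for an ARBITRARY finite-index subgroup `Γ ≤ SL(2, ℤ)`:

  `perG Γ : CuspForm Γ 2 →ₗ[ℂ] (Additive Γ →+ ℂ)`,  `perG Γ f γ = Fp f (γ • z) - Fp f z` (any `z`),

where `Fp f` is the primitive of `f` vanishing at `i∞` (`S21/PeriodPrim`).  The periods are
parabolic homomorphisms.  This is the `Γ`-generic version of `S21/PeriodPrim` + `S21/Parabolic`
(which are tied to the Prelude's `ModularCurve.periodMap N`, a `Γ₀(N)`-only definition).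
-/
import Mathlib
import Fermat.Prelude.Def_ModularCurve_PeriodMap
import Fermat.Agent.S21.PeriodPrim
import Fermat.Agent.S21.Parabolic

set_option autoImplicit false

namespace Fermat.Agent.DS.Per1.PerG

open UpperHalfPlane hiding I
open Complex Filter Topology Asymptotics
open scoped Manifold ModularForm MatrixGroups
open Fermat.Agent.S22 Fermat.Agent.S21.PeriodPrim Matrix.SpecialLinearGroup
open ModularCurve.Period

variable (Γ : Subgroup SL(2, ℤ))

/-- Weight-two cusp forms of level `Γ`. -/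
abbrev CF : Type := CuspForm (Γ : Subgroup (GL (Fin 2) ℝ)) 2

variable {Γ}

theorem cusp_mdiff (f : CF Γ) : MDiff (f : ℍ → ℂ) := CuspFormClass.holo f

theorem cusp_slash_eq (f : CF Γ) (γ : Γ) :
    (f : ℍ → ℂ) ∣[(2 : ℤ)] (mapGL ℝ (γ : SL(2, ℤ))) = f :=
  SlashInvariantForm.slash_action_eqn f _ (Subgroup.mem_map_of_mem _ γ.2)

variable [Γ.FiniteIndex]

theorem cusp_decay (f : CF Γ) :
    ∃ a > 0, (f : ℍ → ℂ) =O[atImInfty] fun τ => Real.exp (-a * τ.im) :=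
  CuspFormClass.exp_decay_atImInfty' f

theorem cusp_slash_decay (f : CF Γ) (δ : SL(2, ℤ)) :
    ∃ a > 0, ((f : ℍ → ℂ) ∣[(2 : ℤ)] (mapGL ℝ δ)) =O[atImInfty] fun τ => Real.exp (-a * τ.im) := by
  obtain ⟨a, ha, h⟩ := expDecay_slash_SL f δ
  exact ⟨a, ha, h⟩

/-- `Fp f` transforms under `γ ∈ Γ` by an additive constant. -/
theorem Fp_isEquivariantPrimitive (f : CF Γ) : IsEquivariantPrimitive Γ (Fp f) := by
  intro γ
  obtain ⟨a, ha, hfd⟩ := cusp_decay f
  obtain ⟨c, hc⟩ := Fp_smul_sub_const ha ha (cusp_mdiff f) hfd (mapGL ℝ (γ : SL(2, ℤ)))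
    (det_mapGL_pos _) (by rw [cusp_slash_eq]; exact hfd)
  refine ⟨c, fun z => ?_⟩
  have := hc z
  rw [cusp_slash_eq] at this
  exact this

/-- Limits at all cusps. -/
theorem Fp_cusp_limit (f : CF Γ) (δ : SL(2, ℤ)) :
    ∃ L : ℂ, Tendsto (fun w : ℍ => Fp f (δ • w)) atImInfty (𝓝 L) := by
  obtain ⟨a, ha, hfd⟩ := cusp_decay f
  obtain ⟨b, hb, hgd⟩ := cusp_slash_decay f δ
  obtain ⟨c, hc⟩ := Fp_smul_sub_const ha hb (cusp_mdiff f) hfd (mapGL ℝ δ)
    (det_mapGL_pos _) hgd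
  refine ⟨c, ?_⟩
  have h0 := tendsto_Fp hb ((cusp_mdiff f).slash _ _) hgd
  have h1 : Tendsto (fun w : ℍ => c + Fp ((f : ℍ → ℂ) ∣[(2 : ℤ)] (mapGL ℝ δ)) w) atImInfty
      (𝓝 (c + 0)) := tendsto_const_nhds.add h0
  rw [add_zero] at h1
  refine h1.congr fun w => ?_
  have := hc w
  have e : (mapGL ℝ δ : GL (Fin 2) ℝ) • w = δ • w := rfl
  rw [e] at this
  rw [← this]; ring

theorem hasDerivAt_Fp_cusp (f : CF Γ) (z : ℍ) :
    HasDerivAt (Fp f ∘ ofComplex) (f z) (z : ℂ) := by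
  obtain ⟨a, ha, hfd⟩ := cusp_decay f
  exact hasDerivAt_Fp ha (cusp_mdiff f) hfd z

theorem tendsto_Fp_cusp (f : CF Γ) : Tendsto (Fp f) atImInfty (𝓝 0) := by
  obtain ⟨a, ha, hfd⟩ := cusp_decay f
  exact tendsto_Fp ha (cusp_mdiff f) hfd

/-- The period homomorphism of a cusp form of level `Γ`. -/
noncomputable def perHom (f : CF Γ) : Additive Γ →+ ℂ := (Fp_isEquivariantPrimitive f).periodHom

theorem perHom_apply (f : CF Γ) (γ : Γ) (z : ℍ) :
    perHom f (Additive.ofMul γ) = Fp f ((γ : SL(2, ℤ)) • z) - Fp f z := by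
  rw [perHom, IsEquivariantPrimitive.periodHom_apply,
    ← IsEquivariantPrimitive.sub_eq_period _ γ z]

theorem perHom_add (f g : CF Γ) : perHom (f + g) = perHom f + perHom g := by
  obtain ⟨a, ha, hfd⟩ := cusp_decay f
  obtain ⟨b, hb, hgd⟩ := cusp_decay g
  refine AddMonoidHom.ext fun γ => ?_
  obtain ⟨γ, rfl⟩ := Additive.ofMul.surjective γ
  rw [AddMonoidHom.add_apply, perHom_apply _ γ UpperHalfPlane.I,
    perHom_apply _ γ UpperHalfPlane.I, perHom_apply _ γ UpperHalfPlane.I]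
  have e : ((f + g : CF Γ) : ℍ → ℂ) = (f : ℍ → ℂ) + (g : ℍ → ℂ) := rfl
  rw [e, Fp_add ha hb (cusp_mdiff f) (cusp_mdiff g) hfd hgd,
    Fp_add ha hb (cusp_mdiff f) (cusp_mdiff g) hfd hgd]
  ring

theorem perHom_smul (c : ℂ) (f : CF Γ) : perHom (c • f) = c • perHom f := by
  refine AddMonoidHom.ext fun γ => ?_
  obtain ⟨γ, rfl⟩ := Additive.ofMul.surjective γ
  rw [AddMonoidHom.smul_apply, perHom_apply _ γ UpperHalfPlane.I,
    perHom_apply _ γ UpperHalfPlane.I]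
  have e : ((c • f : CF Γ) : ℍ → ℂ) = c • (f : ℍ → ℂ) := rfl
  rw [e, Fp_smul, Fp_smul, smul_eq_mul]
  ring

variable (Γ)

/-- **The period map** of level `Γ`, as a `ℂ`-linear map. -/
noncomputable def perG : CF Γ →ₗ[ℂ] (Additive Γ →+ ℂ) where
  toFun f := perHom f
  map_add' := perHom_add
  map_smul' c f := by simpa using perHom_smul c f

variable {Γ}

theorem perG_apply (f : CF Γ) (γ : Γ) (z : ℍ) :
    perG Γ f (Additive.ofMul γ) = Fp f ((γ : SL(2, ℤ)) • z) - Fp f z :=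
  perHom_apply f γ z

/-- Periods of elements of trace `±2` vanish. -/
theorem perG_eq_zero_of_trace (f : CF Γ) (γ : Γ)
    (h : ((γ : SL(2, ℤ)) : Matrix (Fin 2) (Fin 2) ℤ).trace ^ 2 = 4) :
    perG Γ f (Additive.ofMul γ) = 0 := by
  obtain ⟨δ, hδ⟩ := Fermat.Agent.S21.Parabolic.exists_conj_c_eq_zero (γ : SL(2, ℤ)) h
  obtain ⟨L, hL⟩ := Fp_cusp_limit f δ
  have hg := Fermat.Agent.S21.Parabolic.tendsto_SL_smul_atImInfty hδ
  have h1 : Tendsto (fun w : ℍ => Fp f (δ • ((δ⁻¹ * (γ : SL(2, ℤ)) * δ) • w))) atImInfty (𝓝 L) :=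
    hL.comp hg
  have h2 : ∀ w : ℍ, Fp f (δ • ((δ⁻¹ * (γ : SL(2, ℤ)) * δ) • w)) - Fp f (δ • w)
      = perG Γ f (Additive.ofMul γ) := by
    intro w
    rw [perG_apply f γ (δ • w)]
    congr 2
    rw [← mul_smul, ← mul_smul]
    congr 1
    group
  have h3 : Tendsto (fun w : ℍ => Fp f (δ • ((δ⁻¹ * (γ : SL(2, ℤ)) * δ) • w)) - Fp f (δ • w))
      atImInfty (𝓝 (L - L)) := h1.sub hL
  simp only [h2, sub_self] at h3
  exact tendsto_nhds_unique tendsto_const_nhds h3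

/-- **Periods are parabolic homomorphisms.** -/
theorem perG_mem_parabolicHoms (f : CF Γ) : perG Γ f ∈ parabolicHoms ℂ Γ ℂ := by
  rw [mem_parabolicHoms_iff]
  intro γ hγ
  exact perG_eq_zero_of_trace f γ hγ

end Fermat.Agent.DS.Per1.PerG
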