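/-
DS programme (S48), chapter G-PER (helper78): the algebraic core of the Hecke equivariance of the
period map (PER-D), for abstract Hecke representatives.

If `F` is a `Γ`-equivariant primitive (prelude `IsEquivariantPrimitive Γ F`: `F (γ • z) - F z` is
independent of `z`), then so is `z ↦ ∑ i, F (α i • z)`, and its period homomorphism is
`dHom (periodHom F)`.  No analysis is involved: only the relation
`α i • (γ • z) = coc γ i • (α (perm γ i) • z)` and the bijectivity of `perm γ`.

Intended use: `F` a primitive of the weight-2 form `f`; then `F ∘ α i` is a primitive of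
`f ∣[2] α i` (chain rule), so `∑ i, F ∘ α i` is a primitive of `∑ i, f ∣[2] α i`, and any other
primitive of the latter differs from it by a constant (`periodHom_eq_of_sub_const`).
-/
import Mathlib
import Fermat.Agent.DS.Per1.HeckeReps

set_option autoImplicit false

open Matrix ModularCurve.Period UpperHalfPlane
open scoped MatrixGroups

namespace Fermat.Agent.DS.Per1.RepsPeriod

open Fermat.Agent.DS.Per1.HeckeReps

variable {Γ : Subgroup SL(2, ℤ)} {I : Type*} [Fintype I] (H : HeckeReps Γ I)

/-- Two equivariant primitives differing by a constant have the same periods. -/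
theorem periodHom_eq_of_sub_const {F G : ℍ → ℂ} (hF : IsEquivariantPrimitive Γ F)
    (hG : IsEquivariantPrimitive Γ G) (c : ℂ) (h : ∀ z, G z - F z = c) :
    hG.periodHom = hF.periodHom := by
  ext γ
  show hG.period (Additive.toMul γ) = hF.period (Additive.toMul γ)
  unfold IsEquivariantPrimitive.period
  have h1 := h (((Additive.toMul γ : Γ) : SL(2, ℤ)) • UpperHalfPlane.I)
  have h2 := h UpperHalfPlane.I
  linear_combination h1 - h2

/-- A function differing by a constant from an equivariant primitive is an equivariant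
primitive. -/
theorem isEquivariantPrimitive_of_sub_const {F G : ℍ → ℂ} (hF : IsEquivariantPrimitive Γ F)
    (c : ℂ) (h : ∀ z, G z - F z = c) : IsEquivariantPrimitive Γ G := by
  intro γ
  obtain ⟨a, ha⟩ := hF γ
  refine ⟨a, fun z => ?_⟩
  have h1 := h ((γ : SL(2, ℤ)) • z)
  have h2 := h z
  linear_combination ha z + h1 - h2

/-- The key identity: the variation of `z ↦ ∑ i, F (α i • z)` along `γ` is the sum of the periods
of `F` along the cocycle. -/
theorem sum_sub_eq {F : ℍ → ℂ} (hF : IsEquivariantPrimitive Γ F) (γ : Γ) (z : ℍ) :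
    (∑ i : I, F (H.α i • ((γ : SL(2, ℤ)) • z))) - ∑ i : I, F (H.α i • z)
      = ∑ i : I, hF.period (H.coc γ i) := by
  have h1 : ∀ i : I, F (H.α i • ((γ : SL(2, ℤ)) • z))
      = hF.period (H.coc γ i) + F (H.α (H.perm γ i) • z) := by
    intro i
    rw [H.smul_smul, ← hF.sub_eq_period (H.coc γ i) (H.α (H.perm γ i) • z)]
    ring
  simp only [h1, Finset.sum_add_distrib]
  rw [Equiv.sum_comp (H.perm γ) (fun i => F (H.α i • z))]
  ring

/-- `z ↦ ∑ i, F (α i • z)` is an equivariant primitive. -/
theorem isEquivariantPrimitive_sum {F : ℍ → ℂ} (hF : IsEquivariantPrimitive Γ F) :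
    IsEquivariantPrimitive Γ (fun z => ∑ i : I, F (H.α i • z)) :=
  fun γ => ⟨∑ i : I, hF.period (H.coc γ i), fun z => sum_sub_eq H hF γ z⟩

/-- **Hecke equivariance, algebraic form**: the period homomorphism of `z ↦ ∑ i, F (α i • z)` is
the transfer of the period homomorphism of `F`. -/
theorem periodHom_sum {F : ℍ → ℂ} (hF : IsEquivariantPrimitive Γ F) :
    (isEquivariantPrimitive_sum H hF).periodHom = H.dHom ℂ hF.periodHom := by
  ext γ
  show (isEquivariantPrimitive_sum H hF).period (Additive.toMul γ)
    = ∑ i : I, hF.periodHom (Additive.ofMul (H.coc (Additive.toMul γ) i))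
  simp only [IsEquivariantPrimitive.periodHom_apply]
  unfold IsEquivariantPrimitive.period
  exact sum_sub_eq H hF (Additive.toMul γ) UpperHalfPlane.I

/-- Consumer form: any equivariant primitive `G` which differs from `z ↦ ∑ i, F (α i • z)` by a
constant has period homomorphism `dHom (periodHom F)`. -/
theorem periodHom_eq_dHom {F G : ℍ → ℂ} (hF : IsEquivariantPrimitive Γ F)
    (hG : IsEquivariantPrimitive Γ G) (c : ℂ)
    (h : ∀ z, G z - ∑ i : I, F (H.α i • z) = c) :
    hG.periodHom = H.dHom ℂ hF.periodHom := by
  rw [← periodHom_sum H hF]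
  exact periodHom_eq_of_sub_const (isEquivariantPrimitive_sum H hF) hG c h

/-- Pointwise consumer form, avoiding the structure `IsEquivariantPrimitive` for `G`. -/
theorem sub_eq_dHom_apply {F G : ℍ → ℂ} (hF : IsEquivariantPrimitive Γ F) (c : ℂ)
    (h : ∀ z, G z - ∑ i : I, F (H.α i • z) = c) (γ : Γ) (z : ℍ) :
    G ((γ : SL(2, ℤ)) • z) - G z = H.dHom ℂ hF.periodHom (Additive.ofMul γ) := by
  rw [HeckeReps.dHom_apply]
  simp only [IsEquivariantPrimitive.periodHom_apply]
  have h1 := h ((γ : SL(2, ℤ)) • z)
  have h2 := h z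
  have h3 := sum_sub_eq H hF γ z
  linear_combination h1 - h2 + h3

end Fermat.Agent.DS.Per1.RepsPeriod
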