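/-
Programme DS (S48), chapter G-PER, brick PER-D (helper91): Hecke equivariance of the period map.

If `g = ∑ i, f ∣[2] α i` for abstract Hecke representatives `H : HeckeReps Γ I` (each summand
decaying exponentially at `i∞`, each `α i` of positive determinant), then the periods of `g` are
the transfer `H.dHom` of the periods of `f`:

  `perG Γ g = H.dHom ℂ (perG Γ f)`.

The proof needs no new analysis: `Fp f (α • z) - Fp (f ∣[2] α) z` is constant
(`S21/PeriodPrim.Fp_smul_sub_const`), `Fp` is additive, and the algebraic core is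
`Per1/RepsPeriod.periodHom_eq_dHom` (helper78).
-/
import Mathlib
import Fermat.Prelude.Def_ModularCurve_PeriodMap
import Fermat.Agent.S21.PeriodPrim
import Fermat.Agent.DS.Per1.PerG
import Fermat.Agent.DS.Per1.HeckeReps
import Fermat.Agent.DS.Per1.RepsPeriod

set_option autoImplicit false

namespace Fermat.Agent.DS.Per1.PerHecke

open UpperHalfPlane hiding I
open Complex Filter Topology Asymptotics
open scoped Manifold ModularForm MatrixGroups
open Fermat.Agent.S22 Fermat.Agent.S21.PeriodPrim Matrix.SpecialLinearGroup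
open ModularCurve.Period
open Fermat.Agent.DS.Per1.PerG Fermat.Agent.DS.Per1.HeckeReps

/-- Exponential decay at `i∞` (with some positive rate). -/
def Dec (F : ℍ → ℂ) : Prop :=
  ∃ a > 0, F =O[atImInfty] fun τ => Real.exp (-a * τ.im)

theorem isBigO_exp_mono {F : ℍ → ℂ} {a c : ℝ} (hca : c ≤ a)
    (hF : F =O[atImInfty] fun τ => Real.exp (-a * τ.im)) :
    F =O[atImInfty] fun τ => Real.exp (-c * τ.im) := by
  refine hF.trans (IsBigO.of_bound 1 (Eventually.of_forall fun τ => ?_))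
  rw [one_mul, Real.norm_eq_abs, Real.norm_eq_abs, abs_of_pos (Real.exp_pos _),
    abs_of_pos (Real.exp_pos _)]
  apply Real.exp_le_exp.mpr
  nlinarith [mul_nonneg (sub_nonneg.mpr hca) τ.im_pos.le]

theorem Dec.add {F G : ℍ → ℂ} (hF : Dec F) (hG : Dec G) : Dec (F + G) := by
  obtain ⟨a, ha, hFa⟩ := hF
  obtain ⟨b, hb, hGb⟩ := hG
  exact ⟨min a b, lt_min ha hb,
    (isBigO_exp_mono (min_le_left a b) hFa).add (isBigO_exp_mono (min_le_right a b) hGb)⟩

theorem dec_zero : Dec (0 : ℍ → ℂ) :=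
  ⟨1, one_pos, isBigO_zero _ _⟩

theorem Fp_zero (z : ℍ) : Fp (0 : ℍ → ℂ) z = 0 := by
  have h := Fp_smul (0 : ℂ) (0 : ℍ → ℂ) z
  rwa [zero_smul, zero_mul] at h

/-- `Fp` of a finite sum of holomorphic, exponentially decaying functions. -/
theorem Fp_sum {ι : Type*} (s : Finset ι) (F : ι → ℍ → ℂ)
    (hF : ∀ i ∈ s, MDiff (F i) ∧ Dec (F i)) :
    (MDiff (∑ i ∈ s, F i) ∧ Dec (∑ i ∈ s, F i)) ∧
      ∀ z : ℍ, Fp (∑ i ∈ s, F i) z = ∑ i ∈ s, Fp (F i) z := by
  classical
  induction s using Finset.induction_on with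
  | empty =>
    refine ⟨⟨?_, ?_⟩, fun z => ?_⟩
    · rw [Finset.sum_empty]
      exact mdifferentiable_const
    · rw [Finset.sum_empty]
      exact dec_zero
    · rw [Finset.sum_empty, Finset.sum_empty]
      exact Fp_zero z
  | insert j s hj ih =>
    obtain ⟨⟨ihd, ihdec⟩, ihz⟩ := ih fun i hi => hF i (Finset.mem_insert_of_mem hi)
    obtain ⟨hjd, hjdec⟩ := hF j (Finset.mem_insert_self j s)
    refine ⟨⟨?_, ?_⟩, fun z => ?_⟩
    · rw [Finset.sum_insert hj]
      exact hjd.add ihd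
    · rw [Finset.sum_insert hj]
      exact hjdec.add ihdec
    · obtain ⟨a, ha, hja⟩ := hjdec
      obtain ⟨b, hb, hsb⟩ := ihdec
      rw [Finset.sum_insert hj, Finset.sum_insert hj, Fp_add ha hb hjd ihd hja hsb, ihz]

variable {Γ : Subgroup SL(2, ℤ)} [Γ.FiniteIndex] {I : Type*} [Fintype I]

/-- **Hecke equivariance of the period map** (abstract Hecke representatives). -/
theorem perG_hecke (H : HeckeReps Γ I) (hdet : ∀ i, 0 < (H.α i).det.val) (f g : CF Γ)
    (hdec : ∀ i, ∃ a > 0, ((f : ℍ → ℂ) ∣[(2 : ℤ)] H.α i) =O[atImInfty]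
      fun τ => Real.exp (-a * τ.im))
    (hg : (g : ℍ → ℂ) = ∑ i, (f : ℍ → ℂ) ∣[(2 : ℤ)] H.α i) :
    perG Γ g = H.dHom ℂ (perG Γ f) := by
  classical
  obtain ⟨a, ha, hfd⟩ := cusp_decay f
  -- the constants `c i`
  have hc : ∀ i, ∃ c : ℂ, ∀ z : ℍ,
      Fp f (H.α i • z) - Fp ((f : ℍ → ℂ) ∣[(2 : ℤ)] H.α i) z = c := by
    intro i
    obtain ⟨b, hb, hbd⟩ := hdec i
    exact Fp_smul_sub_const ha hb (cusp_mdiff f) hfd (H.α i) (hdet i) hbd
  choose c hc using hc
  -- `Fp g` is the sum of the `Fp (f ∣ α i)`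
  have hsum := (Fp_sum Finset.univ (fun i => (f : ℍ → ℂ) ∣[(2 : ℤ)] H.α i)
    (fun i _ => ⟨(cusp_mdiff f).slash _ _, hdec i⟩)).2
  have hkey : ∀ z : ℍ, Fp g z - ∑ i : I, Fp f (H.α i • z) = -∑ i : I, c i := by
    intro z
    rw [hg, hsum z, ← Finset.sum_sub_distrib, ← Finset.sum_neg_distrib]
    refine Finset.sum_congr rfl fun i _ => ?_
    rw [← hc i z]
    ring
  exact Fermat.Agent.DS.Per1.RepsPeriod.periodHom_eq_dHom H (Fp_isEquivariantPrimitive f)
    (Fp_isEquivariantPrimitive g) _ hkey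

end Fermat.Agent.DS.Per1.PerHecke
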