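/-
Programme DS (S48), chapter X1-PER, brick PER-B (helper3): **injectivity of the period map** of
weight-2 cusp forms for an ARBITRARY finite-index subgroup `Γ ≤ SL(2, ℤ)`, in its real form.

* `eq_zero_of_re_perG_eq_zero` : if all periods of `f` have real part `0` then `f = 0`
  (maximum principle `S21.MaxPrinciple7.eq_const_of_norm_invariant` applied to `exp ∘ Fp f`);
* `perG_injective`, `finite_CF : Module.Finite ℂ (CF Γ)`;
* `rePer Γ : CF Γ →ₗ[ℝ] parabolicHoms ℝ Γ ℝ` (real parts of the periods), `rePer_injective`;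
* `two_mul_finrank_le : 2 * dim_ℂ S₂(Γ) ≤ dim_ℂ Hom_par(Γ, ℂ)` (no hypothesis on `-1`).
-/
import Mathlib
import Fermat.Agent.DS.Per1.PerG
import Fermat.Agent.S21.MaxPrinciple7
import Fermat.Agent.S21.PeriodInj
import Fermat.Agent.ES.HEQ.ParLattice11
import Fermat.Agent.S22.CocycleFG

set_option autoImplicit false

namespace Fermat.Agent.DS.Per1.PerInj

open UpperHalfPlane hiding I
open Complex Filter Topology Asymptotics
open scoped Manifold ModularForm MatrixGroups
open Fermat.Agent.S21.PeriodPrim Matrix.SpecialLinearGroup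
open ModularCurve.Period
open Fermat.Agent.DS.Per1.PerG
open Fermat.Agent.ES.HEQ.ParLattice11 (parBasis rk)

variable {Γ : Subgroup SL(2, ℤ)} [Γ.FiniteIndex]

/-! ### Periodicity at the cusps -/

/-- Some positive power of the parabolic element `δ T δ⁻¹` lies in `Γ`. -/
theorem exists_conj_T_pow_mem (δ : SL(2, ℤ)) :
    ∃ n : ℕ, 0 < n ∧ δ * ModularGroup.T ^ (n : ℤ) * δ⁻¹ ∈ Γ := by
  obtain ⟨n, hn, -, hmem⟩ :=
    Subgroup.exists_pow_mem_of_index_ne_zero (H := Γ) Subgroup.FiniteIndex.index_ne_zero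
      (δ * ModularGroup.T * δ⁻¹)
  refine ⟨n, hn, ?_⟩
  rw [zpow_natCast, ← conj_pow]
  exact hmem

/-- `Fp f` is periodic at every cusp. -/
theorem exists_Fp_periodic (f : CF Γ) (δ : SL(2, ℤ)) :
    ∃ M : ℕ, 0 < M ∧ ∀ w : ℍ, Fp f (δ • ((M : ℝ) +ᵥ w)) = Fp f (δ • w) := by
  obtain ⟨n, hn, hmem⟩ := exists_conj_T_pow_mem (Γ := Γ) δ
  refine ⟨n, hn, fun w => ?_⟩
  set γ : Γ := ⟨δ * ModularGroup.T ^ (n : ℤ) * δ⁻¹, hmem⟩ with hγ
  have h1 := perG_apply f γ (δ • w)
  have h2 : perG Γ f (Additive.ofMul γ) = 0 :=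
    perG_eq_zero_of_trace f γ (Fermat.Agent.S21.PeriodInj.conj_T_pow_trace _ δ)
  have h3 : ((γ : Γ) : SL(2, ℤ)) • (δ • w) = δ • ((n : ℝ) +ᵥ w) := by
    show (δ * ModularGroup.T ^ (n : ℤ) * δ⁻¹) • (δ • w) = _
    rw [mul_smul, inv_smul_smul, mul_smul, modular_T_zpow_smul]
    simp
  rw [h2, h3] at h1
  exact (sub_eq_zero.mp h1.symm)

theorem mdiff_Fp (f : CF Γ) : MDiff (Fp f) := by
  rw [UpperHalfPlane.mdifferentiable_iff]
  intro w hw
  have := hasDerivAt_Fp_cusp f ⟨w, hw⟩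
  exact this.differentiableAt.differentiableWithinAt

/-! ### Injectivity -/

/-- **Injectivity of the real period map.**  If all periods of the weight-2 cusp form `f` of level
`Γ` are purely imaginary, then `f = 0`. -/
theorem eq_zero_of_re_perG_eq_zero (f : CF Γ)
    (h : ∀ γ : Γ, (perG Γ f (Additive.ofMul γ)).re = 0) : f = 0 := by
  set φ : ℍ → ℂ := fun z => Complex.exp (Fp f z) with hφ
  have hG : MDiff (Fp f) := mdiff_Fp f
  have hφd : MDiff φ := by
    rw [UpperHalfPlane.mdifferentiable_iff]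
    exact (UpperHalfPlane.mdifferentiable_iff.mp hG).cexp
  have hinv : ∀ γ ∈ Γ, ∀ z : ℍ, ‖φ (γ • z)‖ = ‖φ z‖ := by
    intro γ hγ z
    have h1 := perG_apply f ⟨γ, hγ⟩ z
    have h2 : Fp f (γ • z) = Fp f z + perG Γ f (Additive.ofMul (⟨γ, hγ⟩ : Γ)) := by
      rw [h1]; ring
    simp only [hφ, Complex.norm_exp, h2, Complex.add_re, h ⟨γ, hγ⟩, add_zero]
  have hper : ∀ δ : SL(2, ℤ), ∃ M : ℕ, 0 < M ∧
      ∀ w : ℍ, φ (δ • ((M : ℝ) +ᵥ w)) = φ (δ • w) := by
    intro δ
    obtain ⟨M, hM, hMper⟩ := exists_Fp_periodic f δ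
    exact ⟨M, hM, fun w => by simp only [hφ, hMper w]⟩
  have hbdd : ∀ δ : SL(2, ℤ), IsBoundedAtImInfty (fun w : ℍ => φ (δ • w)) := by
    intro δ
    obtain ⟨L, hL⟩ := Fp_cusp_limit f δ
    have h1 : Tendsto (fun w : ℍ => φ (δ • w)) atImInfty (𝓝 (Complex.exp L)) :=
      (Complex.continuous_exp.tendsto L).comp hL
    exact h1.isBigO_one ℝ
  obtain ⟨c, hc⟩ :=
    Fermat.Agent.S21.MaxPrinciple7.eq_const_of_norm_invariant Γ hφd hinv hper hbdd
  have hzero : ∀ z : ℍ, f z = 0 := by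
    intro z
    have hGd := hasDerivAt_Fp_cusp f z
    have h1 : HasDerivAt (fun w => Complex.exp ((Fp f ∘ ofComplex) w))
        (Complex.exp ((Fp f ∘ ofComplex) (z : ℂ)) * f z) (z : ℂ) := hGd.cexp
    have h2 : (fun w => Complex.exp ((Fp f ∘ ofComplex) w)) =ᶠ[𝓝 (z : ℂ)] fun _ => c := by
      filter_upwards [isOpen_upperHalfPlaneSet.mem_nhds z.im_pos] with w _
      exact hc _
    have h3 : HasDerivAt (fun _ : ℂ => c) (Complex.exp ((Fp f ∘ ofComplex) (z : ℂ)) * f z)
        (z : ℂ) := h1.congr_of_eventuallyEq h2.symm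
    have h4 := h3.unique (hasDerivAt_const (z : ℂ) c)
    exact (mul_eq_zero.mp h4).resolve_left (Complex.exp_ne_zero _)
  exact DFunLike.ext _ _ hzero

/-- **The period map of level `Γ` is injective.** -/
theorem perG_injective : Function.Injective (perG Γ) := by
  rw [injective_iff_map_eq_zero]
  intro f hf
  apply eq_zero_of_re_perG_eq_zero f
  intro γ
  rw [hf]
  rfl

/-! ### The real period map -/

/-- Real part, as an additive map. -/
def reHom : ℂ →+ ℝ := Complex.reLm.toAddMonoidHom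

@[simp] theorem reHom_apply (z : ℂ) : reHom z = z.re := rfl

variable (Γ) in
/-- The real parts of the periods: `f ↦ (γ ↦ Re (perG Γ f γ))`, an `ℝ`-linear map into the
parabolic homomorphisms `Γ → ℝ`. -/
noncomputable def rePer : CF Γ →ₗ[ℝ] parabolicHoms ℝ Γ ℝ where
  toFun f := ⟨reHom.comp (perG Γ f), by
    rw [mem_parabolicHoms_iff]
    intro γ hγ
    show (perG Γ f (Additive.ofMul γ)).re = 0
    rw [perG_eq_zero_of_trace f γ hγ]
    rfl⟩
  map_add' f g := by
    apply Subtype.ext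
    refine AddMonoidHom.ext fun γ => ?_
    show (perG Γ (f + g) γ).re = (perG Γ f γ).re + (perG Γ g γ).re
    rw [map_add, AddMonoidHom.add_apply, Complex.add_re]
  map_smul' c f := by
    apply Subtype.ext
    refine AddMonoidHom.ext fun γ => ?_
    show (perG Γ (c • f) γ).re = c * (perG Γ f γ).re
    have e : (c • f : CF Γ) = ((c : ℂ) • f : CF Γ) := rfl
    rw [e, map_smul, AddMonoidHom.smul_apply, smul_eq_mul, Complex.re_ofReal_mul]

theorem rePer_apply (f : CF Γ) (γ : Additive Γ) :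
    ((rePer Γ f : parabolicHoms ℝ Γ ℝ) : Additive Γ →+ ℝ) γ = (perG Γ f γ).re := rfl

theorem rePer_injective : Function.Injective (rePer Γ) := by
  rw [injective_iff_map_eq_zero]
  intro f hf
  apply eq_zero_of_re_perG_eq_zero f
  intro γ
  have := congrArg (fun χ : parabolicHoms ℝ Γ ℝ => (χ : Additive Γ →+ ℝ) (Additive.ofMul γ)) hf
  simpa [rePer_apply] using this

/-! ### Dimensions -/

variable (Γ) in
theorem fg : Γ.FG := Fermat.Agent.S22.fg_of_finiteIndex Γ

variable (Γ) in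
theorem finite_par_complex : Module.Finite ℂ (parabolicHoms ℂ Γ ℂ) :=
  Module.Finite.of_basis (parBasis ℂ (fg Γ))

variable (Γ) in
theorem finite_par_real : Module.Finite ℝ (parabolicHoms ℝ Γ ℝ) :=
  Module.Finite.of_basis (parBasis ℝ (fg Γ))

variable (Γ) in
theorem finrank_par_complex : Module.finrank ℂ (parabolicHoms ℂ Γ ℂ) = rk Γ := by
  rw [Module.finrank_eq_card_basis (parBasis ℂ (fg Γ)), Fintype.card_fin]

variable (Γ) in
theorem finrank_par_real : Module.finrank ℝ (parabolicHoms ℝ Γ ℝ) = rk Γ := by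
  rw [Module.finrank_eq_card_basis (parBasis ℝ (fg Γ)), Fintype.card_fin]

variable (Γ) in
/-- The periods as a linear map into the parabolic homomorphisms. -/
noncomputable def perPar : CF Γ →ₗ[ℂ] parabolicHoms ℂ Γ ℂ :=
  (perG Γ).codRestrict (parabolicHoms ℂ Γ ℂ) perG_mem_parabolicHoms

theorem perPar_injective : Function.Injective (perPar Γ) := by
  intro f g h
  apply perG_injective
  have := congrArg (fun χ : parabolicHoms ℂ Γ ℂ => (χ : Additive Γ →+ ℂ)) h
  exact this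

variable (Γ) in
/-- **`S₂(Γ)` is finite-dimensional** (it embeds into `Hom_par(Γ, ℂ)`). -/
theorem finite_CF : Module.Finite ℂ (CF Γ) := by
  have := finite_par_complex Γ
  exact Module.Finite.of_injective (perPar Γ) perPar_injective

variable (Γ) in
/-- **`2 dim S₂(Γ) ≤ dim Hom_par(Γ, ℂ)`.** -/
theorem two_mul_finrank_le :
    2 * Module.finrank ℂ (CF Γ) ≤ Module.finrank ℂ (parabolicHoms ℂ Γ ℂ) := by
  have := finite_CF Γ
  have := finite_par_real Γ
  have h1 : Module.finrank ℝ (CF Γ) = 2 * Module.finrank ℂ (CF Γ) :=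
    finrank_real_of_complex (CF Γ)
  have h2 : Module.finrank ℝ (CF Γ) ≤ Module.finrank ℝ (parabolicHoms ℝ Γ ℝ) :=
    LinearMap.finrank_le_finrank_of_injective rePer_injective
  rw [finrank_par_complex, ← finrank_par_real, ← h1]
  exact h2

end Fermat.Agent.DS.Per1.PerInj
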