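/-
Programme DS (S48), chapter G-PER, brick PER-F1 (helper91): a nonzero eigen-functional.

Let `R` be a commutative ring, `L` a finitely generated FAITHFUL `R`-module, `k` a field and
`θ : R →+* k` a ring homomorphism.  Then there is a nonzero additive map `u : L → k` with
`u (r • x) = θ r * u x`.

Proof: `𝔭 = ker θ` is prime and contains the annihilator `⊥` of `L`, so `𝔭 ∈ Supp L`, hence
`κ(𝔭) ⊗[R] L ≠ 0`; take a nonzero `κ(𝔭)`-linear functional on it and compose with the embedding
`κ(𝔭) → k` induced by `θ`.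
-/
import Mathlib

set_option autoImplicit false

namespace Fermat.Agent.DS.Per1.EigenAlg

open TensorProduct

theorem exists_eigen_functional {R L k : Type*} [CommRing R] [AddCommGroup L] [Module R L]
    [Module.Finite R L] (hfaith : ∀ r : R, (∀ x : L, r • x = 0) → r = 0)
    [Field k] (θ : R →+* k) :
    ∃ u : L →+ k, u ≠ 0 ∧ ∀ (r : R) (x : L), u (r • x) = θ r * u x := by
  classical
  -- the prime `𝔭 = ker θ`
  set 𝔭 : Ideal R := RingHom.ker θ with h𝔭
  have h𝔭prime : 𝔭.IsPrime := RingHom.ker_isPrime θ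
  let P : PrimeSpectrum R := ⟨𝔭, h𝔭prime⟩
  -- the annihilator of `L` is trivial
  have hann : Module.annihilator R L = ⊥ := by
    rw [eq_bot_iff]
    intro r hr
    rw [Module.mem_annihilator] at hr
    exact (Submodule.mem_bot R).mpr (hfaith r hr)
  -- `𝔭` is in the support
  have hsupp : P ∈ Module.support R L := by
    rw [Module.support_eq_zeroLocus, hann]
    simp
  have hnt : Nontrivial (𝔭.ResidueField ⊗[R] L) :=
    (Module.mem_support_iff_nontrivial_residueField_tensorProduct P).mp hsupp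
  -- a nonzero functional
  obtain ⟨v, hv⟩ := exists_ne (0 : 𝔭.ResidueField ⊗[R] L)
  have hex : ∃ ψ : Module.Dual 𝔭.ResidueField (𝔭.ResidueField ⊗[R] L), ψ v ≠ 0 := by
    by_contra hcon
    refine hv ((Module.forall_dual_apply_eq_zero_iff 𝔭.ResidueField v).mp fun ψ => ?_)
    by_contra hne
    exact hcon ⟨ψ, hne⟩
  obtain ⟨ψ, hψ⟩ := hex
  -- the embedding of the residue field into `k`
  have hunit : 𝔭.primeCompl ≤ (IsUnit.submonoid k).comap θ := by
    intro r hr
    show IsUnit (θ r)
    rw [isUnit_iff_ne_zero]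
    intro h0
    exact hr ((RingHom.mem_ker).mpr h0)
  let ι : 𝔭.ResidueField →+* k := Ideal.ResidueField.lift 𝔭 θ le_rfl hunit
  have hι : ∀ r : R, ι (algebraMap R 𝔭.ResidueField r) = θ r :=
    fun r => Ideal.ResidueField.lift_algebraMap 𝔭 θ le_rfl hunit r
  -- the functional `u`
  let u : L →+ k :=
    { toFun := fun x => ι (ψ ((1 : 𝔭.ResidueField) ⊗ₜ[R] x))
      map_zero' := by simp
      map_add' := fun x y => by rw [TensorProduct.tmul_add, map_add, map_add] }
  refine ⟨u, ?_, ?_⟩
  · intro hu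
    -- then `ψ` vanishes on all pure tensors, hence everywhere
    have hpure : ∀ (a : 𝔭.ResidueField) (x : L), ψ (a ⊗ₜ[R] x) = 0 := by
      intro a x
      have h1 : ι (ψ ((1 : 𝔭.ResidueField) ⊗ₜ[R] x)) = 0 := by
        have := congrArg (fun w : L →+ k => w x) hu
        simpa [u] using this
      have h2 : ψ ((1 : 𝔭.ResidueField) ⊗ₜ[R] x) = 0 :=
        (map_eq_zero_iff ι ι.injective).mp h1
      have h3 : a ⊗ₜ[R] x = a • ((1 : 𝔭.ResidueField) ⊗ₜ[R] x) := by
        rw [TensorProduct.smul_tmul', smul_eq_mul, mul_one]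
      rw [h3, map_smul, h2, smul_zero]
    have hall : ∀ w : 𝔭.ResidueField ⊗[R] L, ψ w = 0 := by
      intro w
      induction w using TensorProduct.induction_on with
      | zero => exact map_zero ψ
      | tmul a x => exact hpure a x
      | add a b ha hb => rw [map_add, ha, hb, add_zero]
    exact hψ (hall v)
  · intro r x
    show ι (ψ ((1 : 𝔭.ResidueField) ⊗ₜ[R] (r • x))) = θ r * ι (ψ ((1 : 𝔭.ResidueField) ⊗ₜ[R] x))
    have h1 : (1 : 𝔭.ResidueField) ⊗ₜ[R] (r • x)
        = (algebraMap R 𝔭.ResidueField r) • ((1 : 𝔭.ResidueField) ⊗ₜ[R] x) := by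
      rw [TensorProduct.tmul_smul, TensorProduct.smul_tmul', TensorProduct.smul_tmul',
        smul_eq_mul, mul_one, Algebra.smul_def, mul_one]
    rw [h1, map_smul, smul_eq_mul, map_mul, hι]

end Fermat.Agent.DS.Per1.EigenAlg
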