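/-
Programme DS (S48), chapter G-PER, brick PER-F2 (helper91): the period lattice and eigen-characters.

For a finite-index `Γ ≤ SL(2, ℤ)` the PERIOD LATTICE is the subgroup `perLat Γ` of the dual space
of `S₂(Γ)` generated by the period functionals `perFun Γ γ : f ↦ perG Γ f γ`.  It is finitely
generated, and it is stable under the transpose `x ↦ x ∘ T` of every operator `T` on `S₂(Γ)` whose
effect on periods is a transfer operator `H.dHom` (`HeckeReps`, brick PER-C).  If the period map is
injective (brick PER-B) the lattice separates the points of `S₂(Γ)`, hence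

* a `ℤ`-algebra of such operators is a finitely generated `ℤ`-module (`finite_adjoin`), and
* for every COMMUTATIVE ring `R` of such operators, every field `k` and every ring homomorphism
  `θ : R →+* k` there is a NONZERO PARABOLIC homomorphism `φ : Γ → k` which is a `θ`-eigenvector
  of all the transfer operators (`exists_eigen_hom`).
-/
import Mathlib
import Fermat.Prelude.Def_ModularCurve_PeriodMap
import Fermat.Agent.S22.LatticeAlgebra
import Fermat.Agent.S22.CocycleFG
import Fermat.Agent.DS.Per1.PerG
import Fermat.Agent.DS.Per1.HeckeReps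
import Fermat.Agent.DS.Per1.EigenAlg

set_option autoImplicit false

namespace Fermat.Agent.DS.Per1.PerLattice

open scoped MatrixGroups
open ModularCurve.Period
open Fermat.Agent.DS.Per1.PerG Fermat.Agent.DS.Per1.HeckeReps

variable (Γ : Subgroup SL(2, ℤ)) [Γ.FiniteIndex]

/-- The period functional `f ↦ perG Γ f γ`, additive in `γ`. -/
noncomputable def perFun : Additive Γ →+ Module.Dual ℂ (CF Γ) where
  toFun γ :=
    { toFun := fun f => perG Γ f γ
      map_add' := fun f g => by rw [map_add, AddMonoidHom.add_apply]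
      map_smul' := fun c f => by
        rw [map_smul, AddMonoidHom.smul_apply, RingHom.id_apply] }
  map_zero' := by
    refine LinearMap.ext fun f => ?_
    show perG Γ f 0 = 0
    exact map_zero _
  map_add' γ δ := by
    refine LinearMap.ext fun f => ?_
    show perG Γ f (γ + δ) = perG Γ f γ + perG Γ f δ
    exact map_add _ _ _

variable {Γ}

@[simp] theorem perFun_apply (γ : Additive Γ) (f : CF Γ) : perFun Γ γ f = perG Γ f γ := rfl

/-- Period functionals of elements of trace `±2` vanish. -/
theorem perFun_eq_zero_of_trace (γ : Γ)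
    (h : ((γ : SL(2, ℤ)) : Matrix (Fin 2) (Fin 2) ℤ).trace ^ 2 = 4) :
    perFun Γ (Additive.ofMul γ) = 0 := by
  refine LinearMap.ext fun f => ?_
  rw [perFun_apply, LinearMap.zero_apply]
  exact perG_eq_zero_of_trace f γ h

/-- If the periods of `T f` are the transfer `H.dHom` of the periods of `f`, then the transpose of
`T` maps the period functional of `γ` to the sum of the period functionals of the `H.coc γ i`. -/
theorem perFun_comp {I : Type*} [Fintype I] (H : HeckeReps Γ I) (T : Module.End ℂ (CF Γ))
    (hT : ∀ f : CF Γ, perG Γ (T f) = H.dHom ℂ (perG Γ f)) (γ : Γ) :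
    perFun Γ (Additive.ofMul γ) ∘ₗ T = ∑ i : I, perFun Γ (Additive.ofMul (H.coc γ i)) := by
  refine LinearMap.ext fun f => ?_
  rw [LinearMap.comp_apply, perFun_apply, hT, HeckeReps.dHom_apply, LinearMap.sum_apply]
  rfl

variable (Γ)

/-- **The period lattice**: the subgroup of the dual of `S₂(Γ)` generated by the periods. -/
noncomputable def perLat : Submodule ℤ (Module.Dual ℂ (CF Γ)) :=
  AddSubgroup.toIntSubmodule (perFun Γ).range

variable {Γ}

theorem mem_perLat {x : Module.Dual ℂ (CF Γ)} :
    x ∈ perLat Γ ↔ ∃ γ : Additive Γ, perFun Γ γ = x := Iff.rfl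

theorem perFun_mem (γ : Additive Γ) : perFun Γ γ ∈ perLat Γ := ⟨γ, rfl⟩

variable (Γ)

/-- The period lattice is finitely generated. -/
theorem perLat_fg : (perLat Γ).FG := by
  have hΓ : Γ.FG := Fermat.Agent.S22.fg_of_finiteIndex Γ
  have : Group.FG Γ := (Group.fg_iff_subgroup_fg Γ).mpr hΓ
  have : AddGroup.FG (Additive Γ) := inferInstance
  rw [Submodule.fg_iff_addSubgroup_fg]
  exact (AddGroup.fg_iff_addSubgroup_fg _).mp (AddGroup.fg_range (perFun Γ))

variable {Γ}

/-- Operators acting on periods through a transfer operator preserve the period lattice. -/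
theorem comp_mem_perLat {I : Type*} [Fintype I] (H : HeckeReps Γ I) (T : Module.End ℂ (CF Γ))
    (hT : ∀ f : CF Γ, perG Γ (T f) = H.dHom ℂ (perG Γ f))
    {x : Module.Dual ℂ (CF Γ)} (hx : x ∈ perLat Γ) : x ∘ₗ T ∈ perLat Γ := by
  obtain ⟨γ, rfl⟩ := hx
  obtain ⟨γ, rfl⟩ := Additive.ofMul.surjective γ
  rw [perFun_comp H T hT γ]
  exact Submodule.sum_mem _ fun i _ => perFun_mem _

/-- If the period map is injective, the period lattice separates the points of `S₂(Γ)`. -/
theorem eq_zero_of_forall_perLat (hinj : Function.Injective (perG Γ)) (f : CF Γ)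
    (h : ∀ x ∈ perLat Γ, x f = 0) : f = 0 := by
  apply hinj
  rw [map_zero]
  refine AddMonoidHom.ext fun γ => ?_
  exact h _ (perFun_mem γ)

/-- **Finiteness over `ℤ`** of an algebra generated by operators preserving the period lattice
(weight-two analogue of `S22`, for any finite-index `Γ`). -/
theorem finite_adjoin (hinj : Function.Injective (perG Γ)) (G : Set (Module.End ℂ (CF Γ)))
    (hstable : ∀ T ∈ G, ∀ x ∈ perLat Γ, x ∘ₗ T ∈ perLat Γ) :
    Module.Finite ℤ (Algebra.adjoin ℤ G) :=
  Fermat.Agent.S22.finite_adjoin_of_lattice G (perLat Γ) (perLat_fg Γ) hstable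
    (eq_zero_of_forall_perLat hinj)

/-! ### Eigen-characters -/

section Eigen

variable {R : Type*} [CommRing R] (ρ : R →+* Module.End ℂ (CF Γ))

/-- The action of a commutative ring of operators on the period lattice, by transposition. -/
@[reducible] noncomputable def latModule
    (hstab : ∀ (r : R), ∀ x ∈ perLat Γ, x ∘ₗ ρ r ∈ perLat Γ) : Module R (perLat Γ) where
  smul r x := ⟨x.1 ∘ₗ ρ r, hstab r x.1 x.2⟩
  one_smul x := by
    apply Subtype.ext
    show x.1 ∘ₗ ρ 1 = x.1
    rw [map_one]
    rfl
  mul_smul r s x := by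
    apply Subtype.ext
    show x.1 ∘ₗ ρ (r * s) = (x.1 ∘ₗ ρ s) ∘ₗ ρ r
    rw [mul_comm, map_mul]
    rfl
  smul_zero r := by
    apply Subtype.ext
    show (0 : Module.Dual ℂ (CF Γ)) ∘ₗ ρ r = 0
    exact LinearMap.zero_comp _
  smul_add r x y := by
    apply Subtype.ext
    show (x.1 + y.1) ∘ₗ ρ r = x.1 ∘ₗ ρ r + y.1 ∘ₗ ρ r
    exact LinearMap.add_comp _ _ _
  add_smul r s x := by
    apply Subtype.ext
    show x.1 ∘ₗ ρ (r + s) = x.1 ∘ₗ ρ r + x.1 ∘ₗ ρ s
    rw [map_add]
    exact LinearMap.comp_add _ _ _
  zero_smul x := by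
    apply Subtype.ext
    show x.1 ∘ₗ ρ 0 = 0
    rw [map_zero]
    exact LinearMap.comp_zero _

/-- The period functional, with values in the period lattice. -/
noncomputable def perLatHom : Additive Γ →+ perLat Γ where
  toFun γ := ⟨perFun Γ γ, perFun_mem γ⟩
  map_zero' := Subtype.ext (map_zero _)
  map_add' γ δ := Subtype.ext (map_add _ γ δ)

theorem perLatHom_surjective : Function.Surjective (perLatHom (Γ := Γ)) := by
  rintro ⟨x, γ, rfl⟩
  exact ⟨γ, rfl⟩

/-- **Eigen-characters.**  Let `R` be a commutative ring acting faithfully on `S₂(Γ)` through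
operators whose transposes preserve the period lattice, and assume the period map is injective.
For every ring homomorphism `θ` from `R` to a field `k` there is a nonzero parabolic homomorphism
`φ : Γ → k` such that `H.dHom k φ = θ r • φ` whenever the operator `ρ r` acts on periods through
the transfer operator of `H`. -/
theorem exists_eigen_hom (hinj : Function.Injective (perG Γ)) (hρ : Function.Injective ρ)
    (hstab : ∀ (r : R), ∀ x ∈ perLat Γ, x ∘ₗ ρ r ∈ perLat Γ)
    {k : Type*} [Field k] (θ : R →+* k) :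
    ∃ φ : Additive Γ →+ k, φ ≠ 0 ∧ IsParabolicHom Γ φ ∧
      ∀ (r : R) (I : Type) [Fintype I] (H : HeckeReps Γ I),
        (∀ f : CF Γ, perG Γ (ρ r f) = H.dHom ℂ (perG Γ f)) → H.dHom k φ = θ r • φ := by
  classical
  let _ : Module R (perLat Γ) := latModule ρ hstab
  have hsmul : ∀ (r : R) (x : perLat Γ), ((r • x : perLat Γ) : Module.Dual ℂ (CF Γ))
      = x.1 ∘ₗ ρ r := fun _ _ => rfl
  have : Module.Finite ℤ (perLat Γ) := Module.Finite.iff_fg.mpr (perLat_fg Γ)
  have : Module.Finite R (perLat Γ) := Module.Finite.of_restrictScalars_finite ℤ R (perLat Γ)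
  -- faithfulness
  have hfaith : ∀ r : R, (∀ x : perLat Γ, r • x = 0) → r = 0 := by
    intro r hr
    apply hρ
    rw [map_zero]
    refine LinearMap.ext fun f => ?_
    rw [LinearMap.zero_apply]
    refine eq_zero_of_forall_perLat hinj _ fun x hx => ?_
    have h1 := congrArg (fun y : perLat Γ => (y : Module.Dual ℂ (CF Γ)) f) (hr ⟨x, hx⟩)
    simpa [hsmul] using h1
  obtain ⟨u, hu0, hu⟩ := Fermat.Agent.DS.Per1.EigenAlg.exists_eigen_functional hfaith θ
  refine ⟨u.comp perLatHom, ?_, ?_, ?_⟩
  · intro h0
    apply hu0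
    refine AddMonoidHom.ext fun x => ?_
    obtain ⟨γ, rfl⟩ := perLatHom_surjective x
    exact congrArg (fun w : Additive Γ →+ k => w γ) h0
  · intro γ hγ
    have h1 : perLatHom (Additive.ofMul γ) = 0 :=
      Subtype.ext (perFun_eq_zero_of_trace γ hγ)
    rw [AddMonoidHom.comp_apply, h1, map_zero]
  · intro r I _ H hH
    refine AddMonoidHom.ext fun γ => ?_
    obtain ⟨γ, rfl⟩ := Additive.ofMul.surjective γ
    rw [HeckeReps.dHom_apply, AddMonoidHom.smul_apply, smul_eq_mul]
    simp only [AddMonoidHom.comp_apply]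
    rw [← hu, ← map_sum]
    congr 1
    apply Subtype.ext
    rw [hsmul]
    show ((∑ i : I, perLatHom (Additive.ofMul (H.coc γ i)) : perLat Γ) : Module.Dual ℂ (CF Γ))
      = perFun Γ (Additive.ofMul γ) ∘ₗ ρ r
    rw [perFun_comp H (ρ r) hH γ, Submodule.coe_sum]
    rfl

end Eigen

end Fermat.Agent.DS.Per1.PerLattice
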