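/-
DS programme (S48), chapter G-PER, brick PER-E (helper78): the concrete Hecke representatives
for `Γ₁(M)`.

* `conjReps Γ σ h` : for `σ ∈ SL(2, ℤ)` normalising `Γ`, the one-element family `α = σ`
  (`coc γ = σ γ σ⁻¹`).  For `Γ = Γ₁(M)`, `σ ∈ Γ₀(M)` this is the diamond operator `⟨d⟩`,
  `d = ` lower right entry of `σ` mod `M` : `diamondReps`.
* `heckeRepsT M hpM σ hσ hσp` : for a prime `p ∤ M` and `σ ∈ Γ₀(M)` with lower right entry
  `≡ p (mod M)`, the `p + 1` representatives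
  `α (some j) = [1, j; 0, p]` (prelude `heckeMatrix p j`),
  `α none = σ * [p, 0; 0, 1]` (`mapGL ℝ σ * heckeDiagMatrix p`),
  indexed by `Option (ZMod p)` as in `ES/HEQ/DoubleCoset27`, whose `coc`/`perm` on `SL(2, ℤ)` are
  reused: `coc' γ i = s i * coc γ i * (s (perm γ i))⁻¹` with `s (some j) = 1`, `s none = σ`.
* existence of `σ` : `exists_sigma`, `sigmaOf`.
-/
import Mathlib
import Fermat.Agent.DS.Per1.HeckeReps

set_option autoImplicit false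
set_option linter.dupNamespace false

open Matrix CongruenceSubgroup ModularCurve.Period
open scoped MatrixGroups

namespace Fermat.Agent.DS.Per1.RepsGamma1

open Fermat.Agent.DS.Per1.HeckeReps
open Fermat.Agent.ES.HEQ.DoubleCoset27

/-! ### Representatives coming from the normaliser -/

/-- A single representative `σ` normalising `Γ`. -/
def conjReps (Γ : Subgroup SL(2, ℤ)) (σ : SL(2, ℤ)) (h : ∀ γ ∈ Γ, σ * γ * σ⁻¹ ∈ Γ) :
    HeckeReps Γ Unit where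
  α _ := Matrix.SpecialLinearGroup.mapGL ℝ σ
  perm _ := 1
  coc γ _ := ⟨σ * (γ : SL(2, ℤ)) * σ⁻¹, h _ γ.2⟩
  rel γ _ := by
    rw [← map_mul, ← map_mul]
    congr 1
    simp
  perm_mul _ _ _ := rfl
  coc_mul γ δ _ := by
    apply Subtype.ext
    simp only [Subgroup.coe_mul]
    group

@[simp] theorem conjReps_α (Γ : Subgroup SL(2, ℤ)) (σ : SL(2, ℤ))
    (h : ∀ γ ∈ Γ, σ * γ * σ⁻¹ ∈ Γ) (u : Unit) :
    (conjReps Γ σ h).α u = Matrix.SpecialLinearGroup.mapGL ℝ σ := rfl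

@[simp] theorem coe_conjReps_coc (Γ : Subgroup SL(2, ℤ)) (σ : SL(2, ℤ))
    (h : ∀ γ ∈ Γ, σ * γ * σ⁻¹ ∈ Γ) (γ : Γ) (u : Unit) :
    (((conjReps Γ σ h).coc γ u : Γ) : SL(2, ℤ)) = σ * (γ : SL(2, ℤ)) * σ⁻¹ := rfl

theorem conjReps_dHom_apply (Γ : Subgroup SL(2, ℤ)) (σ : SL(2, ℤ))
    (h : ∀ γ ∈ Γ, σ * γ * σ⁻¹ ∈ Γ) {A : Type*} [AddCommGroup A] (φ : Additive Γ →+ A) (γ : Γ) :
    (conjReps Γ σ h).dHom A φ (Additive.ofMul γ)
      = φ (Additive.ofMul ⟨σ * (γ : SL(2, ℤ)) * σ⁻¹, h _ γ.2⟩) := by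
  rw [HeckeReps.dHom_apply, Fintype.sum_unique]
  rfl

/-! ### `Γ₁(M)` inside `Γ₀(M)` via the lower right entry -/

theorem mem_Gamma1_iff (M : ℕ) (x : SL(2, ℤ)) :
    x ∈ Gamma1 M ↔ ∃ h : x ∈ Gamma0 M, Gamma0Map M ⟨x, h⟩ = 1 := by
  constructor
  · intro hx
    refine ⟨Gamma1_in_Gamma0 M hx, ?_⟩
    rw [Gamma1_mem] at hx
    exact hx.2.1
  · rintro ⟨h, h1⟩
    have h2 : (⟨x, h⟩ : Gamma0 M) ∈ Gamma1' M := Gamma1_mem'.mpr h1
    rw [Gamma1_to_Gamma0_mem] at h2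
    rw [Gamma1_mem]
    exact h2

theorem Gamma0Map_apply (M : ℕ) (x : Gamma0 M) :
    Gamma0Map M x = (((x : SL(2, ℤ)) 1 1 : ℤ) : ZMod M) := rfl

/-- `Γ₁(M)` is normalised by `Γ₀(M)`. -/
theorem conj_mem_Gamma1 (M : ℕ) {σ : SL(2, ℤ)} (hσ : σ ∈ Gamma0 M) {γ : SL(2, ℤ)}
    (hγ : γ ∈ Gamma1 M) : σ * γ * σ⁻¹ ∈ Gamma1 M := by
  obtain ⟨hγ0, hγ1⟩ := (mem_Gamma1_iff M γ).mp hγ
  rw [mem_Gamma1_iff]
  refine ⟨(Gamma0 M).mul_mem ((Gamma0 M).mul_mem hσ hγ0) ((Gamma0 M).inv_mem hσ), ?_⟩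
  have e : (⟨σ * γ * σ⁻¹, (Gamma0 M).mul_mem ((Gamma0 M).mul_mem hσ hγ0)
      ((Gamma0 M).inv_mem hσ)⟩ : Gamma0 M)
      = (⟨σ, hσ⟩ : Gamma0 M) * ⟨γ, hγ0⟩ * (⟨σ, hσ⟩ : Gamma0 M)⁻¹ := rfl
  rw [e, map_mul, map_mul, hγ1, mul_one, ← map_mul, mul_inv_cancel, map_one]

/-- The diamond representatives: `σ ∈ Γ₀(M)` acting on `Γ₁(M)` by conjugation. -/
def diamondReps (M : ℕ) (σ : SL(2, ℤ)) (hσ : σ ∈ Gamma0 M) : HeckeReps (Gamma1 M) Unit :=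
  conjReps (Gamma1 M) σ (fun _ hγ => conj_mem_Gamma1 M hσ hγ)

@[simp] theorem diamondReps_α (M : ℕ) (σ : SL(2, ℤ)) (hσ : σ ∈ Gamma0 M) (u : Unit) :
    (diamondReps M σ hσ).α u = Matrix.SpecialLinearGroup.mapGL ℝ σ := rfl

@[simp] theorem coe_diamondReps_coc (M : ℕ) (σ : SL(2, ℤ)) (hσ : σ ∈ Gamma0 M)
    (γ : Gamma1 M) (u : Unit) :
    (((diamondReps M σ hσ).coc γ u : Gamma1 M) : SL(2, ℤ)) = σ * (γ : SL(2, ℤ)) * σ⁻¹ := rfl

/-! ### Existence of `σ_d` -/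

/-- For `d` prime to `M` there is `σ ∈ Γ₀(M)` with lower right entry `d`. -/
theorem exists_sigma (M d : ℕ) (h : Nat.Coprime d M) :
    ∃ σ : SL(2, ℤ), σ ∈ Gamma0 M ∧ ((σ 1 1 : ℤ) : ZMod M) = (d : ZMod M) := by
  have hc : IsCoprime (d : ℤ) (M : ℤ) := Nat.isCoprime_iff_coprime.mpr h
  obtain ⟨a, b, hab⟩ := hc
  have hdet : (!![a, -b; (M : ℤ), (d : ℤ)] : Matrix (Fin 2) (Fin 2) ℤ).det = 1 := by
    rw [Matrix.det_fin_two_of]
    linear_combination hab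
  refine ⟨(⟨!![a, -b; (M : ℤ), (d : ℤ)], hdet⟩ : SL(2, ℤ)), ?_, ?_⟩
  · refine Gamma0_mem.mpr ?_
    simp
  · simp

/-- A chosen `σ_d ∈ Γ₀(M)` with lower right entry `d`. -/
noncomputable def sigmaOf (M d : ℕ) (h : Nat.Coprime d M) : SL(2, ℤ) :=
  (exists_sigma M d h).choose

theorem sigmaOf_mem (M d : ℕ) (h : Nat.Coprime d M) : sigmaOf M d h ∈ Gamma0 M :=
  (exists_sigma M d h).choose_spec.1

theorem sigmaOf_apply_one_one (M d : ℕ) (h : Nat.Coprime d M) :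
    ((sigmaOf M d h 1 1 : ℤ) : ZMod M) = (d : ZMod M) :=
  (exists_sigma M d h).choose_spec.2

/-! ### The representatives of `T_p` for `Γ₁(M)`, `p ∤ M` -/

variable {p : ℕ} [hp : Fact p.Prime]

/-- The correcting elements: `1` at the finite indices, `σ` at infinity. -/
def sgm (σ : SL(2, ℤ)) : Option (ZMod p) → SL(2, ℤ)
  | some _ => 1
  | none => σ

omit hp in
@[simp] theorem sgm_some (σ : SL(2, ℤ)) (j : ZMod p) : sgm σ (some j) = 1 := rfl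

omit hp in
@[simp] theorem sgm_none (σ : SL(2, ℤ)) : sgm (p := p) σ none = σ := rfl

omit hp in
theorem sgm_mem {M : ℕ} {σ : SL(2, ℤ)} (hσ : σ ∈ Gamma0 M) (i : Option (ZMod p)) :
    sgm σ i ∈ Gamma0 M := by
  cases i with
  | none => exact hσ
  | some j => exact (Gamma0 M).one_mem

/-- The corrected cocycle on `SL(2, ℤ)`. -/
noncomputable def cocS (σ : SL(2, ℤ)) (γ : SL(2, ℤ)) (i : Option (ZMod p)) : SL(2, ℤ) :=
  sgm σ i * coc γ i * (sgm σ (perm γ i))⁻¹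

theorem cocS_mul (σ γ δ : SL(2, ℤ)) (i : Option (ZMod p)) :
    cocS σ (γ * δ) i = cocS σ γ i * cocS σ δ (perm γ i) := by
  unfold cocS
  rw [coc_mul, perm_mul]
  group

/-- The lower right entry of `coc γ i` for `γ ∈ Γ₁(M)`. -/
theorem coc_one_one_mul {M : ℕ} (hpM : ¬ p ∣ M) {γ : SL(2, ℤ)} (hγ : γ ∈ Gamma1 M)
    (i : Option (ZMod p)) :
    (((coc γ i : SL(2, ℤ)) 1 1 : ℤ) : ZMod M) * ((beta p (perm γ i) 1 1 : ℤ) : ZMod M)
      = ((beta p i 1 1 : ℤ) : ZMod M) := by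
  have hc0 : (((coc γ i : SL(2, ℤ)) 1 0 : ℤ) : ZMod M) = 0 :=
    Gamma0_mem.mp (coc_mem_Gamma0 hpM (Gamma1_in_Gamma0 M hγ) i)
  rw [Gamma1_mem] at hγ
  have e11 := congrFun (congrFun (beta_mul γ i) 1) 1
  simp only [Matrix.mul_apply, Fin.sum_univ_two, beta_one_zero, zero_mul, zero_add] at e11
  have h := congrArg (Int.cast : ℤ → ZMod M) e11
  push_cast at h
  rw [hγ.2.1, mul_one, hc0, zero_mul, zero_add] at h
  exact h.symm

omit hp in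
/-- `s_i` times the lower right entry of `β_i` is `p`, for every index. -/
theorem sgm_one_one_mul {M : ℕ} {σ : SL(2, ℤ)}
    (hσp : ((σ 1 1 : ℤ) : ZMod M) = (p : ZMod M)) (i : Option (ZMod p)) :
    (((sgm σ i : SL(2, ℤ)) 1 1 : ℤ) : ZMod M) * ((beta p i 1 1 : ℤ) : ZMod M) = (p : ZMod M) := by
  cases i with
  | none => simp [hσp]
  | some j => simp

theorem cocS_mem_Gamma1 {M : ℕ} (hpM : ¬ p ∣ M) {σ : SL(2, ℤ)} (hσ : σ ∈ Gamma0 M)
    (hσp : ((σ 1 1 : ℤ) : ZMod M) = (p : ZMod M)) {γ : SL(2, ℤ)} (hγ : γ ∈ Gamma1 M)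
    (i : Option (ZMod p)) : cocS σ γ i ∈ Gamma1 M := by
  have hc : coc γ i ∈ Gamma0 M := coc_mem_Gamma0 hpM (Gamma1_in_Gamma0 M hγ) i
  have hsi : sgm σ i ∈ Gamma0 M := sgm_mem hσ i
  have hsk : sgm σ (perm γ i) ∈ Gamma0 M := sgm_mem hσ _
  have hmem : cocS σ γ i ∈ Gamma0 M :=
    (Gamma0 M).mul_mem ((Gamma0 M).mul_mem hsi hc) ((Gamma0 M).inv_mem hsk)
  rw [mem_Gamma1_iff]
  refine ⟨hmem, ?_⟩
  -- `cocS * s_k = s_i * coc` in `Γ₀(M)`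
  have e : (⟨cocS σ γ i, hmem⟩ : Gamma0 M) * ⟨sgm σ (perm γ i), hsk⟩
      = (⟨sgm σ i, hsi⟩ : Gamma0 M) * ⟨coc γ i, hc⟩ := by
    apply Subtype.ext
    simp only [Subgroup.coe_mul, cocS]
    group
  have h1 := congrArg (Gamma0Map M) e
  rw [map_mul, map_mul] at h1
  have hcop : Nat.Coprime p M := (Nat.Prime.coprime_iff_not_dvd hp.out).mpr hpM
  have hunit : IsUnit ((p : ℕ) : ZMod M) := (ZMod.unitOfCoprime p hcop).isUnit
  have h2 : Gamma0Map M ⟨cocS σ γ i, hmem⟩ * (p : ZMod M) = 1 * (p : ZMod M) := by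
    rw [one_mul]
    calc Gamma0Map M ⟨cocS σ γ i, hmem⟩ * (p : ZMod M)
        = Gamma0Map M ⟨cocS σ γ i, hmem⟩ * (Gamma0Map M ⟨sgm σ (perm γ i), hsk⟩
            * ((beta p (perm γ i) 1 1 : ℤ) : ZMod M)) := by
          rw [Gamma0Map_apply M ⟨sgm σ (perm γ i), hsk⟩]
          exact congrArg _ (sgm_one_one_mul hσp (perm γ i)).symm
      _ = Gamma0Map M ⟨sgm σ i, hsi⟩ * (Gamma0Map M ⟨coc γ i, hc⟩
            * ((beta p (perm γ i) 1 1 : ℤ) : ZMod M)) := by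
          rw [← mul_assoc, h1, mul_assoc]
      _ = Gamma0Map M ⟨sgm σ i, hsi⟩ * ((beta p i 1 1 : ℤ) : ZMod M) := by
          rw [Gamma0Map_apply M ⟨coc γ i, hc⟩]
          exact congrArg _ (coc_one_one_mul hpM hγ i)
      _ = (p : ZMod M) := by
          rw [Gamma0Map_apply M ⟨sgm σ i, hsi⟩]
          exact sgm_one_one_mul hσp i
  exact hunit.mul_right_cancel h2

/-- The representatives of `T_p` for `Γ₁(M)` in `GL(2, ℝ)`. -/
noncomputable def alphaT (σ : SL(2, ℤ)) (i : Option (ZMod p)) : GL (Fin 2) ℝ :=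
  Matrix.SpecialLinearGroup.mapGL ℝ (sgm σ i) * glBeta p i

omit hp in
@[simp] theorem alphaT_some (σ : SL(2, ℤ)) (j : ZMod p) :
    alphaT σ (some j) = ModularForm.heckeMatrix p j.val := by
  simp [alphaT]

omit hp in
@[simp] theorem alphaT_none (σ : SL(2, ℤ)) :
    alphaT (p := p) σ none
      = Matrix.SpecialLinearGroup.mapGL ℝ σ * ModularForm.heckeDiagMatrix p := by
  simp [alphaT]

theorem alphaT_mul (σ γ : SL(2, ℤ)) (i : Option (ZMod p)) :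
    alphaT σ i * Matrix.SpecialLinearGroup.mapGL ℝ γ
      = Matrix.SpecialLinearGroup.mapGL ℝ (cocS σ γ i) * alphaT σ (perm γ i) := by
  unfold alphaT cocS
  rw [mul_assoc, glBeta_mul, map_mul, map_mul, map_inv]
  group

/-- The Hecke representatives of `T_p` on `Γ₁(M)`, `p ∤ M`, for a choice of `σ ∈ Γ₀(M)` with
lower right entry `≡ p (mod M)`. -/
noncomputable def heckeRepsT (M : ℕ) (hpM : ¬ p ∣ M) (σ : SL(2, ℤ)) (hσ : σ ∈ Gamma0 M)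
    (hσp : ((σ 1 1 : ℤ) : ZMod M) = (p : ZMod M)) :
    HeckeReps (Gamma1 M) (Option (ZMod p)) where
  α := alphaT σ
  perm γ := permEquiv (γ : SL(2, ℤ))
  coc γ i := ⟨cocS σ (γ : SL(2, ℤ)) i, cocS_mem_Gamma1 hpM hσ hσp γ.2 i⟩
  rel γ i := alphaT_mul σ (γ : SL(2, ℤ)) i
  perm_mul γ δ i := by
    simp only [permEquiv_apply, Subgroup.coe_mul]
    exact perm_mul _ _ i
  coc_mul γ δ i := by
    apply Subtype.ext
    simp only [Subgroup.coe_mul, permEquiv_apply]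
    exact cocS_mul σ _ _ i

section API

variable (M : ℕ) (hpM : ¬ p ∣ M) (σ : SL(2, ℤ)) (hσ : σ ∈ Gamma0 M)
  (hσp : ((σ 1 1 : ℤ) : ZMod M) = (p : ZMod M))

@[simp] theorem heckeRepsT_α (i : Option (ZMod p)) :
    (heckeRepsT M hpM σ hσ hσp).α i = alphaT σ i := rfl

theorem heckeRepsT_α_some (j : ZMod p) :
    (heckeRepsT M hpM σ hσ hσp).α (some j) = ModularForm.heckeMatrix p j.val := by
  simp

theorem heckeRepsT_α_none :
    (heckeRepsT M hpM σ hσ hσp).α none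
      = Matrix.SpecialLinearGroup.mapGL ℝ σ * ModularForm.heckeDiagMatrix p := by
  simp

@[simp] theorem heckeRepsT_perm (γ : Gamma1 M) (i : Option (ZMod p)) :
    (heckeRepsT M hpM σ hσ hσp).perm γ i = perm (γ : SL(2, ℤ)) i := rfl

@[simp] theorem coe_heckeRepsT_coc (γ : Gamma1 M) (i : Option (ZMod p)) :
    (((heckeRepsT M hpM σ hσ hσp).coc γ i : Gamma1 M) : SL(2, ℤ))
      = sgm σ i * coc (γ : SL(2, ℤ)) i * (sgm σ (perm (γ : SL(2, ℤ)) i))⁻¹ := rfl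

end API

/-- The default `T_p`-representatives on `Γ₁(M)`. -/
noncomputable def heckeRepsT' (M : ℕ) (hpM : ¬ p ∣ M) :
    HeckeReps (Gamma1 M) (Option (ZMod p)) :=
  heckeRepsT M hpM
    (sigmaOf M p ((Nat.Prime.coprime_iff_not_dvd hp.out).mpr hpM))
    (sigmaOf_mem M p _) (sigmaOf_apply_one_one M p _)

end Fermat.Agent.DS.Per1.RepsGamma1
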