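/-
Programme DS (S48), chapter G-PER, brick PER-D concrete (helper2): the Hecke operators of
`DS/Hecke1` on cusp forms of level `Γ₁(M)` are the slash-sums over the representatives of
`DS/Per1/RepsGamma1` (helper78):

* `coe_heckeT1_eq_sum`  : `⇑(heckeT1 hp hpM f) = ∑ i, ⇑f ∣[k] (heckeRepsT M hpM σ hσ hσp).α i`;
* `coe_diamond_eq_sum`  : `⇑(diamond d f) = ∑ u, ⇑f ∣[k] (diamondReps M σ hσ).α u`  (`lr M σ = d`);
* positivity of the determinants of the representatives;
* exponential decay at `i∞` of every summand.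
-/
import Mathlib
import Fermat.Agent.DS.Hecke1.HeckeT1
import Fermat.Agent.DS.Per1.RepsGamma1
import Fermat.Agent.S22.Decay

set_option autoImplicit false
set_option linter.unusedSectionVars false

open Matrix.SpecialLinearGroup UpperHalfPlane CongruenceSubgroup ModularForm
open Filter Asymptotics
open scoped MatrixGroups ModularForm OnePoint Manifold

namespace Fermat.Agent.DS.Per1.RepsMatch

open Fermat.Agent.DS.Hecke1.Cosets Fermat.Agent.DS.Hecke1.Diamond Fermat.Agent.DS.Hecke1.HeckeT1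
open Fermat.Agent.DS.Per1.HeckeReps Fermat.Agent.DS.Per1.RepsGamma1
open Fermat.Agent.S22

variable {M : ℕ} [NeZero M] {k : ℤ}

local notation "Γ1M" => ((Gamma1 M : Subgroup SL(2, ℤ)) : Subgroup (GL (Fin 2) ℝ))

/-! ### `T_p` -/

section Tp

variable {p : ℕ} [hp : Fact p.Prime] (hpM : ¬ p ∣ M) (σ : SL(2, ℤ)) (hσ : σ ∈ Gamma0 M)
  (hσp : ((σ 1 1 : ℤ) : ZMod M) = (p : ZMod M))

/-- `T_p f` is the slash-sum over the representatives `heckeRepsT`. -/
theorem coe_heckeT1_eq_sum (f : CuspForm Γ1M k) :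
    (heckeT1 hp.out hpM f : ℍ → ℂ) =
      ∑ i, (f : ℍ → ℂ) ∣[k] (heckeRepsT M hpM σ hσ hσp).α i := by
  have : NeZero p := ⟨hp.out.ne_zero⟩
  rw [coe_heckeT1_of_lr hp.out hpM hσ hσp, heckeT1Fun, heckeU_def, sum_range_eq_sum_zmod,
    Fintype.sum_option, add_comm]
  congr 1
  · rw [heckeRepsT_α_none, SlashAction.slash_mul, slash_mapGL]
  · refine Finset.sum_congr rfl fun j _ => ?_
    rw [heckeRepsT_α_some]

theorem det_heckeRepsT_pos (i : Option (ZMod p)) :
    0 < ((heckeRepsT M hpM σ hσ hσp).α i).det.val := by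
  cases i with
  | none =>
    rw [heckeRepsT_α_none, map_mul, Units.val_mul]
    have h1 : ((mapGL ℝ σ : GL (Fin 2) ℝ).det : ℝ) = 1 := by
      simp [Matrix.SpecialLinearGroup.mapGL]
    rw [h1, one_mul]
    exact det_heckeDiagMatrix_pos p
  | some j =>
    rw [heckeRepsT_α_some]
    exact det_heckeMatrix_pos p j.val

/-- Every summand of `T_p f` decays exponentially at `i∞`. -/
theorem decay_heckeRepsT (f : CuspForm Γ1M k) (i : Option (ZMod p)) :
    ∃ a > 0, ((f : ℍ → ℂ) ∣[k] (heckeRepsT M hpM σ hσ hσp).α i) =O[atImInfty]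
      fun τ => Real.exp (-a * τ.im) := by
  have hp0 : p ≠ 0 := hp.out.ne_zero
  cases i with
  | none =>
    rw [heckeRepsT_α_none, SlashAction.slash_mul]
    exact expDecay_slash_heckeDiagMatrix (expDecay_slash_SL f σ) k hp0
  | some j =>
    rw [heckeRepsT_α_some]
    exact expDecay_slash_heckeMatrix (expDecay_of_cuspForm f) k hp0 j.val

end Tp

/-! ### Diamond operators -/

section Diamond

variable (σ : SL(2, ℤ)) (hσ : σ ∈ Gamma0 M)

/-- `⟨d⟩ f` is the slash-sum over the (single) representative `diamondReps`. -/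
theorem coe_diamond_eq_sum (d : (ZMod M)ˣ) (hd : ((σ 1 1 : ℤ) : ZMod M) = (d : ZMod M))
    (f : CuspForm Γ1M k) :
    (diamond d f : ℍ → ℂ) = ∑ u, (f : ℍ → ℂ) ∣[k] (diamondReps M σ hσ).α u := by
  rw [Fintype.sum_unique, diamondReps_α, slash_mapGL]
  exact coe_diamond d hσ hd f

theorem det_diamondReps_pos (u : Unit) : 0 < ((diamondReps M σ hσ).α u).det.val := by
  rw [diamondReps_α]
  have h1 : ((mapGL ℝ σ : GL (Fin 2) ℝ).det : ℝ) = 1 := by
    simp [Matrix.SpecialLinearGroup.mapGL]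
  rw [h1]
  exact one_pos

theorem decay_diamondReps (f : CuspForm Γ1M k) (u : Unit) :
    ∃ a > 0, ((f : ℍ → ℂ) ∣[k] (diamondReps M σ hσ).α u) =O[atImInfty]
      fun τ => Real.exp (-a * τ.im) := by
  rw [diamondReps_α]
  exact expDecay_slash_SL f σ

end Diamond

end Fermat.Agent.DS.Per1.RepsMatch
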