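/-
Programme DS (S48), chapter G-PER, brick PER-F3 (helper91): the deliverables of the chapter for
`Γ₁(M)` and the weight-two Hecke algebra `T2 M` of HECKE1.

* `finite_T2` : `T2 M` is a finitely generated `ℤ`-module;
* `exists_eigen_hom_Gamma1` : for every field `k` and every ring homomorphism `θ : T2 M →+* k`
  there is a NONZERO PARABOLIC homomorphism `φ : Γ₁(M) → k` which is an eigenvector of the
  double-coset (transfer) operators of `T_p` (`p ∤ M`) and `⟨d⟩` on `Hom(Γ₁(M), k)` with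
  eigenvalues `θ T_p`, `θ ⟨d⟩`.
-/
import Mathlib
import Fermat.Prelude.Def_ModularCurve_PeriodMap
import Fermat.Agent.DS.Hecke1.Algebra
import Fermat.Agent.DS.Per1.RepsMatch
import Fermat.Agent.DS.Per1.PerInj
import Fermat.Agent.DS.Per1.PerHecke
import Fermat.Agent.DS.Per1.PerLattice

set_option autoImplicit false

namespace Fermat.Agent.DS.Per1.EigenGamma1

open scoped MatrixGroups ModularForm
open CongruenceSubgroup ModularCurve.Period UpperHalfPlane Filter Asymptotics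
open Fermat.Agent.DS.Per1.PerG Fermat.Agent.DS.Per1.HeckeReps Fermat.Agent.DS.Per1.RepsGamma1
open Fermat.Agent.DS.Per1.PerLattice
open Fermat.Agent.DS.Hecke1.Algebra Fermat.Agent.DS.Hecke1.HeckeT1 Fermat.Agent.DS.Hecke1.Diamond

variable (M : ℕ) [NeZero M]

theorem perG_heckeT1 {p : ℕ} [hp : Fact p.Prime] (hpM : ¬ p ∣ M) (σ : SL(2, ℤ))
    (hσ : σ ∈ Gamma0 M) (hσp : ((σ 1 1 : ℤ) : ZMod M) = (p : ZMod M)) (f : CF (Gamma1 M)) :
    perG (Gamma1 M) (heckeT1 hp.out hpM f)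
      = (heckeRepsT M hpM σ hσ hσp).dHom ℂ (perG (Gamma1 M) f) :=
  PerHecke.perG_hecke _ (RepsMatch.det_heckeRepsT_pos hpM σ hσ hσp) f _
    (RepsMatch.decay_heckeRepsT hpM σ hσ hσp f) (RepsMatch.coe_heckeT1_eq_sum hpM σ hσ hσp f)

theorem perG_diamond (d : (ZMod M)ˣ) (σ : SL(2, ℤ)) (hσ : σ ∈ Gamma0 M)
    (hd : ((σ 1 1 : ℤ) : ZMod M) = (d : ZMod M)) (f : CF (Gamma1 M)) :
    perG (Gamma1 M) (diamond d f) = (diamondReps M σ hσ).dHom ℂ (perG (Gamma1 M) f) :=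
  PerHecke.perG_hecke _ (RepsMatch.det_diamondReps_pos σ hσ) f _
    (RepsMatch.decay_diamondReps σ hσ f) (RepsMatch.coe_diamond_eq_sum σ hσ d hd f)

/-- The generators of `T2 M` preserve the period lattice. -/
theorem generators_stable (T : Module.End ℂ (CF (Gamma1 M))) (hT : T ∈ heckeGenerators1 M 2)
    (x : Module.Dual ℂ (CF (Gamma1 M))) (hx : x ∈ perLat (Gamma1 M)) :
    x ∘ₗ T ∈ perLat (Gamma1 M) := by
  rcases hT with ⟨p, hp, hpM, rfl⟩ | ⟨d, rfl⟩
  · have : Fact p.Prime := ⟨hp⟩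
    have hc : Nat.Coprime p M := (Nat.Prime.coprime_iff_not_dvd hp).mpr hpM
    exact comp_mem_perLat (heckeRepsT M hpM (sigmaOf M p hc) (sigmaOf_mem M p hc)
      (sigmaOf_apply_one_one M p hc)) _
      (fun f => perG_heckeT1 M hpM _ _ _ f) hx
  · have hc : Nat.Coprime (d : ZMod M).val M := ZMod.val_coe_unit_coprime d
    have hd : ((sigmaOf M (d : ZMod M).val hc 1 1 : ℤ) : ZMod M) = (d : ZMod M) := by
      rw [sigmaOf_apply_one_one, ZMod.natCast_val, ZMod.cast_id', id]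
    exact comp_mem_perLat (diamondReps M (sigmaOf M _ hc) (sigmaOf_mem M _ hc)) _
      (fun f => perG_diamond M d _ _ hd f) hx

/-- **`T2 M` is a finitely generated `ℤ`-module.** -/
theorem finite_T2 : Module.Finite ℤ (T2 M) :=
  finite_adjoin PerInj.perG_injective (heckeGenerators1 M 2) (generators_stable M)

/-- **Eigen-characters of `Γ₁(M)`.** -/
theorem exists_eigen_hom_Gamma1 {k : Type*} [Field k] (θ : T2 M →+* k) :
    ∃ φ : Additive (Gamma1 M) →+ k, φ ≠ 0 ∧ IsParabolicHom (Gamma1 M) φ ∧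
      (∀ (p : ℕ) [hp : Fact p.Prime] (hpM : ¬ p ∣ M) (σ : SL(2, ℤ)) (hσ : σ ∈ Gamma0 M)
          (hσp : ((σ 1 1 : ℤ) : ZMod M) = (p : ZMod M)),
          (heckeRepsT M hpM σ hσ hσp).dHom k φ = θ (heckeAlgebra1.T hp.out hpM) • φ) ∧
      (∀ (d : (ZMod M)ˣ) (σ : SL(2, ℤ)) (hσ : σ ∈ Gamma0 M)
          (_ : ((σ 1 1 : ℤ) : ZMod M) = (d : ZMod M)),
          (diamondReps M σ hσ).dHom k φ = θ (heckeAlgebra1.dia d) • φ) := by
  have hstab : ∀ (r : T2 M), ∀ x ∈ perLat (Gamma1 M),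
      x ∘ₗ (T2 M).val.toRingHom r ∈ perLat (Gamma1 M) := fun r x hx =>
    Fermat.Agent.S22.comp_mem_of_mem_adjoin (heckeGenerators1 M 2) (perLat (Gamma1 M))
      (generators_stable M) r.2 hx
  obtain ⟨φ, hφ0, hφpar, hφ⟩ := exists_eigen_hom (Γ := Gamma1 M) (T2 M).val.toRingHom PerInj.perG_injective
    Subtype.val_injective hstab θ
  refine ⟨φ, hφ0, hφpar, ?_, ?_⟩
  · intro p hp hpM σ hσ hσp
    exact hφ (heckeAlgebra1.T hp.out hpM) _ (heckeRepsT M hpM σ hσ hσp)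
      (fun f => perG_heckeT1 M hpM σ hσ hσp f)
  · intro d σ hσ hd
    exact hφ (heckeAlgebra1.dia d) _ (diamondReps M σ hσ)
      (fun f => perG_diamond M d σ hσ hd f)

end Fermat.Agent.DS.Per1.EigenGamma1
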