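/-
Programme DS (S48), chapter G-PER, brick PER-F4 (helper91): eigenvectors in `k ⊗[ℤ] Λ`.

`Λ = parabolicHoms ℤ Γ ℤ` is a finite free `ℤ`-module (`ES/HEQ/ParLattice11`).  For a commutative
ring `k` the REALIZATION map

  `real k : k ⊗[ℤ] Λ → Hom(Γ, k)`,  `c ⊗ μ ↦ c • (ℤ → k) ∘ μ`

is injective, intertwines the base change of the transfer operators `H.dPar ℤ ℤ` with
`H.dHom k`, and its image contains every homomorphism which factors through a parabolic
homomorphism with values in a TORSION-FREE group.  The eigen-characters of `PerLattice` factor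
through the period lattice, so they come from `k ⊗[ℤ] Λ`:

* `exists_eigen_tensor` (generic `Γ`), `exists_eigen_tensor_Gamma1` (for `T2 M`).
-/
import Mathlib
import Fermat.Prelude.Def_ModularCurve_PeriodMap
import Fermat.Agent.ES.HEQ.ParLattice11
import Fermat.Agent.DS.Per1.HeckeReps
import Fermat.Agent.S22.CocycleFG
import Fermat.Agent.DS.Per1.PerLattice

set_option autoImplicit false

namespace Fermat.Agent.DS.Per1.PerTensor

open TensorProduct
open scoped MatrixGroups
open ModularCurve.Period
open Fermat.Agent.ES.HEQ.ParLattice11 Fermat.Agent.DS.Per1.HeckeReps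

variable {Γ : Subgroup SL(2, ℤ)} (k : Type*) [CommRing k]

/-- Coefficient extension `ℤ → k` of an integral character. -/
def castHom (μ : Additive Γ →+ ℤ) : Additive Γ →+ k := (Int.castAddHom k).comp μ

@[simp] theorem castHom_apply (μ : Additive Γ →+ ℤ) (g : Additive Γ) :
    castHom k μ g = ((μ g : ℤ) : k) := rfl

theorem castHom_add (μ ν : Additive Γ →+ ℤ) : castHom k (μ + ν) = castHom k μ + castHom k ν := by
  ext g; simp

theorem castHom_zsmul (n : ℤ) (μ : Additive Γ →+ ℤ) : castHom k (n • μ) = n • castHom k μ := by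
  ext g; simp

/-- The bi-additive map underlying the realization map. -/
noncomputable def realAux : k →+ parabolicHoms ℤ Γ ℤ →+ (Additive Γ →+ k) where
  toFun c :=
    { toFun := fun μ => c • castHom k (μ : Additive Γ →+ ℤ)
      map_zero' := by
        refine AddMonoidHom.ext fun g => ?_
        simp
      map_add' := fun μ μ' => by
        rw [Submodule.coe_add, castHom_add, smul_add] }
  map_zero' := by
    refine AddMonoidHom.ext fun μ => ?_
    exact zero_smul _ _
  map_add' c c' := by
    refine AddMonoidHom.ext fun μ => ?_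
    exact add_smul c c' _

/-- **The realization map** `k ⊗[ℤ] Λ → Hom(Γ, k)`. -/
noncomputable def real : k ⊗[ℤ] parabolicHoms ℤ Γ ℤ →+ (Additive Γ →+ k) :=
  TensorProduct.liftAddHom (realAux k) (by
    intro n c μ
    show (n • c) • castHom k (μ : Additive Γ →+ ℤ)
      = c • castHom k ((n • μ : parabolicHoms ℤ Γ ℤ) : Additive Γ →+ ℤ)
    rw [Submodule.coe_smul, castHom_zsmul]
    refine AddMonoidHom.ext fun g => ?_
    simp [mul_left_comm, mul_assoc])

@[simp] theorem real_tmul (c : k) (μ : parabolicHoms ℤ Γ ℤ) :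
    real k (c ⊗ₜ[ℤ] μ) = c • castHom k (μ : Additive Γ →+ ℤ) := by
  rw [real, TensorProduct.liftAddHom_tmul]
  rfl

/-- The realization map is `k`-homogeneous. -/
theorem real_smul (c : k) (w : k ⊗[ℤ] parabolicHoms ℤ Γ ℤ) : real k (c • w) = c • real k w := by
  induction w using TensorProduct.induction_on with
  | zero => simp
  | tmul a μ => rw [TensorProduct.smul_tmul', real_tmul, real_tmul, smul_eq_mul, mul_smul]
  | add a b ha hb => rw [smul_add, map_add, ha, hb, map_add, smul_add]

/-- The realization map intertwines the transfer operators. -/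
theorem real_baseChange {I : Type*} [Fintype I] (H : HeckeReps Γ I)
    (w : k ⊗[ℤ] parabolicHoms ℤ Γ ℤ) :
    real k ((H.dPar ℤ ℤ).baseChange k w) = H.dHom k (real k w) := by
  induction w using TensorProduct.induction_on with
  | zero => simp
  | tmul a μ =>
    rw [LinearMap.baseChange_tmul, real_tmul, real_tmul, HeckeReps.dHom_smul, HeckeReps.coe_dPar]
    congr 1
    exact (H.dHom_comp (Int.castAddHom k) (μ : Additive Γ →+ ℤ)).symm
  | add a b ha hb => rw [map_add, map_add, ha, hb, map_add, map_add]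

variable {k}

/-- The section of the realization map: `φ ↦ ∑ i, φ (gen i) ⊗ lam i`. -/
noncomputable def coord (hΓ : Γ.FG) (φ : Additive Γ →+ k) : k ⊗[ℤ] parabolicHoms ℤ Γ ℤ :=
  ∑ i, φ (Additive.ofMul (gen hΓ i)) ⊗ₜ[ℤ] lam hΓ i

theorem coord_real (hΓ : Γ.FG) (w : k ⊗[ℤ] parabolicHoms ℤ Γ ℤ) : coord hΓ (real k w) = w := by
  induction w using TensorProduct.induction_on with
  | zero => simp [coord]
  | tmul a μ =>
    have hμ : μ = ∑ i, (μ : Additive Γ →+ ℤ) (Additive.ofMul (gen hΓ i)) • lam hΓ i := by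
      conv_lhs => rw [← (lamBasis hΓ).sum_repr μ]
      refine Finset.sum_congr rfl fun i _ => ?_
      rw [lamBasis_repr, lamBasis_apply]
    conv_rhs => rw [hμ, TensorProduct.tmul_sum]
    unfold coord
    refine Finset.sum_congr rfl fun i _ => ?_
    rw [real_tmul, AddMonoidHom.smul_apply, castHom_apply]
    rw [TensorProduct.tmul_smul, TensorProduct.smul_tmul', smul_eq_mul, zsmul_eq_mul, mul_comm]
  | add a b ha hb =>
    have h : ∀ φ ψ : Additive Γ →+ k, coord hΓ (φ + ψ) = coord hΓ φ + coord hΓ ψ := by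
      intro φ ψ
      simp [coord, TensorProduct.add_tmul, Finset.sum_add_distrib]
    rw [map_add, h, ha, hb]

/-- The realization map is injective. -/
theorem real_injective (hΓ : Γ.FG) : Function.Injective (real (Γ := Γ) k) := by
  intro w w' h
  rw [← coord_real hΓ w, ← coord_real hΓ w', h]

/-- A homomorphism factoring through a parabolic homomorphism with torsion-free values is
realized. -/
theorem real_coord_of_factor (hΓ : Γ.FG) {L : Type*} [AddCommGroup L] [IsAddTorsionFree L]
    (π : Additive Γ →+ L) (hπ : IsParabolicHom Γ π) (u : L →+ k) :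
    real k (coord hΓ (u.comp π)) = u.comp π := by
  refine AddMonoidHom.ext fun g => ?_
  unfold coord
  rw [map_sum, AddMonoidHom.finsetSum_apply, AddMonoidHom.comp_apply, expand hΓ π hπ g, map_sum]
  refine Finset.sum_congr rfl fun i _ => ?_
  rw [real_tmul, AddMonoidHom.smul_apply, castHom_apply, map_zsmul, zsmul_eq_mul,
    AddMonoidHom.comp_apply, smul_eq_mul, mul_comm]
  rfl

/-! ### Eigenvectors in `k ⊗[ℤ] Λ` -/

section Eigen

open Fermat.Agent.DS.Per1.PerG Fermat.Agent.DS.Per1.PerLattice

variable [Γ.FiniteIndex] {R : Type*} [CommRing R] (ρ : R →+* Module.End ℂ (CF Γ))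

theorem isAddTorsionFree_perLat : IsAddTorsionFree (perLat Γ) where
  nsmul_right_injective n hn a b hab := by
    apply Subtype.ext
    have h : (n : ℂ) • (a : Module.Dual ℂ (CF Γ)) = (n : ℂ) • (b : Module.Dual ℂ (CF Γ)) := by
      simp only [Nat.cast_smul_eq_nsmul]
      exact congrArg Subtype.val hab
    exact smul_right_injective _ (Nat.cast_ne_zero.mpr hn) h

/-- **Eigenvectors in `k ⊗[ℤ] Λ`.**  Same hypotheses as `PerLattice.exists_eigen_hom`; the
eigenvector lives in the base change of the lattice `Λ = parabolicHoms ℤ Γ ℤ`, and the operators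
are the base changes of the transfer operators `H.dPar ℤ ℤ` on `Λ`. -/
theorem exists_eigen_tensor (hinj : Function.Injective (perG Γ)) (hρ : Function.Injective ρ)
    (hstab : ∀ (r : R), ∀ x ∈ perLat Γ, x ∘ₗ ρ r ∈ perLat Γ)
    {k : Type*} [Field k] (θ : R →+* k) :
    ∃ w : k ⊗[ℤ] parabolicHoms ℤ Γ ℤ, w ≠ 0 ∧
      ∀ (r : R) (I : Type) [Fintype I] (H : HeckeReps Γ I),
        (∀ f : CF Γ, perG Γ (ρ r f) = H.dHom ℂ (perG Γ f)) →
          (H.dPar ℤ ℤ).baseChange k w = θ r • w := by
  classical
  have hΓ : Γ.FG := Fermat.Agent.S22.fg_of_finiteIndex Γ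
  let _ : Module R (perLat Γ) := latModule ρ hstab
  have hsmul : ∀ (r : R) (x : perLat Γ), ((r • x : perLat Γ) : Module.Dual ℂ (CF Γ))
      = x.1 ∘ₗ ρ r := fun _ _ => rfl
  have : Module.Finite ℤ (perLat Γ) := Module.Finite.iff_fg.mpr (perLat_fg Γ)
  have : Module.Finite R (perLat Γ) := Module.Finite.of_restrictScalars_finite ℤ R (perLat Γ)
  have hfaith : ∀ r : R, (∀ x : perLat Γ, r • x = 0) → r = 0 := by
    intro r hr
    apply hρ
    rw [map_zero]
    refine LinearMap.ext fun f => ?_
    rw [LinearMap.zero_apply]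
    refine eq_zero_of_forall_perLat hinj _ fun x hx => ?_
    have h1 := congrArg (fun y : perLat Γ => (y : Module.Dual ℂ (CF Γ)) f) (hr ⟨x, hx⟩)
    simpa [hsmul] using h1
  obtain ⟨u, hu0, hu⟩ := Fermat.Agent.DS.Per1.EigenAlg.exists_eigen_functional hfaith θ
  have : IsAddTorsionFree (perLat Γ) := isAddTorsionFree_perLat
  have hpar : IsParabolicHom Γ (perLatHom (Γ := Γ)) := by
    intro γ hγ
    exact Subtype.ext (perFun_eq_zero_of_trace γ hγ)
  -- the eigenvector
  have hreal : real k (coord hΓ (u.comp perLatHom)) = u.comp perLatHom :=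
    real_coord_of_factor hΓ perLatHom hpar u
  refine ⟨coord hΓ (u.comp perLatHom), ?_, ?_⟩
  · intro h0
    apply hu0
    refine AddMonoidHom.ext fun x => ?_
    obtain ⟨γ, rfl⟩ := perLatHom_surjective x
    have h1 := congrArg (fun w : Additive Γ →+ k => w γ) hreal
    rw [h0, map_zero] at h1
    exact h1.symm
  · intro r I _ H hH
    apply real_injective hΓ
    rw [real_baseChange, real_smul, hreal]
    refine AddMonoidHom.ext fun γ => ?_
    obtain ⟨γ, rfl⟩ := Additive.ofMul.surjective γ
    rw [HeckeReps.dHom_apply, AddMonoidHom.smul_apply, smul_eq_mul]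
    simp only [AddMonoidHom.comp_apply]
    rw [← hu, ← map_sum]
    congr 1
    apply Subtype.ext
    rw [hsmul]
    show ((∑ i : I, perLatHom (Additive.ofMul (H.coc γ i)) : perLat Γ) : Module.Dual ℂ (CF Γ))
      = perFun Γ (Additive.ofMul γ) ∘ₗ ρ r
    rw [perFun_comp H (ρ r) hH γ, Submodule.coe_sum]
    rfl

end Eigen

end Fermat.Agent.DS.Per1.PerTensor
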