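/-
Programme DS (S48), chapter G-PER, brick PER-F5 (helper91): the eigenvector of a character of
`T2 M` inside `k ⊗[ℤ] Λ`, `Λ = parabolicHoms ℤ (Gamma1 M) ℤ`.

For every field `k` and every ring homomorphism `θ : T2 M →+* k` there is a NONZERO
`w ∈ k ⊗[ℤ] Λ` with `(aT_p ⊗ 1) w = θ(T_p) w` and `(aD_d ⊗ 1) w = θ(⟨d⟩) w`, where
`aT_p = (heckeRepsT ..).dPar ℤ ℤ`, `aD_d = (diamondReps ..).dPar ℤ ℤ` are the double-coset
(transfer) operators on the lattice `Λ` (helper78's `Per1/HeckeReps`, `Per1/RepsGamma1`), for any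
admissible choice of `σ`.  Since the `ℓ`-adic Tate module of `J₁(M)` is `ℤ_ℓ ⊗ Λ` Hecke
equivariantly, this is the nonvanishing of the `θ`-eigenspace of `k ⊗ T_ℓ J₁(M)`.
-/
import Mathlib
import Fermat.Prelude.Def_ModularCurve_PeriodMap
import Fermat.Agent.DS.Per1.EigenGamma1
import Fermat.Agent.DS.Per1.PerTensor

set_option autoImplicit false

namespace Fermat.Agent.DS.Per1.EigenTensor1

open TensorProduct
open scoped MatrixGroups ModularForm
open CongruenceSubgroup ModularCurve.Period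
open Fermat.Agent.DS.Per1.PerG Fermat.Agent.DS.Per1.HeckeReps Fermat.Agent.DS.Per1.RepsGamma1
open Fermat.Agent.DS.Per1.PerLattice Fermat.Agent.DS.Per1.EigenGamma1
open Fermat.Agent.DS.Hecke1.Algebra Fermat.Agent.DS.Hecke1.HeckeT1 Fermat.Agent.DS.Hecke1.Diamond

/-- **Eigenvectors of characters of `T2 M` in `k ⊗[ℤ] Λ`.** -/
theorem exists_eigen_tensor_Gamma1 (M : ℕ) [NeZero M] {k : Type*} [Field k] (θ : T2 M →+* k) :
    ∃ w : k ⊗[ℤ] parabolicHoms ℤ (Gamma1 M) ℤ, w ≠ 0 ∧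
      (∀ (p : ℕ) [hp : Fact p.Prime] (hpM : ¬ p ∣ M) (σ : SL(2, ℤ)) (hσ : σ ∈ Gamma0 M)
          (hσp : ((σ 1 1 : ℤ) : ZMod M) = (p : ZMod M)),
          ((heckeRepsT M hpM σ hσ hσp).dPar ℤ ℤ).baseChange k w
            = θ (heckeAlgebra1.T hp.out hpM) • w) ∧
      (∀ (d : (ZMod M)ˣ) (σ : SL(2, ℤ)) (hσ : σ ∈ Gamma0 M)
          (_ : ((σ 1 1 : ℤ) : ZMod M) = (d : ZMod M)),
          ((diamondReps M σ hσ).dPar ℤ ℤ).baseChange k w = θ (heckeAlgebra1.dia d) • w) := by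
  have hstab : ∀ (r : T2 M), ∀ x ∈ perLat (Gamma1 M),
      x ∘ₗ (T2 M).val.toRingHom r ∈ perLat (Gamma1 M) := fun r x hx =>
    Fermat.Agent.S22.comp_mem_of_mem_adjoin (heckeGenerators1 M 2) (perLat (Gamma1 M))
      (generators_stable M) r.2 hx
  obtain ⟨w, hw0, hw⟩ := PerTensor.exists_eigen_tensor (Γ := Gamma1 M) (T2 M).val.toRingHom
    PerInj.perG_injective Subtype.val_injective hstab θ
  refine ⟨w, hw0, ?_, ?_⟩
  · intro p hp hpM σ hσ hσp
    exact hw (heckeAlgebra1.T hp.out hpM) _ (heckeRepsT M hpM σ hσ hσp)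
      (fun f => perG_heckeT1 M hpM σ hσ hσp f)
  · intro d σ hσ hd
    exact hw (heckeAlgebra1.dia d) _ (diamondReps M σ hσ)
      (fun f => perG_diamond M d σ hσ hd f)

end Fermat.Agent.DS.Per1.EigenTensor1
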