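/-
Programme DS (S48), chapter G-PER (helper91): the LATTICE SIDE of `G/Top/Inputs2.GeoInputs2`.

`Lam := parabolicHoms ℤ (Gamma1 M) ℤ` (finite free over `ℤ`), with the double-coset operators
`aT S hp hpM := (heckeRepsT M hpM σ_p ..).dPar ℤ ℤ`, `aD S d := (diamondReps M σ_d ..).dPar ℤ ℤ`
for ANY choice `S : SigmaChoice M` of matrices `σ_p, σ_d ∈ Γ₀(M)` with lower right entries `p`, `d`
modulo `M` (`defaultChoice M` uses `RepsGamma1.sigmaOf`).  The field `eig` of `GeoInputs2` holds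
unconditionally (`eig`), so `geoInputs2` builds a `GeoInputs2 M ℓ` from the Tate-module side alone.
-/
import Mathlib
import Fermat.Prelude.Def_ModularCurve_PeriodMap
import Fermat.Agent.ES.HEQ.ParLattice11
import Fermat.Agent.S22.CocycleFG
import Fermat.Agent.DS.Per1.EigenTensor1
import Fermat.Agent.DS.G.Top.Inputs2

set_option autoImplicit false

open TensorProduct
open scoped MatrixGroups
open CongruenceSubgroup ModularCurve.Period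

namespace Fermat.Agent.DS.Per1.LatticeSide2

open Fermat.Agent.DS.Per1.HeckeReps Fermat.Agent.DS.Per1.RepsGamma1
open Fermat.Agent.DS.Hecke1.Algebra Fermat.Agent.DS.Hecke1.HeckeT1
open Fermat.Agent.DS.G.Top.Inputs2

local notation "Qb" => AlgebraicClosure ℚ
local notation "GQ" => (AlgebraicClosure ℚ ≃ₐ[ℚ] AlgebraicClosure ℚ)

/-- A choice of the auxiliary matrices `σ_p`, `σ_d ∈ Γ₀(M)`. -/
structure SigmaChoice (M : ℕ) where
  /-- `σ_p` -/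
  sT : ∀ {p : ℕ}, p.Prime → ¬ p ∣ M → SL(2, ℤ)
  sT_mem : ∀ {p : ℕ} (hp : p.Prime) (hpM : ¬ p ∣ M), sT hp hpM ∈ Gamma0 M
  sT_lr : ∀ {p : ℕ} (hp : p.Prime) (hpM : ¬ p ∣ M),
    ((sT hp hpM 1 1 : ℤ) : ZMod M) = (p : ZMod M)
  /-- `σ_d` -/
  sD : (ZMod M)ˣ → SL(2, ℤ)
  sD_mem : ∀ d : (ZMod M)ˣ, sD d ∈ Gamma0 M
  sD_lr : ∀ d : (ZMod M)ˣ, ((sD d 1 1 : ℤ) : ZMod M) = (d : ZMod M)

/-- The default choice, from `RepsGamma1.sigmaOf`. -/
noncomputable def defaultChoice (M : ℕ) [NeZero M] : SigmaChoice M where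
  sT hp hpM := sigmaOf M _ ((Nat.Prime.coprime_iff_not_dvd hp).mpr hpM)
  sT_mem hp hpM := sigmaOf_mem M _ _
  sT_lr hp hpM := sigmaOf_apply_one_one M _ _
  sD d := sigmaOf M (d : ZMod M).val (ZMod.val_coe_unit_coprime d)
  sD_mem d := sigmaOf_mem M _ _
  sD_lr d := by
    rw [sigmaOf_apply_one_one, ZMod.natCast_val, ZMod.cast_id', id]

variable {M : ℕ} [NeZero M] (S : SigmaChoice M)

/-- The lattice. -/
abbrev Lam (M : ℕ) : Type := parabolicHoms ℤ (Gamma1 M) ℤ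

instance finite_Lam : Module.Finite ℤ (Lam M) :=
  Fermat.Agent.ES.HEQ.ParLattice11.finite_par (Fermat.Agent.S22.fg_of_finiteIndex (Gamma1 M))

instance free_Lam : Module.Free ℤ (Lam M) :=
  Fermat.Agent.ES.HEQ.ParLattice11.free_par (Fermat.Agent.S22.fg_of_finiteIndex (Gamma1 M))

/-- `T_p` on the lattice. -/
noncomputable def aT {p : ℕ} (hp : p.Prime) (hpM : ¬ p ∣ M) : Module.End ℤ (Lam M) :=
  haveI : Fact p.Prime := ⟨hp⟩
  (heckeRepsT M hpM (S.sT hp hpM) (S.sT_mem hp hpM) (S.sT_lr hp hpM)).dPar ℤ ℤ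

/-- `⟨d⟩` on the lattice. -/
noncomputable def aD (d : (ZMod M)ˣ) : Module.End ℤ (Lam M) :=
  (diamondReps M (S.sD d) (S.sD_mem d)).dPar ℤ ℤ

/-- **The field `eig`**: every character of `T2 M` occurs in `k ⊗ Lam`. -/
theorem eig (k : Type) [Field k] (θ : T2 M →+* k) :
    ∃ w : k ⊗[ℤ] Lam M, w ≠ 0 ∧
      (∀ {p : ℕ} (hp : p.Prime) (hpM : ¬ p ∣ M),
        (aT S hp hpM).baseChange k w = θ (heckeAlgebra1.T hp hpM) • w) ∧
      ∀ d : (ZMod M)ˣ, (aD S d).baseChange k w = θ (heckeAlgebra1.dia d) • w := by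
  obtain ⟨w, hw0, hwT, hwD⟩ :=
    Fermat.Agent.DS.Per1.EigenTensor1.exists_eigen_tensor_Gamma1 M θ
  refine ⟨w, hw0, fun {p} hp hpM => ?_, fun d => ?_⟩
  · have : Fact p.Prime := ⟨hp⟩
    exact hwT p hpM (S.sT hp hpM) (S.sT_mem hp hpM) (S.sT_lr hp hpM)
  · exact hwD d (S.sD d) (S.sD_mem d) (S.sD_lr d)

/-- **`GeoInputs2` from the Tate-module side.** -/
noncomputable def geoInputs2 (ℓ : ℕ) [Fact ℓ.Prime]
    (TJ : Type) [AddCommGroup TJ] [Module ℤ_[ℓ] TJ]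
    (ι₀ : Lam M →ₗ[ℤ] TJ) (isBaseChange : IsBaseChange ℤ_[ℓ] ι₀)
    (bT : ∀ {p : ℕ}, p.Prime → ¬ p ∣ M → Module.End ℤ_[ℓ] TJ)
    (bD : (ZMod M)ˣ → Module.End ℤ_[ℓ] TJ)
    (bT_ι₀ : ∀ {p : ℕ} (hp : p.Prime) (hpM : ¬ p ∣ M) (x : Lam M),
      bT hp hpM (ι₀ x) = ι₀ (aT S hp hpM x))
    (bD_ι₀ : ∀ (d : (ZMod M)ˣ) (x : Lam M), bD d (ι₀ x) = ι₀ (aD S d x))
    (ρ : GQ →* Module.End ℤ_[ℓ] TJ)
    (commute_T : ∀ (g : GQ) {p : ℕ} (hp : p.Prime) (hpM : ¬ p ∣ M), Commute (ρ g) (bT hp hpM))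
    (commute_D : ∀ (g : GQ) (d : (ZMod M)ˣ), Commute (ρ g) (bD d))
    (finiteLevel : ∃ L : IntermediateField ℚ Qb, FiniteDimensional ℚ L ∧
      ∀ σ : GQ, (∀ a ∈ L, σ a = a) → ∀ x : TJ, ∃ y : TJ, ρ σ x - x = (ℓ : ℤ_[ℓ]) • y)
    (unramified : ∀ q : ℕ, q.Prime → ¬ q ∣ M → q ≠ ℓ →
      ∀ A : ValuationSubring Qb, A.LiesOverPrime q → ∀ τ ∈ A.inertiaSubgroupIn ℚ, ρ τ = 1)
    (frobenius : ∀ {p : ℕ} (hp : p.Prime) (hpM : ¬ p ∣ M), p ≠ ℓ →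
      ∀ A : ValuationSubring Qb, A.LiesOverPrime p → ∀ σ : GQ, A.IsFrobeniusAt σ p →
        ρ σ * ρ σ - bT hp hpM * ρ σ + (p : ℤ_[ℓ]) • bD (unitP hp hpM) = 0) :
    GeoInputs2 M ℓ where
  Lam := Lam M
  aT := aT S
  aD := aD S
  eig := eig S
  TJ := TJ
  ι₀ := ι₀
  isBaseChange := isBaseChange
  bT := bT
  bD := bD
  bT_ι₀ := bT_ι₀
  bD_ι₀ := bD_ι₀
  ρ := ρ
  commute_T := commute_T
  commute_D := commute_D
  finiteLevel := finiteLevel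
  unramified := unramified
  frobenius := frobenius

end Fermat.Agent.DS.Per1.LatticeSide2
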