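/-
Programme DS (S48), chapter G-PER (helper91): `SigmaChoice`s built from ONE family `σ_d`.

`SigmaChoice.ofD sD` takes `sT hp hpM := sD (unitP hp hpM)`, so that the matrix used for `T_p` and
the matrix used for the diamond `⟨p⟩` in the Eichler--Shimura relation coincide BY `rfl`
(`ofD_sT`).  `choiceD M` is the instance built from `RepsGamma1.sigmaOf`.
-/
import Mathlib
import Fermat.Agent.DS.Per1.LatticeSide2

set_option autoImplicit false

open scoped MatrixGroups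
open CongruenceSubgroup

namespace Fermat.Agent.DS.Per1.SigmaOfD

open Fermat.Agent.DS.Per1.LatticeSide2 Fermat.Agent.DS.Hecke1.HeckeT1

variable {M : ℕ} [NeZero M]

/-- The `SigmaChoice` with `σ_p := σ_{⟨p⟩}`. -/
noncomputable def ofD (sD : (ZMod M)ˣ → SL(2, ℤ)) (sD_mem : ∀ d, sD d ∈ Gamma0 M)
    (sD_lr : ∀ d : (ZMod M)ˣ, ((sD d 1 1 : ℤ) : ZMod M) = (d : ZMod M)) : SigmaChoice M where
  sT hp hpM := sD (unitP hp hpM)
  sT_mem hp hpM := sD_mem _
  sT_lr hp hpM := (sD_lr _).trans (coe_unitP hp hpM)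
  sD := sD
  sD_mem := sD_mem
  sD_lr := sD_lr

@[simp] theorem ofD_sT (sD : (ZMod M)ˣ → SL(2, ℤ)) (sD_mem : ∀ d, sD d ∈ Gamma0 M)
    (sD_lr : ∀ d : (ZMod M)ˣ, ((sD d 1 1 : ℤ) : ZMod M) = (d : ZMod M))
    {p : ℕ} (hp : p.Prime) (hpM : ¬ p ∣ M) :
    (ofD sD sD_mem sD_lr).sT hp hpM = (ofD sD sD_mem sD_lr).sD (unitP hp hpM) := rfl

@[simp] theorem ofD_sD (sD : (ZMod M)ˣ → SL(2, ℤ)) (sD_mem : ∀ d, sD d ∈ Gamma0 M)
    (sD_lr : ∀ d : (ZMod M)ˣ, ((sD d 1 1 : ℤ) : ZMod M) = (d : ZMod M)) (d : (ZMod M)ˣ) :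
    (ofD sD sD_mem sD_lr).sD d = sD d := rfl

variable (M)

/-- The coherent default choice. -/
noncomputable def choiceD : SigmaChoice M :=
  ofD (defaultChoice M).sD (defaultChoice M).sD_mem (defaultChoice M).sD_lr

theorem choiceD_sT {p : ℕ} (hp : p.Prime) (hpM : ¬ p ∣ M) :
    (choiceD M).sT hp hpM = (choiceD M).sD (unitP hp hpM) := rfl

end Fermat.Agent.DS.Per1.SigmaOfD
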