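/-
Programme DS (S48), chapter G-PER, GEO-FIN-LAT (helper91): the lattice side of the official v2
contract `G/Top/InputsGen.GeoInputsGen` (helper71).

`GeoInputsGen` is `Inputs2.GeoInputs2` with the field `eig` only required for fields of
characteristic `ℓ`; so `toGen : GeoInputs2 M ℓ → GeoInputsGen M ℓ`, and
`geoInputsGen S ℓ TJ ι₀ …` builds a `GeoInputsGen M ℓ` from the Tate-module side alone, with

  `Lam := parabolicHoms ℤ (Gamma1 M) ℤ`,  `aT := LatticeSide2.aT S`,  `aD := LatticeSide2.aD S`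

for ANY `S : LatticeSide2.SigmaChoice M` (`defaultChoice M`, or the `σ`'s produced by the coset
bookkeeping of the Hecke-equivariance chapter); the field `eig` is `LatticeSide2.eig S`.
-/
import Mathlib
import Fermat.Agent.DS.Per1.LatticeSide2
import Fermat.Agent.DS.G.Top.InputsGen

set_option autoImplicit false

open TensorProduct
open scoped MatrixGroups
open CongruenceSubgroup ModularCurve.Period

namespace Fermat.Agent.DS.Per1.LatticeSideGen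

open Fermat.Agent.DS.Hecke1.Algebra Fermat.Agent.DS.Hecke1.HeckeT1
open Fermat.Agent.DS.G.Top.Inputs2 Fermat.Agent.DS.G.Top.InputsGen
open Fermat.Agent.DS.Per1.LatticeSide2

local notation "Qb" => AlgebraicClosure ℚ
local notation "GQ" => (AlgebraicClosure ℚ ≃ₐ[ℚ] AlgebraicClosure ℚ)

/-- The eigenvector form `GeoInputs2` gives the official v2 contract `GeoInputsGen`. -/
noncomputable def toGen {M : ℕ} [NeZero M] {ℓ : ℕ} [Fact ℓ.Prime] (D : GeoInputs2 M ℓ) :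
    GeoInputsGen M ℓ where
  Lam := D.Lam
  aT := D.aT
  aD := D.aD
  eig k _ _ θ := D.eig k θ
  TJ := D.TJ
  ι₀ := D.ι₀
  isBaseChange := D.isBaseChange
  bT := D.bT
  bD := D.bD
  bT_ι₀ := D.bT_ι₀
  bD_ι₀ := D.bD_ι₀
  ρ := D.ρ
  commute_T := D.commute_T
  commute_D := D.commute_D
  finiteLevel := D.finiteLevel
  unramified := D.unramified
  frobenius := D.frobenius

variable {M : ℕ} [NeZero M] (S : SigmaChoice M)

/-- **`GeoInputsGen` from the Tate-module side**, for the lattice `Lam M` with the double-coset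
operators `aT S`, `aD S`. -/
noncomputable def geoInputsGen (ℓ : ℕ) [Fact ℓ.Prime]
    (TJ : Type) [AddCommGroup TJ] [Module ℤ_[ℓ] TJ]
    (ι₀ : Lam M →ₗ[ℤ] TJ) (isBaseChange : IsBaseChange ℤ_[ℓ] ι₀)
    (bT : ∀ {p : ℕ}, p.Prime → ¬ p ∣ M → Module.End ℤ_[ℓ] TJ)
    (bD : (ZMod M)ˣ → Module.End ℤ_[ℓ] TJ)
    (bT_ι₀ : ∀ {p : ℕ} (hp : p.Prime) (hpM : ¬ p ∣ M) (x : Lam M),
      bT hp hpM (ι₀ x) = ι₀ (aT S hp hpM x))
    (bD_ι₀ : ∀ (d : (ZMod M)ˣ) (x : Lam M), bD d (ι₀ x) = ι₀ (aD S d x))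
    (ρ : GQ →* Module.End ℤ_[ℓ] TJ)
    (commute_T : ∀ (g : GQ) {p : ℕ} (hp : p.Prime) (hpM : ¬ p ∣ M), Commute (ρ g) (bT hp hpM))
    (commute_D : ∀ (g : GQ) (d : (ZMod M)ˣ), Commute (ρ g) (bD d))
    (finiteLevel : ∃ L : IntermediateField ℚ Qb, FiniteDimensional ℚ L ∧
      ∀ σ : GQ, (∀ a ∈ L, σ a = a) → ∀ x : TJ, ∃ y : TJ, ρ σ x - x = (ℓ : ℤ_[ℓ]) • y)
    (unramified : ∀ q : ℕ, q.Prime → ¬ q ∣ M → q ≠ ℓ →
      ∀ A : ValuationSubring Qb, A.LiesOverPrime q → ∀ τ ∈ A.inertiaSubgroupIn ℚ, ρ τ = 1)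
    (frobenius : ∀ {p : ℕ} (hp : p.Prime) (hpM : ¬ p ∣ M), p ≠ ℓ →
      ∀ A : ValuationSubring Qb, A.LiesOverPrime p → ∀ σ : GQ, A.IsFrobeniusAt σ p →
        ρ σ * ρ σ - bT hp hpM * ρ σ + (p : ℤ_[ℓ]) • bD (unitP hp hpM) = 0) :
    GeoInputsGen M ℓ :=
  toGen (geoInputs2 S ℓ TJ ι₀ isBaseChange bT bD bT_ι₀ bD_ι₀ ρ commute_T commute_D finiteLevel
    unramified frobenius)

@[simp] theorem geoInputsGen_Lam (ℓ : ℕ) [Fact ℓ.Prime]
    (TJ : Type) [AddCommGroup TJ] [Module ℤ_[ℓ] TJ]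
    (ι₀ : Lam M →ₗ[ℤ] TJ) (isBaseChange : IsBaseChange ℤ_[ℓ] ι₀)
    (bT : ∀ {p : ℕ}, p.Prime → ¬ p ∣ M → Module.End ℤ_[ℓ] TJ)
    (bD : (ZMod M)ˣ → Module.End ℤ_[ℓ] TJ) bT_ι₀ bD_ι₀ ρ commute_T commute_D finiteLevel
    unramified frobenius :
    (geoInputsGen S ℓ TJ ι₀ isBaseChange bT bD bT_ι₀ bD_ι₀ ρ commute_T commute_D finiteLevel
      unramified frobenius).Lam = Lam M := rfl

end Fermat.Agent.DS.Per1.LatticeSideGen
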