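/-
DS programme (S48), chapter G-PER (helper78): base change of the lattice of integral parabolic
homomorphisms.

For a finitely generated `Γ ≤ SL(2, ℤ)` and a commutative ring `k`:

* `tensorToPar k : k ⊗[ℤ] Hom_par(Γ, ℤ) →ₗ[k] Hom_par(Γ, k)`, `c ⊗ ψ ↦ c • (ψ : Γ → ℤ → k)`;
* it is INJECTIVE (`tensorToPar_injective`; it need not be surjective when `Γ^ab / parabolics` has
  torsion of order not invertible in `k`);
* it intertwines the base change of the transfer operator `H.dPar ℤ ℤ` with `H.dPar k k`
  (`tensorToPar_dPar`), hence eigenvectors in the image come from eigenvectors of the base change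
  (`baseChange_eq_smul_of_dHom_eq_smul`);
* `exists_tensor_of_comp` : a homomorphism `Γ → k` which factors through a homomorphism
  `π : Γ → L` into a finite free `ℤ`-module killing the elements of trace `± 2` lies in the image.
-/
import Mathlib
import Fermat.Agent.DS.Per1.HeckeReps
import Fermat.Agent.ES.HEQ.ParLattice11

set_option autoImplicit false

open TensorProduct ModularCurve.Period
open scoped MatrixGroups

namespace Fermat.Agent.DS.Per1.BaseChangePar

open Fermat.Agent.ES.HEQ.ParLattice11 Fermat.Agent.DS.Per1.HeckeReps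

variable {Γ : Subgroup SL(2, ℤ)} (k : Type*) [CommRing k]

/-- The comparison map `k ⊗[ℤ] Hom_par(Γ, ℤ) → Hom_par(Γ, k)`. -/
noncomputable def tensorToPar : k ⊗[ℤ] parabolicHoms ℤ Γ ℤ →ₗ[k] parabolicHoms k Γ k :=
  (castPar Γ k).liftBaseChange k

@[simp] theorem tensorToPar_tmul (c : k) (ψ : parabolicHoms ℤ Γ ℤ) :
    tensorToPar k (c ⊗ₜ[ℤ] ψ) = c • castPar Γ k ψ := rfl

/-- Evaluation of the comparison map at the dual elements `gen i` gives the coordinates in the
base-changed basis. -/
theorem tensorToPar_apply_gen (hΓ : Γ.FG) (w : k ⊗[ℤ] parabolicHoms ℤ Γ ℤ) (j : Fin (rk Γ)) :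
    ((tensorToPar k w : parabolicHoms k Γ k) : Additive Γ →+ k) (Additive.ofMul (gen hΓ j))
      = ((lamBasis hΓ).baseChange k).repr w j := by
  induction w using TensorProduct.induction_on with
  | zero => simp
  | tmul c ψ =>
    rw [tensorToPar_tmul, Module.Basis.baseChange_repr_tmul, lamBasis_repr]
    show c • (((ψ : Additive Γ →+ ℤ) (Additive.ofMul (gen hΓ j)) : ℤ) : k) = _
    rw [smul_eq_mul, zsmul_eq_mul, mul_comm]
  | add x y hx hy =>
    rw [map_add, map_add, Finsupp.add_apply, ← hx, ← hy]
    rfl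

/-- The comparison map is injective. -/
theorem tensorToPar_injective (hΓ : Γ.FG) :
    Function.Injective (tensorToPar (Γ := Γ) k) := by
  rw [injective_iff_map_eq_zero]
  intro w hw
  apply ((lamBasis hΓ).baseChange k).repr.injective
  ext j
  rw [← tensorToPar_apply_gen k hΓ w j, hw, map_zero]
  rfl

/-- The transfer operator commutes with the coefficient extension `ℤ → k`. -/
theorem dPar_castPar {I : Type*} [Fintype I] (H : HeckeReps Γ I) (ψ : parabolicHoms ℤ Γ ℤ) :
    H.dPar k k (castPar Γ k ψ) = castPar Γ k (H.dPar ℤ ℤ ψ) :=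
  Subtype.ext (H.dHom_comp (Int.castAddHom k) (ψ : Additive Γ →+ ℤ))

/-- The comparison map intertwines the base change of `dPar ℤ ℤ` with `dPar k k`. -/
theorem tensorToPar_dPar {I : Type*} [Fintype I] (H : HeckeReps Γ I)
    (w : k ⊗[ℤ] parabolicHoms ℤ Γ ℤ) :
    tensorToPar k ((H.dPar ℤ ℤ).baseChange k w) = H.dPar k k (tensorToPar k w) := by
  induction w using TensorProduct.induction_on with
  | zero => simp
  | tmul c ψ =>
    rw [LinearMap.baseChange_tmul, tensorToPar_tmul, tensorToPar_tmul, map_smul, dPar_castPar]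
  | add x y hx hy => rw [map_add, map_add, map_add, map_add, hx, hy]

/-- Eigenvectors: if the image of `w` is an eigenvector of the transfer operator on `Hom(Γ, k)`,
then `w` is an eigenvector of the base-changed lattice operator. -/
theorem baseChange_eq_smul_of_dHom_eq_smul (hΓ : Γ.FG) {I : Type*} [Fintype I]
    (H : HeckeReps Γ I) (w : k ⊗[ℤ] parabolicHoms ℤ Γ ℤ) (c : k)
    (h : H.dHom k ((tensorToPar k w : parabolicHoms k Γ k) : Additive Γ →+ k)
      = c • ((tensorToPar k w : parabolicHoms k Γ k) : Additive Γ →+ k)) :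
    (H.dPar ℤ ℤ).baseChange k w = c • w := by
  apply tensorToPar_injective k hΓ
  rw [tensorToPar_dPar, map_smul]
  exact Subtype.ext h

/-- A homomorphism factoring through a finite free `ℤ`-module, via a map killing the elements of
trace `± 2`, lies in the image of the comparison map. -/
theorem exists_tensor_of_comp {L : Type*} [AddCommGroup L] [Module.Finite ℤ L] [Module.Free ℤ L]
    (π : Additive Γ →+ L)
    (hπ : ∀ γ : Γ, ((γ : SL(2, ℤ)) : Matrix (Fin 2) (Fin 2) ℤ).trace ^ 2 = 4 →
      π (Additive.ofMul γ) = 0)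
    (u : L →+ k) :
    ∃ w : k ⊗[ℤ] parabolicHoms ℤ Γ ℤ,
      ((tensorToPar k w : parabolicHoms k Γ k) : Additive Γ →+ k) = u.comp π := by
  classical
  let e := Module.Free.chooseBasis ℤ L
  -- the coordinate characters
  let n : Module.Free.ChooseBasisIndex ℤ L → parabolicHoms ℤ Γ ℤ := fun i =>
    ⟨(e.coord i).toAddMonoidHom.comp π, fun γ hγ => by
      show e.coord i (π (Additive.ofMul γ)) = 0
      rw [hπ γ hγ, map_zero]⟩
  refine ⟨∑ i, u (e i) ⊗ₜ[ℤ] n i, ?_⟩
  refine AddMonoidHom.ext fun γ => ?_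
  rw [map_sum, Submodule.coe_sum, AddMonoidHom.finsetSum_apply, AddMonoidHom.comp_apply]
  have h1 : ∀ i, (((tensorToPar k (u (e i) ⊗ₜ[ℤ] n i) : parabolicHoms k Γ k) :
      Additive Γ →+ k)) γ = e.repr (π γ) i • u (e i) := by
    intro i
    rw [tensorToPar_tmul]
    show u (e i) • (((e.coord i (π γ) : ℤ)) : k) = _
    rw [smul_eq_mul, zsmul_eq_mul, mul_comm]
    rfl
  simp only [h1]
  conv_rhs => rw [← e.sum_repr (π γ)]
  rw [map_sum]
  exact Finset.sum_congr rfl fun i _ => (map_zsmul u _ _).symm

end Fermat.Agent.DS.Per1.BaseChangePar
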