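/-
DS programme (S48), chapter G-PER (helper78): eigenvectors in the base-changed LATTICE.

Strengthening of `PerLattice.exists_eigen_hom` / `EigenGamma1.exists_eigen_hom_Gamma1` (helper91):
the eigen-homomorphism `φ = u ∘ per : Γ → k` factors through the (torsion-free) period lattice,
hence comes from a NONZERO vector `w ∈ k ⊗[ℤ] Hom_par(Γ, ℤ)` which is an eigenvector of the BASE
CHANGES of the lattice operators `H.dPar ℤ ℤ`.  This is the form consumed by the mod-`ℓ` assembly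
(`k ⊗ T_ℓ J = k ⊗ Hom_par(Γ, ℤ)`), and it needs NO commutativity of the lattice operators.
-/
import Mathlib
import Fermat.Agent.DS.Per1.BaseChangePar
import Fermat.Agent.DS.Per1.EigenGamma1

set_option autoImplicit false

open TensorProduct ModularCurve.Period CongruenceSubgroup
open scoped MatrixGroups

namespace Fermat.Agent.DS.Per1.EigenTensor

open Fermat.Agent.DS.Per1.PerG Fermat.Agent.DS.Per1.HeckeReps Fermat.Agent.DS.Per1.RepsGamma1
open Fermat.Agent.DS.Per1.PerLattice Fermat.Agent.DS.Per1.BaseChangePar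
open Fermat.Agent.DS.Hecke1.Algebra Fermat.Agent.DS.Hecke1.HeckeT1 Fermat.Agent.DS.Hecke1.Diamond

variable {Γ : Subgroup SL(2, ℤ)} [Γ.FiniteIndex]

instance instIsAddTorsionFree_perLat : IsAddTorsionFree (perLat Γ) where
  nsmul_right_injective n hn a b hab := by
    apply Subtype.ext
    have h : (n : ℂ) • (a : Module.Dual ℂ (CF Γ)) = (n : ℂ) • (b : Module.Dual ℂ (CF Γ)) := by
      simp only [Nat.cast_smul_eq_nsmul]
      exact congrArg Subtype.val hab
    exact smul_right_injective _ (Nat.cast_ne_zero.mpr hn) h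

instance instFinite_perLat : Module.Finite ℤ (perLat Γ) :=
  Module.Finite.iff_fg.mpr (perLat_fg Γ)

instance instFree_perLat : Module.Free ℤ (perLat Γ) := Module.free_of_finite_type_torsion_free'

section Eigen

variable {R : Type*} [CommRing R] (ρ : R →+* Module.End ℂ (CF Γ))

/-- **Eigenvectors in the base-changed lattice.** -/
theorem exists_eigen_tensor (hinj : Function.Injective (perG Γ)) (hρ : Function.Injective ρ)
    (hstab : ∀ (r : R), ∀ x ∈ perLat Γ, x ∘ₗ ρ r ∈ perLat Γ)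
    {k : Type*} [Field k] (θ : R →+* k) :
    ∃ w : k ⊗[ℤ] parabolicHoms ℤ Γ ℤ, w ≠ 0 ∧
      ∀ (r : R) (I : Type) [Fintype I] (H : HeckeReps Γ I),
        (∀ f : CF Γ, perG Γ (ρ r f) = H.dHom ℂ (perG Γ f)) →
          (H.dPar ℤ ℤ).baseChange k w = θ r • w := by
  classical
  have hΓ : Γ.FG := Fermat.Agent.S22.fg_of_finiteIndex Γ
  let _ : Module R (perLat Γ) := latModule ρ hstab
  have hsmul : ∀ (r : R) (x : perLat Γ), ((r • x : perLat Γ) : Module.Dual ℂ (CF Γ))
      = x.1 ∘ₗ ρ r := fun _ _ => rfl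
  have : Module.Finite R (perLat Γ) := Module.Finite.of_restrictScalars_finite ℤ R (perLat Γ)
  -- faithfulness
  have hfaith : ∀ r : R, (∀ x : perLat Γ, r • x = 0) → r = 0 := by
    intro r hr
    apply hρ
    rw [map_zero]
    refine LinearMap.ext fun f => ?_
    rw [LinearMap.zero_apply]
    refine eq_zero_of_forall_perLat hinj _ fun x hx => ?_
    have h1 := congrArg (fun y : perLat Γ => (y : Module.Dual ℂ (CF Γ)) f) (hr ⟨x, hx⟩)
    simpa [hsmul] using h1
  obtain ⟨u, hu0, hu⟩ := Fermat.Agent.DS.Per1.EigenAlg.exists_eigen_functional hfaith θ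
  -- the eigen-homomorphism and its lift to the lattice
  have hφ0 : u.comp (perLatHom (Γ := Γ)) ≠ 0 := by
    intro h0
    apply hu0
    refine AddMonoidHom.ext fun x => ?_
    obtain ⟨γ, rfl⟩ := perLatHom_surjective x
    exact congrArg (fun w : Additive Γ →+ k => w γ) h0
  obtain ⟨w, hw⟩ := exists_tensor_of_comp k (perLatHom (Γ := Γ))
    (fun γ hγ => Subtype.ext (perFun_eq_zero_of_trace γ hγ)) u
  refine ⟨w, ?_, ?_⟩
  · rintro rfl
    apply hφ0
    rw [← hw, map_zero]
    rfl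
  · intro r I _ H hH
    refine baseChange_eq_smul_of_dHom_eq_smul k hΓ H w (θ r) ?_
    rw [hw]
    refine AddMonoidHom.ext fun γ => ?_
    obtain ⟨γ, rfl⟩ := Additive.ofMul.surjective γ
    rw [HeckeReps.dHom_apply, AddMonoidHom.smul_apply, smul_eq_mul]
    simp only [AddMonoidHom.comp_apply]
    rw [← hu, ← map_sum]
    congr 1
    apply Subtype.ext
    rw [hsmul]
    show ((∑ i : I, perLatHom (Additive.ofMul (H.coc γ i)) : perLat Γ) : Module.Dual ℂ (CF Γ))
      = perFun Γ (Additive.ofMul γ) ∘ₗ ρ r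
    rw [perFun_comp H (ρ r) hH γ, Submodule.coe_sum]
    rfl

end Eigen

/-- **Eigenvectors of the lattice operators of `Γ₁(M)`**: for every field `k` and every
`θ : T2 M →+* k` there is a nonzero `w ∈ k ⊗[ℤ] Hom_par(Γ₁(M), ℤ)` with
`(T_p ⊗ k) w = θ(T_p) w` and `(⟨d⟩ ⊗ k) w = θ(⟨d⟩) w` for the double-coset operators of
`heckeRepsT` / `diamondReps` (any admissible choice of `σ`). -/
theorem exists_eigen_tensor_Gamma1 (M : ℕ) [NeZero M] {k : Type*} [Field k] (θ : T2 M →+* k) :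
    ∃ w : k ⊗[ℤ] parabolicHoms ℤ (Gamma1 M) ℤ, w ≠ 0 ∧
      (∀ (p : ℕ) [hp : Fact p.Prime] (hpM : ¬ p ∣ M) (σ : SL(2, ℤ)) (hσ : σ ∈ Gamma0 M)
          (hσp : ((σ 1 1 : ℤ) : ZMod M) = (p : ZMod M)),
          ((heckeRepsT M hpM σ hσ hσp).dPar ℤ ℤ).baseChange k w
            = θ (heckeAlgebra1.T hp.out hpM) • w) ∧
      (∀ (d : (ZMod M)ˣ) (σ : SL(2, ℤ)) (hσ : σ ∈ Gamma0 M)
          (_ : ((σ 1 1 : ℤ) : ZMod M) = (d : ZMod M)),
          ((diamondReps M σ hσ).dPar ℤ ℤ).baseChange k w = θ (heckeAlgebra1.dia d) • w) := by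
  have hstab : ∀ (r : T2 M), ∀ x ∈ perLat (Gamma1 M),
      x ∘ₗ (T2 M).val.toRingHom r ∈ perLat (Gamma1 M) := fun r x hx =>
    Fermat.Agent.S22.comp_mem_of_mem_adjoin (heckeGenerators1 M 2) (perLat (Gamma1 M))
      (EigenGamma1.generators_stable M) r.2 hx
  obtain ⟨w, hw0, hw⟩ := exists_eigen_tensor (Γ := Gamma1 M) (T2 M).val.toRingHom
    PerInj.perG_injective Subtype.val_injective hstab θ
  refine ⟨w, hw0, ?_, ?_⟩
  · intro p hp hpM σ hσ hσp
    exact hw (heckeAlgebra1.T hp.out hpM) _ (heckeRepsT M hpM σ hσ hσp)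
      (fun f => EigenGamma1.perG_heckeT1 M hpM σ hσ hσp f)
  · intro d σ hσ hd
    exact hw (heckeAlgebra1.dia d) _ (diamondReps M σ hσ)
      (fun f => EigenGamma1.perG_diamond M d σ hσ hd f)

end Fermat.Agent.DS.Per1.EigenTensor
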