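/-
DS programme (S48), GEO half, brick GEO-FIN-LAT (helper36), conditional part.

The lattice fields (`Lam … π_D`) of `G/Top/Inputs.GeoInputs M ℓ`, bundled as a structure
`LatticeSide M`, and its construction `latticeSideOf M hcomm` from helper78's lattice Hecke algebra
`latticeAlg M ⊆ End_ℤ (parabolicHoms ℤ Γ₁(M) ℤ)` GIVEN the pairwise commutativity `hcomm` of the
lattice operators `opZ M x`  (proved unconditionally in `RepsComm36*`, see `LatticeSide.lean`).

* `periodData M : PeriodData M` — helper78's period package is now unconditional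
  (`PerInj.perPar_injective`, `EigenGamma1.perG_heckeT1`, `perG_diamond`);
* `LatticeSide M` (structure, `Type 1`) with exactly the field names and types of `GeoInputs`;
* `latticeSideOf M hcomm : LatticeSide M` with `Lam = ↥(parabolicHoms ℤ (Gamma1 M) ℤ)`,
  `R = ↥(latticeAlg M)`, `act = ` the inclusion, `gT hp hpM = ⟨opZ M (inl ⟨p, hp, hpM⟩), _⟩`,
  `gD d = ⟨opZ M (inr d), _⟩`, and the evaluation lemmas `latticeSideOf_act_gT`,
  `latticeSideOf_act_gD`.
-/
import Mathlib
import Fermat.Agent.DS.Per1.LatticeTransfer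
import Fermat.Agent.DS.Per1.EigenGamma1

set_option autoImplicit false
set_option linter.unusedSectionVars false

open Matrix.SpecialLinearGroup UpperHalfPlane CongruenceSubgroup ModularForm ModularCurve.Period
open scoped MatrixGroups ModularForm

noncomputable section

namespace Fermat.Agent.DS.Per1.LatticeSideCond

open Fermat.Agent.DS.Per1.HeckeReps Fermat.Agent.DS.Per1.RepsGamma1
open Fermat.Agent.DS.Per1.LatticeTransfer
open Fermat.Agent.DS.Hecke1.Diamond Fermat.Agent.DS.Hecke1.HeckeT1 Fermat.Agent.DS.Hecke1.Algebra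

variable (M : ℕ) [NeZero M]

local notation "Γ1M" => ((Gamma1 M : Subgroup SL(2, ℤ)) : Subgroup (GL (Fin 2) ℝ))

/-! ### The period package, unconditionally -/

/-- helper78's period package, from `PerInj` (helper3) and `EigenGamma1` (helper91). -/
def periodData : PeriodData M where
  per := PerInj.perPar (Gamma1 M)
  inj := PerInj.perPar_injective
  equivariant := by
    rintro (x | d) f
    · have : Fact x.1.Prime := ⟨x.2.1⟩
      have hc : Nat.Coprime x.1 M := (Nat.Prime.coprime_iff_not_dvd x.2.1).mpr x.2.2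
      apply Subtype.ext
      exact EigenGamma1.perG_heckeT1 M x.2.2 (sigmaOf M x.1 hc) (sigmaOf_mem M x.1 hc)
        (sigmaOf_apply_one_one M x.1 hc) f
    · apply Subtype.ext
      exact EigenGamma1.perG_diamond M d (lift d) (lift_mem d) (lr_lift d) f

/-! ### The bundled lattice side -/

/-- The lattice fields of `GeoInputs M ℓ` (same names, same types). -/
structure LatticeSide : Type 1 where
  /-- the lattice `Hom_par(Γ₁(M), ℤ)` -/
  Lam : Type
  [instLamGroup : AddCommGroup Lam]
  [instLamFinite : Module.Finite ℤ Lam]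
  /-- the Hecke ring of the lattice -/
  R : Type
  [instRCommRing : CommRing R]
  /-- its action -/
  act : R →+* Module.End ℤ Lam
  act_injective : Function.Injective act
  /-- `T_p` on the lattice -/
  gT : ∀ {p : ℕ}, p.Prime → ¬ p ∣ M → R
  /-- `⟨d⟩` on the lattice -/
  gD : (ZMod M)ˣ → R
  gen : Algebra.adjoin ℤ
      ({r : R | ∃ (p : ℕ) (hp : p.Prime) (hpM : ¬ p ∣ M), r = gT hp hpM} ∪ Set.range gD) = ⊤
  /-- comparison with the Hecke algebra of cusp forms -/
  π : R →+* T2 M
  π_T : ∀ {p : ℕ} (hp : p.Prime) (hpM : ¬ p ∣ M), π (gT hp hpM) = heckeAlgebra1.T hp hpM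
  π_D : ∀ d : (ZMod M)ˣ, π (gD d) = heckeAlgebra1.dia d

attribute [instance] LatticeSide.instLamGroup LatticeSide.instLamFinite LatticeSide.instRCommRing

/-! ### The commutative ring structure on `latticeAlg M` from commutativity of the generators -/

section Comm

variable (hcomm : ∀ x y : Gen M, Commute (opZ M x) (opZ M y))

include hcomm in
theorem comm_range_opZ : ∀ a ∈ Set.range (opZ M), ∀ b ∈ Set.range (opZ M), a * b = b * a := by
  rintro _ ⟨x, rfl⟩ _ ⟨y, rfl⟩
  exact hcomm x y

/-- the commutative ring structure on the lattice Hecke algebra. -/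
@[reducible] def commRingLatticeAlg : CommRing ↥(latticeAlg M) :=
  haveI : IsMulCommutative ↥(latticeAlg M) :=
    Algebra.isMulCommutative_adjoin ℤ (comm_range_opZ M hcomm)
  open scoped IsMulCommutative in inferInstance

/-- the generators as elements of the lattice Hecke algebra. -/
def genElt (x : Gen M) : ↥(latticeAlg M) := ⟨opZ M x, opZ_mem_latticeAlg M x⟩

@[simp] theorem coe_genElt (x : Gen M) :
    ((genElt M x : ↥(latticeAlg M)) : Module.End ℤ (parabolicHoms ℤ (Gamma1 M) ℤ)) = opZ M x := rfl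

theorem adjoin_range_genElt : Algebra.adjoin ℤ (Set.range (genElt M)) = ⊤ := by
  have h := Algebra.adjoin_adjoin_coe_preimage (R := ℤ) (s := Set.range (opZ M))
  have e : ((↑) : ↥(Algebra.adjoin ℤ (Set.range (opZ M))) → _) ⁻¹' Set.range (opZ M)
      = Set.range (genElt M) := by
    ext r
    constructor
    · rintro ⟨x, hx⟩
      exact ⟨x, Subtype.ext hx⟩
    · rintro ⟨x, rfl⟩
      exact ⟨x, rfl⟩
  rw [e] at h
  exact h

/-- the chosen transfer homomorphism `latticeAlg M → T2 M`. -/
def toT2 : ↥(latticeAlg M) →ₐ[ℤ] ↥(T2 M) := (exists_toT2 (periodData M)).choose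

theorem toT2_surjective : Function.Surjective (toT2 M) :=
  (exists_toT2 (periodData M)).choose_spec.1

theorem coe_toT2_genElt (x : Gen M) :
    ((toT2 M (genElt M x) : ↥(T2 M)) : Module.End ℂ (CuspForm Γ1M 2)) = opS M x :=
  (exists_toT2 (periodData M)).choose_spec.2 x

/-- `T_p` in the lattice Hecke algebra. -/
def gT {p : ℕ} (hp : p.Prime) (hpM : ¬ p ∣ M) : ↥(latticeAlg M) := genElt M (Sum.inl ⟨p, hp, hpM⟩)

/-- `⟨d⟩` in the lattice Hecke algebra. -/
def gD (d : (ZMod M)ˣ) : ↥(latticeAlg M) := genElt M (Sum.inr d)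

theorem coe_gT {p : ℕ} (hp : p.Prime) (hpM : ¬ p ∣ M) :
    ((gT M hp hpM : ↥(latticeAlg M)) : Module.End ℤ (parabolicHoms ℤ (Gamma1 M) ℤ))
      = opZ M (Sum.inl ⟨p, hp, hpM⟩) := rfl

theorem coe_gD (d : (ZMod M)ˣ) :
    ((gD M d : ↥(latticeAlg M)) : Module.End ℤ (parabolicHoms ℤ (Gamma1 M) ℤ))
      = opZ M (Sum.inr d) := rfl

/-- the generation statement, in the shape of `GeoInputs.gen`. -/
theorem gen_top :
    Algebra.adjoin ℤ
      ({r : ↥(latticeAlg M) | ∃ (p : ℕ) (hp : p.Prime) (hpM : ¬ p ∣ M), r = gT M hp hpM} ∪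
        Set.range (gD M)) = ⊤ := by
  have h := adjoin_range_genElt M
  have e : Set.range (genElt M) =
      ({r : ↥(latticeAlg M) | ∃ (p : ℕ) (hp : p.Prime) (hpM : ¬ p ∣ M), r = gT M hp hpM} ∪
        Set.range (gD M)) := by
    ext r
    constructor
    · rintro ⟨x | d, rfl⟩
      · exact Or.inl ⟨x.1, x.2.1, x.2.2, rfl⟩
      · exact Or.inr ⟨d, rfl⟩
    · rintro (⟨p, hp, hpM, rfl⟩ | ⟨d, rfl⟩)
      · exact ⟨Sum.inl ⟨p, hp, hpM⟩, rfl⟩
      · exact ⟨Sum.inr d, rfl⟩
  rw [← e]
  exact h

theorem toT2_gT {p : ℕ} (hp : p.Prime) (hpM : ¬ p ∣ M) :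
    toT2 M (gT M hp hpM) = heckeAlgebra1.T hp hpM :=
  Subtype.ext (coe_toT2_genElt M (Sum.inl ⟨p, hp, hpM⟩))

theorem toT2_gD (d : (ZMod M)ˣ) : toT2 M (gD M d) = heckeAlgebra1.dia d :=
  Subtype.ext (coe_toT2_genElt M (Sum.inr d))

/-- **The lattice side of `GeoInputs`**, given the commutativity of the lattice operators. -/
def latticeSideOf : LatticeSide M :=
  letI : CommRing ↥(latticeAlg M) := commRingLatticeAlg M hcomm
  { Lam := ↥(parabolicHoms ℤ (Gamma1 M) ℤ)
    R := ↥(latticeAlg M)
    act := (latticeAlg M).val.toRingHom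
    act_injective := Subtype.val_injective
    gT := fun {_} hp hpM => gT M hp hpM
    gD := gD M
    gen := gen_top M
    π := (toT2 M).toRingHom
    π_T := fun {_} hp hpM => toT2_gT M hp hpM
    π_D := toT2_gD M }

end Comm

end Fermat.Agent.DS.Per1.LatticeSideCond
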