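/-
DS programme (S48), GEO half, brick GEO-FIN-LAT (helper36), abstract part.

Abstract Hecke representatives `H : HeckeReps Γ I` (helper78, `DS/Per1/HeckeReps`):

* `comp H₁ H₂ : HeckeReps Γ (I × J)` — the composite family `α (i, j) = H₂.α j * H₁.α i`, with
  `(comp H₁ H₂).dHom A φ = H₁.dHom A (H₂.dHom A φ)` (`comp_dHom`);
* `IntReps H a S` — the representatives `H.α i` are the integer matrices `a i`, and
  `{a i}` is a complete and irredundant system of representatives of `Γ \ S` for a set `S` of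
  integer matrices;
* `dHom_eq_of_intReps` — **independence of the representatives**: two families of representatives of
  the same set `S` define the same transfer operator on `Hom(Γ, A)`;
* `IntReps.comp` — representatives of a product of double cosets.
-/
import Mathlib
import Fermat.Agent.DS.Per1.HeckeReps

set_option autoImplicit false
set_option linter.dupNamespace false
set_option linter.unusedSectionVars false

open Matrix Matrix.SpecialLinearGroup
open scoped MatrixGroups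

namespace Fermat.Agent.DS.Per1.RepsComm36Abs

open Fermat.Agent.DS.Per1.HeckeReps

/-! ### Integer matrices inside real matrices -/

/-- the real matrix of an integer matrix. -/
abbrev castM (A : Matrix (Fin 2) (Fin 2) ℤ) : Matrix (Fin 2) (Fin 2) ℝ :=
  A.map (Int.cast : ℤ → ℝ)

theorem castM_injective : Function.Injective castM :=
  Matrix.map_injective Int.cast_injective

theorem castM_mul (A B : Matrix (Fin 2) (Fin 2) ℤ) : castM (A * B) = castM A * castM B :=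
  Matrix.map_mul_intCast A B

theorem coe_mapGL (γ : SL(2, ℤ)) :
    ((mapGL ℝ γ : GL (Fin 2) ℝ) : Matrix (Fin 2) (Fin 2) ℝ)
      = castM (γ : Matrix (Fin 2) (Fin 2) ℤ) := by
  rw [mapGL_coe_matrix]
  ext a b
  simp [castM]

variable {Γ : Subgroup SL(2, ℤ)}

/-! ### Composition of Hecke representatives -/

section Comp

variable {I J : Type*}

/-- The composite family of representatives: `α (i, j) = H₂.α j * H₁.α i`. -/
def comp (H₁ : HeckeReps Γ I) (H₂ : HeckeReps Γ J) : HeckeReps Γ (I × J) where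
  α x := H₂.α x.2 * H₁.α x.1
  perm γ := Equiv.prodShear (H₁.perm γ) (fun i => H₂.perm (H₁.coc γ i))
  coc γ x := H₂.coc (H₁.coc γ x.1) x.2
  rel γ x := by
    rw [mul_assoc, H₁.rel γ x.1, ← mul_assoc, H₂.rel (H₁.coc γ x.1) x.2, mul_assoc]
    rfl
  perm_mul γ δ x := by
    apply Prod.ext
    · simp [Equiv.prodShear, H₁.perm_mul]
    · simp [Equiv.prodShear, H₁.coc_mul, H₂.perm_mul]
  coc_mul γ δ x := by
    simp [Equiv.prodShear, H₁.coc_mul, H₂.coc_mul]

@[simp] theorem comp_α (H₁ : HeckeReps Γ I) (H₂ : HeckeReps Γ J) (x : I × J) :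
    (comp H₁ H₂).α x = H₂.α x.2 * H₁.α x.1 := rfl

@[simp] theorem comp_coc (H₁ : HeckeReps Γ I) (H₂ : HeckeReps Γ J) (γ : Γ) (x : I × J) :
    (comp H₁ H₂).coc γ x = H₂.coc (H₁.coc γ x.1) x.2 := rfl

/-- The operator of the composite family is the composite of the operators. -/
theorem comp_dHom [Fintype I] [Fintype J] (H₁ : HeckeReps Γ I) (H₂ : HeckeReps Γ J)
    (A : Type*) [AddCommGroup A] (φ : Additive Γ →+ A) :
    (comp H₁ H₂).dHom A φ = H₁.dHom A (H₂.dHom A φ) := by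
  refine AddMonoidHom.ext fun γ => ?_
  obtain ⟨γ, rfl⟩ := Additive.ofMul.surjective γ
  rw [HeckeReps.dHom_apply, HeckeReps.dHom_apply, Fintype.sum_prod_type]
  refine Finset.sum_congr rfl fun i _ => ?_
  rw [HeckeReps.dHom_apply]
  rfl

end Comp

/-! ### Systems of representatives -/

/-- `H.α i` is the integer matrix `a i`, and the `a i` form a complete irredundant system of
representatives of `Γ \ S`. -/
structure IntReps {I : Type*} (H : HeckeReps Γ I) (a : I → Matrix (Fin 2) (Fin 2) ℤ)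
    (S : Set (Matrix (Fin 2) (Fin 2) ℤ)) : Prop where
  coe : ∀ i, ((H.α i : GL (Fin 2) ℝ) : Matrix (Fin 2) (Fin 2) ℝ) = castM (a i)
  mem : ∀ i, a i ∈ S
  complete : ∀ A ∈ S, ∃ (i : I) (δ : Γ),
    A = (((δ : Γ) : SL(2, ℤ)) : Matrix (Fin 2) (Fin 2) ℤ) * a i
  distinct : ∀ (i i' : I) (δ : Γ),
    a i = (((δ : Γ) : SL(2, ℤ)) : Matrix (Fin 2) (Fin 2) ℤ) * a i' → i = i'

section Indep

variable {I I' : Type*} {H : HeckeReps Γ I} {H' : HeckeReps Γ I'}
  {a : I → Matrix (Fin 2) (Fin 2) ℤ} {a' : I' → Matrix (Fin 2) (Fin 2) ℤ}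
  {S : Set (Matrix (Fin 2) (Fin 2) ℤ)}

/-- an integer relation between representatives gives the relation in `GL(2, ℝ)`. -/
theorem gl_eq_of_int {i : I} {i' : I'} (hc : ∀ i, ((H.α i : GL (Fin 2) ℝ) :
      Matrix (Fin 2) (Fin 2) ℝ) = castM (a i))
    (hc' : ∀ i, ((H'.α i : GL (Fin 2) ℝ) : Matrix (Fin 2) (Fin 2) ℝ) = castM (a' i))
    (δ : SL(2, ℤ)) (h : a i = (δ : Matrix (Fin 2) (Fin 2) ℤ) * a' i') :
    H.α i = mapGL ℝ δ * H'.α i' := by
  apply Units.ext
  rw [Units.val_mul]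
  show ((H.α i : GL (Fin 2) ℝ) : Matrix (Fin 2) (Fin 2) ℝ)
    = ((mapGL ℝ δ : GL (Fin 2) ℝ) : Matrix (Fin 2) (Fin 2) ℝ)
      * ((H'.α i' : GL (Fin 2) ℝ) : Matrix (Fin 2) (Fin 2) ℝ)
  rw [hc, hc', coe_mapGL, ← castM_mul, h]

/-- a relation in `GL(2, ℝ)` between representatives gives the integer relation. -/
theorem int_eq_of_gl {i : I} {i' : I'} (hc : ∀ i, ((H.α i : GL (Fin 2) ℝ) :
      Matrix (Fin 2) (Fin 2) ℝ) = castM (a i))
    (hc' : ∀ i, ((H'.α i : GL (Fin 2) ℝ) : Matrix (Fin 2) (Fin 2) ℝ) = castM (a' i))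
    (δ : SL(2, ℤ)) (h : H.α i = mapGL ℝ δ * H'.α i') :
    a i = (δ : Matrix (Fin 2) (Fin 2) ℤ) * a' i' := by
  apply castM_injective
  rw [castM_mul, ← hc, ← hc', ← coe_mapGL, h]
  rfl

/-- **Independence of the representatives.** -/
theorem dHom_eq_of_intReps [Fintype I] [Fintype I'] (h : IntReps H a S) (h' : IntReps H' a' S)
    (A : Type*) [AddCommGroup A] : H.dHom A = H'.dHom A := by
  classical
  have hex : ∀ i, ∃ (i' : I') (δ : Γ),
      a i = (((δ : Γ) : SL(2, ℤ)) : Matrix (Fin 2) (Fin 2) ℤ) * a' i' :=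
    fun i => h'.complete _ (h.mem i)
  choose f δ hfδ using hex
  have hGL : ∀ i, H.α i = mapGL ℝ ((δ i : Γ) : SL(2, ℤ)) * H'.α (f i) := fun i =>
    gl_eq_of_int h.coe h'.coe _ (hfδ i)
  have hdist' : ∀ (i₁ i₂ : I') (ε : Γ),
      H'.α i₁ = mapGL ℝ ((ε : Γ) : SL(2, ℤ)) * H'.α i₂ → i₁ = i₂ := fun i₁ i₂ ε he =>
    h'.distinct i₁ i₂ ε (int_eq_of_gl h'.coe h'.coe _ he)
  have hf_inj : Function.Injective f := by
    intro i₁ i₂ e
    apply h.distinct i₁ i₂ (δ i₁ * (δ i₂)⁻¹)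
    rw [hfδ i₁, e]
    conv_rhs => rw [hfδ i₂]
    rw [← Matrix.mul_assoc, ← Matrix.SpecialLinearGroup.coe_mul, ← Subgroup.coe_mul,
      inv_mul_cancel_right]
  have hf_surj : Function.Surjective f := by
    intro i'
    obtain ⟨i, ε, hε⟩ := h.complete _ (h'.mem i')
    refine ⟨i, ?_⟩
    symm
    apply h'.distinct i' (f i) (ε * δ i)
    rw [hε, hfδ i, ← Matrix.mul_assoc, ← Matrix.SpecialLinearGroup.coe_mul, ← Subgroup.coe_mul]
  -- the key relations
  have key : ∀ (γ : Γ) (i : I), H'.perm γ (f i) = f (H.perm γ i) ∧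
      H'.coc γ (f i) = (δ i)⁻¹ * H.coc γ i * δ (H.perm γ i) := by
    intro γ i
    have r := H.rel γ i
    have r' := H'.rel γ (f i)
    rw [hGL i, hGL (H.perm γ i), mul_assoc, r'] at r
    have e1 : H'.α (H'.perm γ (f i))
        = mapGL ℝ ((((H'.coc γ (f i))⁻¹ * (δ i)⁻¹ * H.coc γ i * δ (H.perm γ i) : Γ) : Γ) :
            SL(2, ℤ)) * H'.α (f (H.perm γ i)) := by
      simp only [Subgroup.coe_mul, Subgroup.coe_inv, map_mul, map_inv]
      rw [mul_assoc, mul_assoc, mul_assoc, ← r]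
      group
    have hp := hdist' _ _ _ e1
    refine ⟨hp, ?_⟩
    rw [hp, ← mul_assoc, ← mul_assoc] at r
    have r2 := mul_right_cancel r
    rw [← map_mul, ← map_mul] at r2
    have r3 : ((δ i : Γ) : SL(2, ℤ)) * ((H'.coc γ (f i) : Γ) : SL(2, ℤ))
        = ((H.coc γ i : Γ) : SL(2, ℤ)) * ((δ (H.perm γ i) : Γ) : SL(2, ℤ)) :=
      Matrix.SpecialLinearGroup.mapGL_injective r2
    have r4 : δ i * H'.coc γ (f i) = H.coc γ i * δ (H.perm γ i) := Subtype.ext r3
    rw [mul_assoc, ← r4, inv_mul_cancel_left]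
  -- the sums agree
  refine AddMonoidHom.ext fun φ => AddMonoidHom.ext fun γ => ?_
  obtain ⟨γ, rfl⟩ := Additive.ofMul.surjective γ
  rw [HeckeReps.dHom_apply, HeckeReps.dHom_apply]
  let e : I ≃ I' := Equiv.ofBijective f ⟨hf_inj, hf_surj⟩
  rw [← Equiv.sum_comp e (fun i' => φ (Additive.ofMul (H'.coc γ i')))]
  have hterm : ∀ i, φ (Additive.ofMul (H'.coc γ (e i)))
      = φ (Additive.ofMul (H.coc γ i)) + (φ (Additive.ofMul (δ (H.perm γ i)))
          - φ (Additive.ofMul (δ i))) := by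
    intro i
    show φ (Additive.ofMul (H'.coc γ (f i))) = _
    rw [(key γ i).2, ofMul_mul, ofMul_mul, map_add, map_add, ofMul_inv, map_neg]
    abel
  simp only [hterm, Finset.sum_add_distrib, Finset.sum_sub_distrib]
  rw [Equiv.sum_comp (H.perm γ) (fun i => φ (Additive.ofMul (δ i))), sub_self, add_zero]

end Indep

/-! ### Representatives of a product -/

section Prod

variable {I J : Type*} {H₁ : HeckeReps Γ I} {H₂ : HeckeReps Γ J}
  {a₁ : I → Matrix (Fin 2) (Fin 2) ℤ} {a₂ : J → Matrix (Fin 2) (Fin 2) ℤ}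
  {S₂ S₁₂ : Set (Matrix (Fin 2) (Fin 2) ℤ)}

/-- right cancellation of a representative. -/
theorem cancel_right_of_coe {i : I} (hc : ((H₁.α i : GL (Fin 2) ℝ) :
      Matrix (Fin 2) (Fin 2) ℝ) = castM (a₁ i)) {B B' : Matrix (Fin 2) (Fin 2) ℤ}
    (h : B * a₁ i = B' * a₁ i) : B = B' := by
  apply castM_injective
  have h1 := congrArg castM h
  rw [castM_mul, castM_mul, ← hc] at h1
  have h2 := congrArg (· * (((H₁.α i)⁻¹ : GL (Fin 2) ℝ) : Matrix (Fin 2) (Fin 2) ℝ)) h1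
  simp only [Matrix.mul_assoc] at h2
  rw [← Matrix.GeneralLinearGroup.coe_mul, mul_inv_cancel] at h2
  simpa using h2

/-- **Representatives of a product of double cosets.** -/
theorem IntReps.comp (h₂ : IntReps H₂ a₂ S₂)
    (hc₁ : ∀ i, ((H₁.α i : GL (Fin 2) ℝ) : Matrix (Fin 2) (Fin 2) ℝ) = castM (a₁ i))
    (hstab : ∀ (δ : Γ) (B : Matrix (Fin 2) (Fin 2) ℤ), B ∈ S₂ →
      (((δ : Γ) : SL(2, ℤ)) : Matrix (Fin 2) (Fin 2) ℤ) * B ∈ S₂)
    (hmem : ∀ (i : I) (j : J), a₂ j * a₁ i ∈ S₁₂)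
    (hex : ∀ A ∈ S₁₂, ∃ (i : I) (B : Matrix (Fin 2) (Fin 2) ℤ), B ∈ S₂ ∧ A = B * a₁ i)
    (huniq : ∀ (i i' : I) (B B' : Matrix (Fin 2) (Fin 2) ℤ), B ∈ S₂ → B' ∈ S₂ →
      B * a₁ i = B' * a₁ i' → i = i') :
    IntReps (comp H₁ H₂) (fun x : I × J => a₂ x.2 * a₁ x.1) S₁₂ where
  coe x := by
    rw [comp_α, Matrix.GeneralLinearGroup.coe_mul, h₂.coe, hc₁, castM_mul]
  mem x := hmem x.1 x.2
  complete A hA := by
    obtain ⟨i, B, hB, rfl⟩ := hex A hA
    obtain ⟨j, δ, rfl⟩ := h₂.complete B hB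
    exact ⟨(i, j), δ, by rw [Matrix.mul_assoc]⟩
  distinct x x' δ hx := by
    have hx' : a₂ x.2 * a₁ x.1
        = ((((δ : Γ) : SL(2, ℤ)) : Matrix (Fin 2) (Fin 2) ℤ) * a₂ x'.2) * a₁ x'.1 := by
      rw [Matrix.mul_assoc]
      exact hx
    have hi : x.1 = x'.1 :=
      huniq x.1 x'.1 _ _ (h₂.mem x.2) (hstab δ _ (h₂.mem x'.2)) hx'
    have hx'' : a₂ x.2 * a₁ x.1
        = ((((δ : Γ) : SL(2, ℤ)) : Matrix (Fin 2) (Fin 2) ℤ) * a₂ x'.2) * a₁ x.1 := by
      rw [hx', hi]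
    have hj : x.2 = x'.2 := h₂.distinct x.2 x'.2 δ (cancel_right_of_coe (hc₁ x.1) hx'')
    exact Prod.ext hi hj

end Prod

end Fermat.Agent.DS.Per1.RepsComm36Abs
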