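/-
DS programme (S48), GEO half, brick GEO-FIN-LAT (helper36), matrix part.

The sets `DeltaZ M n d` of integer matrices of determinant `n` with lower row `≡ (0, d) (mod M)`;
the representatives `heckeRepsT` (of `T_p`, `p ∤ M`) and `diamondReps` (of `⟨d⟩`) of `Γ₁(M)` are
complete irredundant systems of representatives of `Γ₁(M) \ DeltaZ M p p`, resp.
`Γ₁(M) \ DeltaZ M 1 d`, and their composites (in either order) are systems of representatives of
`Γ₁(M) \ DeltaZ M (p q) (p q)`, `Γ₁(M) \ DeltaZ M p (p d)`, `Γ₁(M) \ DeltaZ M 1 (d e)`.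
-/
import Mathlib
import Fermat.Agent.DS.Per1.RepsComm36Abs
import Fermat.Agent.DS.Per1.RepsGamma1

set_option autoImplicit false
set_option linter.dupNamespace false
set_option linter.unusedSectionVars false

open Matrix Matrix.SpecialLinearGroup CongruenceSubgroup
open scoped MatrixGroups

namespace Fermat.Agent.DS.Per1.RepsComm36Mat

open Fermat.Agent.DS.Per1.HeckeReps Fermat.Agent.DS.Per1.RepsGamma1
open Fermat.Agent.DS.Per1.RepsComm36Abs
open Fermat.Agent.ES.HEQ.DoubleCoset27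

/-! ### The sets `DeltaZ M n d` -/

/-- integer matrices of determinant `n` and lower row `≡ (0, d)` modulo `M`. -/
def DeltaZ (M : ℕ) (n : ℤ) (d : ZMod M) : Set (Matrix (Fin 2) (Fin 2) ℤ) :=
  {A | A.det = n ∧ ((A 1 0 : ℤ) : ZMod M) = 0 ∧ ((A 1 1 : ℤ) : ZMod M) = d}

variable {M : ℕ}

theorem mul_mem_DeltaZ {n n' : ℤ} {d d' : ZMod M} {A B : Matrix (Fin 2) (Fin 2) ℤ}
    (hA : A ∈ DeltaZ M n d) (hB : B ∈ DeltaZ M n' d') : A * B ∈ DeltaZ M (n * n') (d * d') := by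
  obtain ⟨hA1, hA2, hA3⟩ := hA
  obtain ⟨hB1, hB2, hB3⟩ := hB
  refine ⟨by rw [Matrix.det_mul, hA1, hB1], ?_, ?_⟩
  · rw [Matrix.mul_apply, Fin.sum_univ_two]
    push_cast
    rw [hA2, hB2, zero_mul, mul_zero, add_zero]
  · rw [Matrix.mul_apply, Fin.sum_univ_two]
    push_cast
    rw [hA2, hA3, hB3, zero_mul, zero_add]

theorem coe_mem_DeltaZ {τ : SL(2, ℤ)} (hτ : τ ∈ Gamma0 M) :
    (τ : Matrix (Fin 2) (Fin 2) ℤ) ∈ DeltaZ M 1 ((τ 1 1 : ℤ) : ZMod M) :=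
  ⟨τ.2, Gamma0_mem.mp hτ, rfl⟩

theorem coe_mem_DeltaZ_one {γ : SL(2, ℤ)} (hγ : γ ∈ Gamma1 M) :
    (γ : Matrix (Fin 2) (Fin 2) ℤ) ∈ DeltaZ M 1 1 := by
  rw [Gamma1_mem] at hγ
  exact ⟨γ.2, hγ.2.2, hγ.2.1⟩

theorem exists_Gamma1_of_mem_DeltaZ_one {A : Matrix (Fin 2) (Fin 2) ℤ} (hA : A ∈ DeltaZ M 1 1) :
    ∃ γ : Gamma1 M, (((γ : Gamma1 M) : SL(2, ℤ)) : Matrix (Fin 2) (Fin 2) ℤ) = A := by
  obtain ⟨h1, h2, h3⟩ := hA
  refine ⟨⟨⟨A, h1⟩, ?_⟩, rfl⟩
  rw [Gamma1_mem]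
  refine ⟨?_, h3, h2⟩
  have hd : A 0 0 * A 1 1 - A 0 1 * A 1 0 = 1 := by rw [← Matrix.det_fin_two]; exact h1
  have hc := congrArg (Int.cast : ℤ → ZMod M) hd
  push_cast at hc
  rw [h2, h3, mul_one, mul_zero, sub_zero] at hc
  exact hc

theorem Gamma1_mul_mem_DeltaZ {n : ℤ} {d : ZMod M} (γ : Gamma1 M)
    {B : Matrix (Fin 2) (Fin 2) ℤ} (hB : B ∈ DeltaZ M n d) :
    (((γ : Gamma1 M) : SL(2, ℤ)) : Matrix (Fin 2) (Fin 2) ℤ) * B ∈ DeltaZ M n d := by
  have h := mul_mem_DeltaZ (coe_mem_DeltaZ_one γ.2) hB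
  rwa [one_mul, one_mul] at h

/-- the lower right entries of `τ` and `τ⁻¹` are inverse to each other modulo `M`. -/
theorem lr_mul_lr_inv {τ : SL(2, ℤ)} (hτ : τ ∈ Gamma0 M) :
    ((τ 1 1 : ℤ) : ZMod M) * (((τ⁻¹ : SL(2, ℤ)) 1 1 : ℤ) : ZMod M) = 1 := by
  have h := mul_mem_DeltaZ (coe_mem_DeltaZ hτ) (coe_mem_DeltaZ ((Gamma0 M).inv_mem hτ))
  rw [← Matrix.SpecialLinearGroup.coe_mul, mul_inv_cancel] at h
  have h3 := h.2.2
  simpa using h3.symm

/-! ### Splitting off a factor `β_k` -/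

section Beta

variable {p : ℕ} [hp : Fact p.Prime]

private theorem p_ne_zero' : (p : ℤ) ≠ 0 := by exact_mod_cast hp.out.ne_zero

/-- Every integer matrix with determinant divisible by `p` is of the form `B * β_k`. -/
theorem exists_mul_beta (A : Matrix (Fin 2) (Fin 2) ℤ) (hA : (p : ℤ) ∣ A.det) :
    ∃ (k : Option (ZMod p)) (B : Matrix (Fin 2) (Fin 2) ℤ), A = B * beta p k := by
  have hdet : A 0 0 * A 1 1 - A 0 1 * A 1 0 = A.det := by rw [← Matrix.det_fin_two]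
  by_cases h : (p : ℤ) ∣ A 0 0 ∧ (p : ℤ) ∣ A 1 0
  · obtain ⟨⟨x', hx⟩, ⟨z', hz⟩⟩ := h
    refine ⟨none, !![x', A 0 1; z', A 1 1], ?_⟩
    ext i j
    fin_cases i <;> fin_cases j <;>
      simp [beta, Matrix.mul_apply, Fin.sum_univ_two, hx, hz, mul_comm]
  · have hcast : ((A 0 0 : ℤ) : ZMod p) * (A 1 1 : ZMod p)
        = (A 0 1 : ZMod p) * (A 1 0 : ZMod p) := by
      obtain ⟨c, hc⟩ := hA
      rw [hc] at hdet
      have := congrArg (Int.cast : ℤ → ZMod p) hdet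
      push_cast at this
      rw [ZMod.natCast_self, zero_mul] at this
      exact sub_eq_zero.mp this
    obtain ⟨j, hj1, hj2⟩ : ∃ j : ZMod p, j * (A 0 0 : ZMod p) = (A 0 1 : ZMod p) ∧
        j * (A 1 0 : ZMod p) = (A 1 1 : ZMod p) := by
      by_cases hx : ((A 0 0 : ℤ) : ZMod p) = 0
      · have hz : ((A 1 0 : ℤ) : ZMod p) ≠ 0 := by
          intro hz
          exact h ⟨(ZMod.intCast_zmod_eq_zero_iff_dvd _ p).mp hx,
            (ZMod.intCast_zmod_eq_zero_iff_dvd _ p).mp hz⟩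
        refine ⟨(A 1 1 : ZMod p) * ((A 1 0 : ℤ) : ZMod p)⁻¹, ?_, ?_⟩
        · rw [hx, mul_zero]
          rw [hx, zero_mul] at hcast
          exact ((mul_eq_zero.mp hcast.symm).resolve_right hz).symm
        · rw [mul_assoc, inv_mul_cancel₀ hz, mul_one]
      · refine ⟨(A 0 1 : ZMod p) * ((A 0 0 : ℤ) : ZMod p)⁻¹, ?_, ?_⟩
        · rw [mul_assoc, inv_mul_cancel₀ hx, mul_one]
        · have : ((A 0 0 : ℤ) : ZMod p)
              * ((A 0 1 : ZMod p) * ((A 0 0 : ℤ) : ZMod p)⁻¹ * (A 1 0 : ZMod p))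
              = ((A 0 0 : ℤ) : ZMod p) * (A 1 1 : ZMod p) := by
            rw [hcast]; field_simp
          exact mul_left_cancel₀ hx this
    obtain ⟨y', hy⟩ : (p : ℤ) ∣ A 0 1 - j.val * A 0 0 := by
      rw [← ZMod.intCast_zmod_eq_zero_iff_dvd]
      push_cast
      rw [ZMod.natCast_zmod_val, hj1, sub_self]
    obtain ⟨w', hw⟩ : (p : ℤ) ∣ A 1 1 - j.val * A 1 0 := by
      rw [← ZMod.intCast_zmod_eq_zero_iff_dvd]
      push_cast
      rw [ZMod.natCast_zmod_val, hj2, sub_self]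
    refine ⟨some j, !![A 0 0, y'; A 1 0, w'], ?_⟩
    ext a b
    fin_cases a <;> fin_cases b <;>
      simp [beta, Matrix.mul_apply, Fin.sum_univ_two, -ZMod.natCast_val]
    · linear_combination hy
    · linear_combination hw

/-- The index `k` in `A = B * β_k` is unique when `p ∤ det B`. -/
theorem beta_index_unique {k k' : Option (ZMod p)} {C C' : Matrix (Fin 2) (Fin 2) ℤ}
    (h : C * beta p k = C' * beta p k') (hC : ¬ (p : ℤ) ∣ C.det) : k = k' := by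
  have hdetC : C 0 0 * C 1 1 - C 0 1 * C 1 0 = C.det := by rw [← Matrix.det_fin_two]
  have hdetC' : C' 0 0 * C' 1 1 - C' 0 1 * C' 1 0 = C'.det := by rw [← Matrix.det_fin_two]
  have hdd : C.det = C'.det := by
    have h1 := congrArg Matrix.det h
    rw [Matrix.det_mul, Matrix.det_mul, det_beta, det_beta] at h1
    exact mul_right_cancel₀ p_ne_zero' h1
  have hC' : ¬ (p : ℤ) ∣ C'.det := hdd ▸ hC
  have e00 := congrFun (congrFun h 0) 0
  have e10 := congrFun (congrFun h 1) 0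
  have e01 := congrFun (congrFun h 0) 1
  have e11 := congrFun (congrFun h 1) 1
  cases k with
  | none =>
    cases k' with
    | none => rfl
    | some j' =>
      exfalso
      simp [beta, Matrix.mul_apply, Fin.sum_univ_two, -ZMod.natCast_val] at e00 e10 e01 e11
      -- `C 0 1 = C' 0 0 * j' + C' 0 1 * p`, `C' 0 0 = C 0 0 * p`
      apply hC
      rw [← hdetC, e01, e11, ← e00, ← e10]
      exact ⟨C 0 0 * (C 1 0 * j'.val + C' 1 1) - (C 0 0 * j'.val + C' 0 1) * C 1 0, by ring⟩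
  | some j =>
    cases k' with
    | none =>
      exfalso
      simp [beta, Matrix.mul_apply, Fin.sum_univ_two, -ZMod.natCast_val] at e00 e10 e01 e11
      apply hC'
      rw [← hdetC', ← e01, ← e11, e00, e10]
      exact ⟨C' 0 0 * (C' 1 0 * j.val + C 1 1) - (C' 0 0 * j.val + C 0 1) * C' 1 0, by ring⟩
    | some j' =>
      simp [beta, Matrix.mul_apply, Fin.sum_univ_two, -ZMod.natCast_val] at e00 e10 e01 e11
      by_contra hne
      have hjj : j - j' ≠ 0 := fun h0 => hne (by rw [sub_eq_zero.mp h0])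
      have c01 := congrArg (Int.cast : ℤ → ZMod p) e01
      have c11 := congrArg (Int.cast : ℤ → ZMod p) e11
      push_cast at c01 c11
      simp only [ZMod.natCast_zmod_val, ZMod.natCast_self, mul_zero, add_zero] at c01 c11
      rw [← e00] at c01
      rw [← e10] at c11
      have z0 : ((C 0 0 : ℤ) : ZMod p) = 0 := by
        have : ((C 0 0 : ℤ) : ZMod p) * (j - j') = 0 := by
          rw [mul_sub, c01, sub_self]
        exact (mul_eq_zero.mp this).resolve_right hjj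
      have z1 : ((C 1 0 : ℤ) : ZMod p) = 0 := by
        have : ((C 1 0 : ℤ) : ZMod p) * (j - j') = 0 := by
          rw [mul_sub, c11, sub_self]
        exact (mul_eq_zero.mp this).resolve_right hjj
      apply hC
      rw [← hdetC]
      exact dvd_sub (Dvd.dvd.mul_right ((ZMod.intCast_zmod_eq_zero_iff_dvd _ p).mp z0) _)
        (Dvd.dvd.mul_left ((ZMod.intCast_zmod_eq_zero_iff_dvd _ p).mp z1) _)

end Beta

/-! ### Multiplying by an element of `Γ₀(M)` on the right -/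

theorem exists_mul_coe {n : ℤ} {e : ZMod M} {τ : SL(2, ℤ)} (hτ : τ ∈ Gamma0 M)
    {A : Matrix (Fin 2) (Fin 2) ℤ} (hA : A ∈ DeltaZ M n (e * ((τ 1 1 : ℤ) : ZMod M))) :
    ∃ B : Matrix (Fin 2) (Fin 2) ℤ, B ∈ DeltaZ M n e ∧
      A = B * (τ : Matrix (Fin 2) (Fin 2) ℤ) := by
  refine ⟨A * ((τ⁻¹ : SL(2, ℤ)) : Matrix (Fin 2) (Fin 2) ℤ), ?_, ?_⟩
  · have h := mul_mem_DeltaZ hA (coe_mem_DeltaZ ((Gamma0 M).inv_mem hτ))
    rwa [mul_one, mul_assoc, lr_mul_lr_inv hτ, mul_one] at h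
  · rw [Matrix.mul_assoc, ← Matrix.SpecialLinearGroup.coe_mul, inv_mul_cancel,
      Matrix.SpecialLinearGroup.coe_one, Matrix.mul_one]

/-! ### The representatives of `T_p` -/

section Tp

variable {p : ℕ} [hp : Fact p.Prime]

/-- the integer matrices of the representatives of `T_p`. -/
def aT (σ : SL(2, ℤ)) (i : Option (ZMod p)) : Matrix (Fin 2) (Fin 2) ℤ :=
  (sgm σ i : Matrix (Fin 2) (Fin 2) ℤ) * beta p i

theorem coe_alphaT (σ : SL(2, ℤ)) (i : Option (ZMod p)) :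
    ((alphaT σ i : GL (Fin 2) ℝ) : Matrix (Fin 2) (Fin 2) ℝ) = castM (aT σ i) := by
  rw [alphaT, Matrix.GeneralLinearGroup.coe_mul, coe_mapGL, coe_glBeta, aT, castM_mul]

omit hp in
theorem aT_mem {σ : SL(2, ℤ)} (hσ : σ ∈ Gamma0 M) (hσp : ((σ 1 1 : ℤ) : ZMod M) = (p : ZMod M))
    (i : Option (ZMod p)) : aT σ i ∈ DeltaZ M p p := by
  cases i with
  | none =>
    have h1 : beta p none ∈ DeltaZ M p 1 := ⟨det_beta p none, by simp [beta], by simp [beta]⟩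
    have h := mul_mem_DeltaZ (coe_mem_DeltaZ hσ) h1
    rw [one_mul, mul_one, hσp] at h
    exact h
  | some j =>
    have h1 : beta p (some j) ∈ DeltaZ M p p :=
      ⟨det_beta p _, by simp [beta], by simp [beta]⟩
    have h := mul_mem_DeltaZ (coe_mem_DeltaZ_one (Subgroup.one_mem (Gamma1 M))) h1
    rw [one_mul, one_mul] at h
    simpa [aT] using h

/-- cancelling a factor in `DeltaZ M p p` on the right. -/
theorem mem_DeltaZ_of_mul {n : ℤ} {d : ZMod M} (hpM : ¬ p ∣ M)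
    {α B : Matrix (Fin 2) (Fin 2) ℤ} (hα : α ∈ DeltaZ M p p)
    (hAB : B * α ∈ DeltaZ M (p * n) (p * d)) : B ∈ DeltaZ M n d := by
  obtain ⟨hα1, hα2, hα3⟩ := hα
  obtain ⟨h1, h2, h3⟩ := hAB
  have hcop : Nat.Coprime p M := (Nat.Prime.coprime_iff_not_dvd hp.out).mpr hpM
  have hunit : IsUnit ((p : ℕ) : ZMod M) := (ZMod.unitOfCoprime p hcop).isUnit
  have hα0 : ((α 0 0 : ℤ) : ZMod M) = 1 := by
    have hd : α 0 0 * α 1 1 - α 0 1 * α 1 0 = p := by rw [← Matrix.det_fin_two]; exact hα1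
    have hc := congrArg (Int.cast : ℤ → ZMod M) hd
    push_cast at hc
    rw [hα2, hα3, mul_zero, sub_zero] at hc
    exact hunit.mul_right_cancel (by rw [hc, one_mul])
  rw [Matrix.mul_apply, Fin.sum_univ_two] at h2 h3
  push_cast at h2 h3
  rw [hα0, hα2, mul_one, mul_zero, add_zero] at h2
  rw [h2, zero_mul, zero_add, hα3, mul_comm (p : ZMod M) d] at h3
  refine ⟨?_, h2, hunit.mul_right_cancel h3⟩
  rw [Matrix.det_mul, hα1, mul_comm] at h1
  exact mul_left_cancel₀ p_ne_zero' h1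

/-- **Existence**: every matrix of `DeltaZ M (p n) (p d)` is `B * α_i` with `B ∈ DeltaZ M n d`. -/
theorem exists_mul_aT {n : ℤ} {d : ZMod M} (hpM : ¬ p ∣ M) {σ : SL(2, ℤ)} (hσ : σ ∈ Gamma0 M)
    (hσp : ((σ 1 1 : ℤ) : ZMod M) = (p : ZMod M)) {A : Matrix (Fin 2) (Fin 2) ℤ}
    (hA : A ∈ DeltaZ M (p * n) (p * d)) :
    ∃ (i : Option (ZMod p)) (B : Matrix (Fin 2) (Fin 2) ℤ), B ∈ DeltaZ M n d ∧ A = B * aT σ i := by
  obtain ⟨k, B₀, hB₀⟩ := exists_mul_beta (p := p) A (by rw [hA.1]; exact dvd_mul_right _ _)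
  have e : A = B₀ * (((sgm σ k)⁻¹ : SL(2, ℤ)) : Matrix (Fin 2) (Fin 2) ℤ) * aT σ k := by
    rw [aT, Matrix.mul_assoc, ← Matrix.mul_assoc _ _ (beta p k),
      ← Matrix.SpecialLinearGroup.coe_mul, inv_mul_cancel, Matrix.SpecialLinearGroup.coe_one,
      Matrix.one_mul]
    exact hB₀
  refine ⟨k, B₀ * (((sgm σ k)⁻¹ : SL(2, ℤ)) : Matrix (Fin 2) (Fin 2) ℤ), ?_, e⟩
  apply mem_DeltaZ_of_mul hpM (aT_mem hσ hσp k)
  rw [← e]
  exact hA

/-- **Uniqueness** of the index. -/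
theorem aT_index_unique {σ : SL(2, ℤ)} {i i' : Option (ZMod p)}
    {B B' : Matrix (Fin 2) (Fin 2) ℤ} (hB : ¬ (p : ℤ) ∣ B.det)
    (h : B * aT σ i = B' * aT σ i') : i = i' := by
  apply beta_index_unique (C := B * (sgm σ i : Matrix (Fin 2) (Fin 2) ℤ))
    (C' := B' * (sgm σ i' : Matrix (Fin 2) (Fin 2) ℤ))
  · simpa [aT, Matrix.mul_assoc] using h
  · rw [Matrix.det_mul, (sgm σ i).2, mul_one]
    exact hB

theorem not_dvd_one : ¬ (p : ℤ) ∣ 1 := fun h =>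
  hp.out.one_lt.ne' (by exact_mod_cast Int.eq_one_of_dvd_one (by positivity) h)

/-- The representatives of `T_p` are a system of representatives of `Γ₁(M) \ DeltaZ M p p`. -/
theorem intReps_heckeRepsT (hpM : ¬ p ∣ M) (σ : SL(2, ℤ)) (hσ : σ ∈ Gamma0 M)
    (hσp : ((σ 1 1 : ℤ) : ZMod M) = (p : ZMod M)) :
    IntReps (heckeRepsT M hpM σ hσ hσp) (aT σ) (DeltaZ M p p) where
  coe i := coe_alphaT σ i
  mem i := aT_mem hσ hσp i
  complete A hA := by
    have hA' : A ∈ DeltaZ M (p * 1) (p * 1) := by rwa [mul_one, mul_one]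
    obtain ⟨i, B, hB, rfl⟩ := exists_mul_aT hpM hσ hσp hA'
    obtain ⟨γ, rfl⟩ := exists_Gamma1_of_mem_DeltaZ_one hB
    exact ⟨i, γ, rfl⟩
  distinct i i' δ h := by
    apply aT_index_unique (σ := σ) (B := 1)
      (B' := (((δ : Gamma1 M) : SL(2, ℤ)) : Matrix (Fin 2) (Fin 2) ℤ))
    · rw [Matrix.det_one]
      exact not_dvd_one
    · rw [Matrix.one_mul]
      exact h

end Tp

/-! ### The representatives of the diamond operators -/

theorem intReps_diamondReps (τ : SL(2, ℤ)) (hτ : τ ∈ Gamma0 M) :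
    IntReps (diamondReps M τ hτ) (fun _ => (τ : Matrix (Fin 2) (Fin 2) ℤ))
      (DeltaZ M 1 ((τ 1 1 : ℤ) : ZMod M)) where
  coe _ := coe_mapGL τ
  mem _ := coe_mem_DeltaZ hτ
  complete A hA := by
    have hA' : A ∈ DeltaZ M 1 (1 * ((τ 1 1 : ℤ) : ZMod M)) := by rwa [one_mul]
    obtain ⟨B, hB, rfl⟩ := exists_mul_coe hτ hA'
    obtain ⟨γ, rfl⟩ := exists_Gamma1_of_mem_DeltaZ_one hB
    exact ⟨(), γ, rfl⟩
  distinct _ _ _ _ := rfl

end Fermat.Agent.DS.Per1.RepsComm36Mat
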