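/-
DS programme (S48), GEO half, brick GEO-FIN-LAT (helper36), main results.

**The transfer (double coset) operators of `T_p` (`p ∤ M`) and `⟨d⟩` on `Hom(Γ₁(M), A)` commute and
do not depend on the choice of `σ`**, for every abelian group `A`; algebraic proof (no periods):

* `dHom_heckeRepsT_indep`, `dHom_diamondReps_indep` : independence of the choice of `σ`;
* `dHom_TT_comm`, `dHom_TD_comm`, `dHom_DD_comm` : commutation on `Hom(Γ₁(M), A)`;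
* `dPar_TT_commute`, `dPar_TD_commute`, `dPar_DD_commute` : the same for the operators `dPar R A` on
  `parabolicHoms R Γ₁(M) A`, as `Commute` statements in `Module.End`.
-/
import Mathlib
import Fermat.Agent.DS.Per1.RepsComm36Mat

set_option autoImplicit false
set_option linter.dupNamespace false
set_option linter.unusedSectionVars false

open Matrix Matrix.SpecialLinearGroup CongruenceSubgroup ModularCurve.Period
open scoped MatrixGroups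

namespace Fermat.Agent.DS.Per1.RepsComm36Main

open Fermat.Agent.DS.Per1.HeckeReps Fermat.Agent.DS.Per1.RepsGamma1
open Fermat.Agent.DS.Per1.RepsComm36Abs Fermat.Agent.DS.Per1.RepsComm36Mat

variable {M : ℕ}

/-! ### Independence of `σ` -/

theorem dHom_heckeRepsT_indep {p : ℕ} [hp : Fact p.Prime] (hpM : ¬ p ∣ M)
    (σ : SL(2, ℤ)) (hσ : σ ∈ Gamma0 M) (hσp : ((σ 1 1 : ℤ) : ZMod M) = (p : ZMod M))
    (σ' : SL(2, ℤ)) (hσ' : σ' ∈ Gamma0 M) (hσp' : ((σ' 1 1 : ℤ) : ZMod M) = (p : ZMod M))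
    (A : Type*) [AddCommGroup A] :
    (heckeRepsT M hpM σ hσ hσp).dHom A = (heckeRepsT M hpM σ' hσ' hσp').dHom A :=
  haveI : NeZero p := ⟨hp.out.ne_zero⟩
  dHom_eq_of_intReps (intReps_heckeRepsT hpM σ hσ hσp) (intReps_heckeRepsT hpM σ' hσ' hσp') A

theorem dHom_diamondReps_indep (τ : SL(2, ℤ)) (hτ : τ ∈ Gamma0 M) (τ' : SL(2, ℤ))
    (hτ' : τ' ∈ Gamma0 M) (h : ((τ 1 1 : ℤ) : ZMod M) = ((τ' 1 1 : ℤ) : ZMod M))
    (A : Type*) [AddCommGroup A] :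
    (diamondReps M τ hτ).dHom A = (diamondReps M τ' hτ').dHom A :=
  dHom_eq_of_intReps (intReps_diamondReps τ hτ) (h ▸ intReps_diamondReps τ' hτ') A

/-! ### Composites -/

section TT

variable {p q : ℕ} [hp : Fact p.Prime] [hq : Fact q.Prime]

theorem intReps_comp_TT (hpq : p ≠ q) (hpM : ¬ p ∣ M) (hqM : ¬ q ∣ M)
    (σ : SL(2, ℤ)) (hσ : σ ∈ Gamma0 M) (hσp : ((σ 1 1 : ℤ) : ZMod M) = (p : ZMod M))
    (τ : SL(2, ℤ)) (hτ : τ ∈ Gamma0 M) (hτq : ((τ 1 1 : ℤ) : ZMod M) = (q : ZMod M)) :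
    IntReps (comp (heckeRepsT M hpM σ hσ hσp) (heckeRepsT M hqM τ hτ hτq))
      (fun x => aT τ x.2 * aT σ x.1) (DeltaZ M ((p : ℤ) * q) ((p : ZMod M) * q)) := by
  refine IntReps.comp (intReps_heckeRepsT hqM τ hτ hτq) (coe_alphaT σ)
    (fun δ B hB => Gamma1_mul_mem_DeltaZ δ hB) ?_ (fun A hA => exists_mul_aT hpM hσ hσp hA) ?_
  · intro i j
    have h := mul_mem_DeltaZ (aT_mem hτ hτq j) (aT_mem hσ hσp i)
    rwa [mul_comm (q : ℤ), mul_comm (q : ZMod M)] at h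
  · intro i i' B B' hB _ h
    refine aT_index_unique ?_ h
    rw [hB.1]
    exact fun hd => hpq ((Nat.prime_dvd_prime_iff_eq hp.out hq.out).mp
      (Int.natCast_dvd_natCast.mp hd))

end TT

section TD

variable {p : ℕ} [hp : Fact p.Prime]

theorem intReps_comp_TD (hpM : ¬ p ∣ M)
    (σ : SL(2, ℤ)) (hσ : σ ∈ Gamma0 M) (hσp : ((σ 1 1 : ℤ) : ZMod M) = (p : ZMod M))
    (τ : SL(2, ℤ)) (hτ : τ ∈ Gamma0 M) :
    IntReps (comp (heckeRepsT M hpM σ hσ hσp) (diamondReps M τ hτ))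
      (fun x => (τ : Matrix (Fin 2) (Fin 2) ℤ) * aT σ x.1)
      (DeltaZ M ((p : ℤ) * 1) ((p : ZMod M) * ((τ 1 1 : ℤ) : ZMod M))) := by
  refine IntReps.comp (intReps_diamondReps τ hτ) (coe_alphaT σ)
    (fun δ B hB => Gamma1_mul_mem_DeltaZ δ hB) ?_ (fun A hA => exists_mul_aT hpM hσ hσp hA) ?_
  · intro i j
    have h := mul_mem_DeltaZ (coe_mem_DeltaZ hτ) (aT_mem hσ hσp i)
    rwa [mul_comm (1 : ℤ), mul_comm _ (p : ZMod M)] at h
  · intro i i' B B' hB _ h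
    refine aT_index_unique ?_ h
    rw [hB.1]
    exact not_dvd_one

theorem intReps_comp_DT (hpM : ¬ p ∣ M)
    (σ : SL(2, ℤ)) (hσ : σ ∈ Gamma0 M) (hσp : ((σ 1 1 : ℤ) : ZMod M) = (p : ZMod M))
    (τ : SL(2, ℤ)) (hτ : τ ∈ Gamma0 M) :
    IntReps (comp (diamondReps M τ hτ) (heckeRepsT M hpM σ hσ hσp))
      (fun x => aT σ x.2 * (τ : Matrix (Fin 2) (Fin 2) ℤ))
      (DeltaZ M ((p : ℤ) * 1) ((p : ZMod M) * ((τ 1 1 : ℤ) : ZMod M))) := by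
  refine IntReps.comp (a₁ := fun _ => (τ : Matrix (Fin 2) (Fin 2) ℤ))
    (intReps_heckeRepsT hpM σ hσ hσp) (fun _ => coe_mapGL τ)
    (fun δ B hB => Gamma1_mul_mem_DeltaZ δ hB) ?_ ?_ (fun _ _ _ _ _ _ _ => rfl)
  · intro i j
    exact mul_mem_DeltaZ (aT_mem hσ hσp j) (coe_mem_DeltaZ hτ)
  · intro A hA
    rw [mul_one] at hA
    obtain ⟨B, hB, e⟩ := exists_mul_coe hτ hA
    exact ⟨(), B, hB, e⟩

end TD

theorem intReps_comp_DD (τ : SL(2, ℤ)) (hτ : τ ∈ Gamma0 M) (τ' : SL(2, ℤ)) (hτ' : τ' ∈ Gamma0 M) :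
    IntReps (comp (diamondReps M τ hτ) (diamondReps M τ' hτ'))
      (fun _ => (τ' : Matrix (Fin 2) (Fin 2) ℤ) * (τ : Matrix (Fin 2) (Fin 2) ℤ))
      (DeltaZ M 1 (((τ' 1 1 : ℤ) : ZMod M) * ((τ 1 1 : ℤ) : ZMod M))) := by
  refine IntReps.comp (a₁ := fun _ => (τ : Matrix (Fin 2) (Fin 2) ℤ))
    (intReps_diamondReps τ' hτ') (fun _ => coe_mapGL τ)
    (fun δ B hB => Gamma1_mul_mem_DeltaZ δ hB) ?_ ?_ (fun _ _ _ _ _ _ _ => rfl)
  · intro i j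
    have h := mul_mem_DeltaZ (coe_mem_DeltaZ hτ') (coe_mem_DeltaZ hτ)
    rwa [one_mul] at h
  · intro A hA
    obtain ⟨B, hB, e⟩ := exists_mul_coe hτ hA
    exact ⟨(), B, hB, e⟩

/-! ### Commutation on `Hom(Γ₁(M), A)` -/

section Comm

variable (A : Type*) [AddCommGroup A]

theorem dHom_TT_comm {p q : ℕ} [hp : Fact p.Prime] [hq : Fact q.Prime]
    (hpM : ¬ p ∣ M) (hqM : ¬ q ∣ M)
    (σ : SL(2, ℤ)) (hσ : σ ∈ Gamma0 M) (hσp : ((σ 1 1 : ℤ) : ZMod M) = (p : ZMod M))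
    (τ : SL(2, ℤ)) (hτ : τ ∈ Gamma0 M) (hτq : ((τ 1 1 : ℤ) : ZMod M) = (q : ZMod M))
    (φ : Additive (Gamma1 M) →+ A) :
    (heckeRepsT M hpM σ hσ hσp).dHom A ((heckeRepsT M hqM τ hτ hτq).dHom A φ)
      = (heckeRepsT M hqM τ hτ hτq).dHom A ((heckeRepsT M hpM σ hσ hσp).dHom A φ) := by
  haveI : NeZero p := ⟨hp.out.ne_zero⟩
  haveI : NeZero q := ⟨hq.out.ne_zero⟩
  by_cases hpq : p = q
  · subst hpq
    rw [dHom_heckeRepsT_indep hpM σ hσ hσp τ hτ hτq A]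
  · rw [← comp_dHom, ← comp_dHom]
    have h1 := intReps_comp_TT hpq hpM hqM σ hσ hσp τ hτ hτq
    have h2 := intReps_comp_TT (Ne.symm hpq) hqM hpM τ hτ hτq σ hσ hσp
    rw [mul_comm (q : ℤ), mul_comm (q : ZMod M)] at h2
    exact congrArg (fun T => T φ) (dHom_eq_of_intReps h1 h2 A)

theorem dHom_TD_comm {p : ℕ} [hp : Fact p.Prime] (hpM : ¬ p ∣ M)
    (σ : SL(2, ℤ)) (hσ : σ ∈ Gamma0 M) (hσp : ((σ 1 1 : ℤ) : ZMod M) = (p : ZMod M))
    (τ : SL(2, ℤ)) (hτ : τ ∈ Gamma0 M) (φ : Additive (Gamma1 M) →+ A) :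
    (heckeRepsT M hpM σ hσ hσp).dHom A ((diamondReps M τ hτ).dHom A φ)
      = (diamondReps M τ hτ).dHom A ((heckeRepsT M hpM σ hσ hσp).dHom A φ) := by
  haveI : NeZero p := ⟨hp.out.ne_zero⟩
  rw [← comp_dHom, ← comp_dHom]
  exact congrArg (fun T => T φ)
    (dHom_eq_of_intReps (intReps_comp_TD hpM σ hσ hσp τ hτ) (intReps_comp_DT hpM σ hσ hσp τ hτ) A)

theorem dHom_DD_comm (τ : SL(2, ℤ)) (hτ : τ ∈ Gamma0 M) (τ' : SL(2, ℤ)) (hτ' : τ' ∈ Gamma0 M)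
    (φ : Additive (Gamma1 M) →+ A) :
    (diamondReps M τ hτ).dHom A ((diamondReps M τ' hτ').dHom A φ)
      = (diamondReps M τ' hτ').dHom A ((diamondReps M τ hτ).dHom A φ) := by
  rw [← comp_dHom, ← comp_dHom]
  have h1 := intReps_comp_DD τ hτ τ' hτ'
  have h2 := intReps_comp_DD τ' hτ' τ hτ
  rw [mul_comm] at h2
  exact congrArg (fun T => T φ) (dHom_eq_of_intReps h1 h2 A)

end Comm

/-! ### Commutation on the parabolic homomorphisms -/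

section Par

variable (R A : Type*) [Semiring R] [AddCommGroup A] [Module R A]

theorem dPar_TT_commute {p q : ℕ} [hp : Fact p.Prime] [hq : Fact q.Prime]
    (hpM : ¬ p ∣ M) (hqM : ¬ q ∣ M)
    (σ : SL(2, ℤ)) (hσ : σ ∈ Gamma0 M) (hσp : ((σ 1 1 : ℤ) : ZMod M) = (p : ZMod M))
    (τ : SL(2, ℤ)) (hτ : τ ∈ Gamma0 M) (hτq : ((τ 1 1 : ℤ) : ZMod M) = (q : ZMod M)) :
    haveI : NeZero p := ⟨hp.out.ne_zero⟩
    haveI : NeZero q := ⟨hq.out.ne_zero⟩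
    Commute ((heckeRepsT M hpM σ hσ hσp).dPar R A) ((heckeRepsT M hqM τ hτ hτq).dPar R A) := by
  refine LinearMap.ext fun φ => Subtype.ext ?_
  exact dHom_TT_comm A hpM hqM σ hσ hσp τ hτ hτq φ.1

theorem dPar_TD_commute {p : ℕ} [hp : Fact p.Prime] (hpM : ¬ p ∣ M)
    (σ : SL(2, ℤ)) (hσ : σ ∈ Gamma0 M) (hσp : ((σ 1 1 : ℤ) : ZMod M) = (p : ZMod M))
    (τ : SL(2, ℤ)) (hτ : τ ∈ Gamma0 M) :
    haveI : NeZero p := ⟨hp.out.ne_zero⟩
    Commute ((heckeRepsT M hpM σ hσ hσp).dPar R A) ((diamondReps M τ hτ).dPar R A) := by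
  refine LinearMap.ext fun φ => Subtype.ext ?_
  exact dHom_TD_comm A hpM σ hσ hσp τ hτ φ.1

theorem dPar_DD_commute (τ : SL(2, ℤ)) (hτ : τ ∈ Gamma0 M) (τ' : SL(2, ℤ))
    (hτ' : τ' ∈ Gamma0 M) :
    Commute ((diamondReps M τ hτ).dPar R A) ((diamondReps M τ' hτ').dPar R A) := by
  refine LinearMap.ext fun φ => Subtype.ext ?_
  exact dHom_DD_comm A τ hτ τ' hτ' φ.1

end Par

end Fermat.Agent.DS.Per1.RepsComm36Main
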