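/-
DS programme (S48), GEO half, brick GEO-FIN-LAT (helper36): **the lattice side of `GeoInputs`**,
unconditionally.

* `opZ_commute M x y : Commute (opZ M x) (opZ M y)` — helper78's lattice operators on
  `Λ = parabolicHoms ℤ Γ₁(M) ℤ` commute (algebraic proof: `RepsComm36Main`);
* `instCommRingLatticeAlg : CommRing ↥(latticeAlg M)`;
* `latticeSide M : LatticeSide M` — the fields `Lam, R, act, act_injective, gT, gD, gen, π, π_T, π_D`
  of `G/Top/Inputs.GeoInputs M ℓ`, with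
  `Lam = ↥(parabolicHoms ℤ (Gamma1 M) ℤ)`, `R = ↥(latticeAlg M)`, `act = ` the inclusion into
  `Module.End ℤ Lam`;
* `coe_gT_eq`, `coe_gD_eq` : `act (gT hp hpM) = (heckeRepsT M hpM σ hσ hσp).dPar ℤ ℤ` for EVERY
  admissible `σ`, `act (gD d) = (diamondReps M τ hτ).dPar ℤ ℤ` for every `τ ∈ Γ₀(M)` with lower right
  entry `≡ d`.
-/
import Mathlib
import Fermat.Agent.DS.Per1.LatticeSideCond
import Fermat.Agent.DS.Per1.RepsComm36Main

set_option autoImplicit false
set_option linter.unusedSectionVars false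

open Matrix.SpecialLinearGroup UpperHalfPlane CongruenceSubgroup ModularForm ModularCurve.Period
open scoped MatrixGroups ModularForm

noncomputable section

namespace Fermat.Agent.DS.Per1.LatticeSide

open Fermat.Agent.DS.Per1.HeckeReps Fermat.Agent.DS.Per1.RepsGamma1
open Fermat.Agent.DS.Per1.LatticeTransfer Fermat.Agent.DS.Per1.LatticeSideCond
open Fermat.Agent.DS.Per1.RepsComm36Main
open Fermat.Agent.DS.Hecke1.Diamond Fermat.Agent.DS.Hecke1.HeckeT1 Fermat.Agent.DS.Hecke1.Algebra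
open Fermat.Agent.DS.Hecke1.Cosets

variable (M : ℕ) [NeZero M]

/-- **The lattice operators commute.** -/
theorem opZ_commute (x y : Gen M) : Commute (opZ M x) (opZ M y) := by
  rcases x with x | d <;> rcases y with y | e
  · have : Fact x.1.Prime := ⟨x.2.1⟩
    have : Fact y.1.Prime := ⟨y.2.1⟩
    exact dPar_TT_commute ℤ ℤ x.2.2 y.2.2 _ (sigmaOf_mem M x.1 _) (sigmaOf_apply_one_one M x.1 _)
      _ (sigmaOf_mem M y.1 _) (sigmaOf_apply_one_one M y.1 _)
  · have : Fact x.1.Prime := ⟨x.2.1⟩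
    exact dPar_TD_commute ℤ ℤ x.2.2 _ (sigmaOf_mem M x.1 _) (sigmaOf_apply_one_one M x.1 _)
      (lift e) (lift_mem e)
  · have : Fact y.1.Prime := ⟨y.2.1⟩
    exact (dPar_TD_commute ℤ ℤ y.2.2 _ (sigmaOf_mem M y.1 _) (sigmaOf_apply_one_one M y.1 _)
      (lift d) (lift_mem d)).symm
  · exact dPar_DD_commute ℤ ℤ (lift d) (lift_mem d) (lift e) (lift_mem e)

/-- the commutative ring structure on helper78's lattice Hecke algebra. -/
instance instCommRingLatticeAlg : CommRing ↥(latticeAlg M) :=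
  commRingLatticeAlg M (opZ_commute M)

/-- **GEO-FIN-LAT**: the lattice side of `GeoInputs M ℓ`. -/
def latticeSide : LatticeSide M := latticeSideOf M (opZ_commute M)

/-! ### The generators for an arbitrary choice of `σ` -/

theorem coe_gT_eq {p : ℕ} [hp : Fact p.Prime] (hpM : ¬ p ∣ M) (σ : SL(2, ℤ)) (hσ : σ ∈ Gamma0 M)
    (hσp : ((σ 1 1 : ℤ) : ZMod M) = (p : ZMod M)) :
    haveI : NeZero p := ⟨hp.out.ne_zero⟩
    ((gT M hp.out hpM : ↥(latticeAlg M)) : Module.End ℤ (parabolicHoms ℤ (Gamma1 M) ℤ))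
      = (heckeRepsT M hpM σ hσ hσp).dPar ℤ ℤ := by
  rw [coe_gT]
  refine LinearMap.ext fun φ => Subtype.ext ?_
  exact congrArg (fun T => T φ.1) (dHom_heckeRepsT_indep hpM _ (sigmaOf_mem M p _)
    (sigmaOf_apply_one_one M p _) σ hσ hσp ℤ)

theorem coe_gD_eq (d : (ZMod M)ˣ) (τ : SL(2, ℤ)) (hτ : τ ∈ Gamma0 M)
    (hd : ((τ 1 1 : ℤ) : ZMod M) = (d : ZMod M)) :
    ((gD M d : ↥(latticeAlg M)) : Module.End ℤ (parabolicHoms ℤ (Gamma1 M) ℤ))
      = (diamondReps M τ hτ).dPar ℤ ℤ := by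
  rw [coe_gD]
  refine LinearMap.ext fun φ => Subtype.ext ?_
  exact congrArg (fun T => T φ.1) (dHom_diamondReps_indep (lift d) (lift_mem d) τ hτ
    ((lr_lift d).trans hd.symm) ℤ)

end Fermat.Agent.DS.Per1.LatticeSide
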