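/-
DS programme (S48), chapter G-PER (helper78): bridge between the group-side Hecke representatives
of `Γ₁(M)` (`Per1/RepsGamma1`) and the operators of HECKE1 (`Hecke1/HeckeT1`, `Hecke1/Diamond`,
helper2) on cusp forms:

* `sum_slash_heckeRepsT` : `∑ i, g ∣[k] α i = heckeT1Fun k p σ g`;
* `coe_heckeT1_eq_sum`   : `⇑(heckeT1 hp hpM g) = ∑ i, ⇑g ∣[k] α i` for ANY admissible `σ`;
* `coe_diamond_eq_slash` : `⇑(diamond d g) = ⇑g ∣[k] α ()` for the diamond representatives.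
-/
import Mathlib
import Fermat.Agent.DS.Per1.RepsGamma1
import Fermat.Agent.DS.Hecke1.HeckeT1

set_option autoImplicit false

open Matrix.SpecialLinearGroup UpperHalfPlane CongruenceSubgroup ModularForm
open scoped MatrixGroups ModularForm

namespace Fermat.Agent.DS.Per1.RepsBridge

open Fermat.Agent.DS.Per1.HeckeReps Fermat.Agent.DS.Per1.RepsGamma1
open Fermat.Agent.DS.Hecke1.Cosets Fermat.Agent.DS.Hecke1.Diamond Fermat.Agent.DS.Hecke1.HeckeT1

variable {M : ℕ} {k : ℤ} {p : ℕ} [hp : Fact p.Prime]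

/-- The sum of the slashes by the representatives of `heckeRepsT` is the function-level `T_p` of
HECKE1. -/
theorem sum_slash_heckeRepsT (hpM : ¬ p ∣ M) (σ : SL(2, ℤ)) (hσ : σ ∈ Gamma0 M)
    (hσp : ((σ 1 1 : ℤ) : ZMod M) = (p : ZMod M)) (g : ℍ → ℂ) :
    ∑ i : Option (ZMod p), g ∣[k] (heckeRepsT M hpM σ hσ hσp).α i = heckeT1Fun k p σ g := by
  have : NeZero p := ⟨hp.out.ne_zero⟩
  rw [Fintype.sum_option, heckeT1Fun, heckeU_def, sum_range_eq_sum_zmod, add_comm]
  congr 1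
  · refine Finset.sum_congr rfl fun j _ => ?_
    rw [heckeRepsT_α_some]
  · rw [heckeRepsT_α_none, SlashAction.slash_mul, slash_mapGL]

section CuspForms

variable [NeZero M]

local notation "Γ1M" => ((Gamma1 M : Subgroup SL(2, ℤ)) : Subgroup (GL (Fin 2) ℝ))

/-- `T_p` on cusp forms of level `Γ₁(M)` as the sum over the representatives of `heckeRepsT`,
for any admissible `σ`. -/
theorem coe_heckeT1_eq_sum (hpM : ¬ p ∣ M) (σ : SL(2, ℤ)) (hσ : σ ∈ Gamma0 M)
    (hσp : ((σ 1 1 : ℤ) : ZMod M) = (p : ZMod M)) (g : CuspForm Γ1M k) :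
    (heckeT1 hp.out hpM g : ℍ → ℂ)
      = ∑ i : Option (ZMod p), (g : ℍ → ℂ) ∣[k] (heckeRepsT M hpM σ hσ hσp).α i := by
  rw [sum_slash_heckeRepsT, coe_heckeT1_of_lr hp.out hpM hσ hσp g]

/-- The diamond operator as the slash by the representative of `diamondReps`. -/
theorem coe_diamond_eq_slash (d : (ZMod M)ˣ) (σ : SL(2, ℤ)) (hσ : σ ∈ Gamma0 M)
    (hσd : ((σ 1 1 : ℤ) : ZMod M) = (d : ZMod M)) (g : CuspForm Γ1M k) :
    (diamond d g : ℍ → ℂ) = (g : ℍ → ℂ) ∣[k] (diamondReps M σ hσ).α () := by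
  rw [diamondReps_α, slash_mapGL, coe_diamond d hσ hσd g]

/-- The same with the sum over the one-element index type, in the shape consumed by the
equivariance statement of the period map. -/
theorem coe_diamond_eq_sum (d : (ZMod M)ˣ) (σ : SL(2, ℤ)) (hσ : σ ∈ Gamma0 M)
    (hσd : ((σ 1 1 : ℤ) : ZMod M) = (d : ZMod M)) (g : CuspForm Γ1M k) :
    (diamond d g : ℍ → ℂ) = ∑ u : Unit, (g : ℍ → ℂ) ∣[k] (diamondReps M σ hσ).α u := by
  rw [Fintype.sum_unique]
  exact coe_diamond_eq_slash d σ hσ hσd g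

end CuspForms

end Fermat.Agent.DS.Per1.RepsBridge
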