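/-
DS programme (S48), chapter G-PER (helper78): the abstract algebra behind PER-F
(`T_Lam ↠ T2(M)`, finiteness over `ℤ`).  Mathlib only.

Setting: an abelian group `L` (the lattice `Hom_par(Γ, ℤ)`), complex vector spaces `V`
(`Hom_par(Γ, ℂ)` or `Hom(Γ, ℂ)`) and `S` (`S_2(Γ)`), families of endomorphisms
`a x ∈ End_ℤ L`, `b x ∈ End_ℂ V`, `t x ∈ End_ℂ S` (`x : X` the generators `T_p`, `⟨d⟩`), an additive
map `ι : L → V` (coefficient extension) and a linear map `per : S → V` (period map) such that

* `b x ∘ ι = ι ∘ a x`      (naturality of the transfer operators in the coefficients),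
* `per ∘ t x = b x ∘ per`  (Hecke equivariance of the period map),
* `per` is injective, and `per s` lies in the `ℂ`-span of `ι L` for all `s`.

Then every noncommutative polynomial relation among the `a x` holds among the `t x`; hence there
is a surjective `ℤ`-algebra homomorphism `adjoin ℤ (range a) → adjoin ℤ (range t)` sending `a x` to
`t x`, and `adjoin ℤ (range t)` is a finite `ℤ`-module as soon as `L` is finite free.
-/
import Mathlib

set_option autoImplicit false

namespace Fermat.Agent.DS.Per1.TransferAlg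

variable {X L V S : Type*} [AddCommGroup L] [AddCommGroup V] [Module ℂ V]
  [AddCommGroup S] [Module ℂ S]

section Intertwine

variable (a : X → Module.End ℤ L) (b : X → Module.End ℂ V) (t : X → Module.End ℂ S)
  (ι : L →+ V) (per : S →ₗ[ℂ] V)

/-- Evaluation of noncommutative polynomials at `a`. -/
noncomputable def evA : FreeAlgebra ℤ X →ₐ[ℤ] Module.End ℤ L := FreeAlgebra.lift ℤ a

/-- Evaluation of noncommutative polynomials at `b`. -/
noncomputable def evB : FreeAlgebra ℤ X →ₐ[ℤ] Module.End ℂ V := FreeAlgebra.lift ℤ b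

/-- Evaluation of noncommutative polynomials at `t`. -/
noncomputable def evT : FreeAlgebra ℤ X →ₐ[ℤ] Module.End ℂ S := FreeAlgebra.lift ℤ t

@[simp] theorem evA_ι (x : X) : evA a (FreeAlgebra.ι ℤ x) = a x := FreeAlgebra.lift_ι_apply _ _

@[simp] theorem evB_ι (x : X) : evB b (FreeAlgebra.ι ℤ x) = b x := FreeAlgebra.lift_ι_apply _ _

@[simp] theorem evT_ι (x : X) : evT t (FreeAlgebra.ι ℤ x) = t x := FreeAlgebra.lift_ι_apply _ _

variable {a b t ι per}

/-- `evB w ∘ ι = ι ∘ evA w`. -/
theorem evB_comp_ι (hι : ∀ x l, b x (ι l) = ι (a x l)) (w : FreeAlgebra ℤ X) (l : L) :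
    evB b w (ι l) = ι (evA a w l) := by
  induction w using FreeAlgebra.induction generalizing l with
  | grade0 r =>
    rw [AlgHom.commutes, AlgHom.commutes, Module.algebraMap_end_apply,
      Module.algebraMap_end_apply, map_zsmul]
  | grade1 x => rw [evB_ι, evA_ι, hι]
  | mul u v hu hv => rw [map_mul, map_mul, Module.End.mul_apply, Module.End.mul_apply, hv, hu]
  | add u v hu hv =>
    rw [map_add, map_add, LinearMap.add_apply, LinearMap.add_apply, hu, hv, map_add]

/-- `per ∘ evT w = evB w ∘ per`. -/
theorem per_evT (hper : ∀ x s, per (t x s) = b x (per s)) (w : FreeAlgebra ℤ X) (s : S) :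
    per (evT t w s) = evB b w (per s) := by
  induction w using FreeAlgebra.induction generalizing s with
  | grade0 r =>
    rw [AlgHom.commutes, AlgHom.commutes, Module.algebraMap_end_apply,
      Module.algebraMap_end_apply, map_zsmul]
  | grade1 x => rw [evT_ι, evB_ι, hper]
  | mul u v hu hv => rw [map_mul, map_mul, Module.End.mul_apply, Module.End.mul_apply, hu, hv]
  | add u v hu hv =>
    rw [map_add, map_add, LinearMap.add_apply, LinearMap.add_apply, map_add, hu, hv]

/-- Relations among the `a x` hold among the `t x`. -/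
theorem evT_eq_zero_of_evA_eq_zero (hι : ∀ x l, b x (ι l) = ι (a x l))
    (hper : ∀ x s, per (t x s) = b x (per s)) (hinj : Function.Injective per)
    (hspan : ∀ s, per s ∈ Submodule.span ℂ (Set.range ι)) {w : FreeAlgebra ℤ X}
    (hw : evA a w = 0) : evT t w = 0 := by
  ext s
  apply hinj
  rw [per_evT hper, LinearMap.zero_apply, map_zero]
  have hzero : ∀ v ∈ Submodule.span ℂ (Set.range ι), evB b w v = 0 := by
    intro v hv
    induction hv using Submodule.span_induction with
    | mem v hv =>
      obtain ⟨l, rfl⟩ := hv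
      rw [evB_comp_ι hι, hw, LinearMap.zero_apply, map_zero]
    | zero => exact map_zero _
    | add u v _ _ hu hv => rw [map_add, hu, hv, add_zero]
    | smul c v _ hv => rw [map_smul, hv, smul_zero]
  exact hzero _ (hspan s)

theorem evT_eq_of_evA_eq (hι : ∀ x l, b x (ι l) = ι (a x l))
    (hper : ∀ x s, per (t x s) = b x (per s)) (hinj : Function.Injective per)
    (hspan : ∀ s, per s ∈ Submodule.span ℂ (Set.range ι)) {w w' : FreeAlgebra ℤ X}
    (hw : evA a w = evA a w') : evT t w = evT t w' := by
  have h := evT_eq_zero_of_evA_eq_zero (w := w - w') hι hper hinj hspan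
    (by rw [map_sub, hw, sub_self])
  rw [map_sub] at h
  exact sub_eq_zero.mp h

end Intertwine

section Lift

variable (a : X → Module.End ℤ L) (t : X → Module.End ℂ S)

theorem evA_mem (w : FreeAlgebra ℤ X) : evA a w ∈ Algebra.adjoin ℤ (Set.range a) := by
  rw [Algebra.adjoin_range_eq_range_freeAlgebra_lift]
  exact ⟨w, rfl⟩

theorem evT_mem (w : FreeAlgebra ℤ X) : evT t w ∈ Algebra.adjoin ℤ (Set.range t) := by
  rw [Algebra.adjoin_range_eq_range_freeAlgebra_lift]
  exact ⟨w, rfl⟩

theorem exists_evA_eq {y : Module.End ℤ L} (hy : y ∈ Algebra.adjoin ℤ (Set.range a)) :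
    ∃ w : FreeAlgebra ℤ X, evA a w = y := by
  rw [Algebra.adjoin_range_eq_range_freeAlgebra_lift] at hy
  exact hy

theorem exists_evT_eq {y : Module.End ℂ S} (hy : y ∈ Algebra.adjoin ℤ (Set.range t)) :
    ∃ w : FreeAlgebra ℤ X, evT t w = y := by
  rw [Algebra.adjoin_range_eq_range_freeAlgebra_lift] at hy
  exact hy

/-- A chosen noncommutative polynomial representing an element of `adjoin ℤ (range a)`. -/
noncomputable def pre (y : Algebra.adjoin ℤ (Set.range a)) : FreeAlgebra ℤ X :=
  (exists_evA_eq a y.2).choose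

theorem evA_pre (y : Algebra.adjoin ℤ (Set.range a)) : evA a (pre a y) = (y : Module.End ℤ L) :=
  (exists_evA_eq a y.2).choose_spec

variable {a t}

/-- The transfer homomorphism `adjoin ℤ (range a) → adjoin ℤ (range t)`, `a x ↦ t x`, attached to a
proof that relations transfer. -/
noncomputable def transferHom
    (H : ∀ w w' : FreeAlgebra ℤ X, evA a w = evA a w' → evT t w = evT t w') :
    Algebra.adjoin ℤ (Set.range a) →ₐ[ℤ] Algebra.adjoin ℤ (Set.range t) where
  toFun y := ⟨evT t (pre a y), evT_mem t _⟩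
  map_one' := by
    apply Subtype.ext
    show evT t (pre a 1) = 1
    rw [H _ 1 (by rw [evA_pre, map_one]; rfl), map_one]
  map_mul' y y' := by
    apply Subtype.ext
    show evT t (pre a (y * y')) = evT t (pre a y) * evT t (pre a y')
    rw [← map_mul]
    refine H _ _ ?_
    rw [evA_pre, map_mul, evA_pre, evA_pre]
    rfl
  map_zero' := by
    apply Subtype.ext
    show evT t (pre a 0) = 0
    rw [H _ 0 (by rw [evA_pre, map_zero]; rfl), map_zero]
  map_add' y y' := by
    apply Subtype.ext
    show evT t (pre a (y + y')) = evT t (pre a y) + evT t (pre a y')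
    rw [← map_add]
    refine H _ _ ?_
    rw [evA_pre, map_add, evA_pre, evA_pre]
    rfl
  commutes' r := by
    apply Subtype.ext
    show evT t (pre a (algebraMap ℤ _ r)) = algebraMap ℤ (Module.End ℂ S) r
    rw [H _ (algebraMap ℤ _ r) (by rw [evA_pre, AlgHom.commutes]; rfl), AlgHom.commutes]

theorem transferHom_evA
    (H : ∀ w w' : FreeAlgebra ℤ X, evA a w = evA a w' → evT t w = evT t w')
    (w : FreeAlgebra ℤ X) :
    (transferHom H ⟨evA a w, evA_mem a w⟩ : Module.End ℂ S) = evT t w :=
  H _ _ (evA_pre a ⟨evA a w, evA_mem a w⟩)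

theorem transferHom_gen
    (H : ∀ w w' : FreeAlgebra ℤ X, evA a w = evA a w' → evT t w = evT t w') (x : X) :
    (transferHom H ⟨a x, Algebra.subset_adjoin ⟨x, rfl⟩⟩ : Module.End ℂ S) = t x := by
  have h := transferHom_evA H (FreeAlgebra.ι ℤ x)
  have e : (⟨evA a (FreeAlgebra.ι ℤ x), evA_mem a _⟩ : Algebra.adjoin ℤ (Set.range a))
      = ⟨a x, Algebra.subset_adjoin ⟨x, rfl⟩⟩ := Subtype.ext (evA_ι a x)
  rw [e] at h
  rw [h, evT_ι]

theorem transferHom_surjective
    (H : ∀ w w' : FreeAlgebra ℤ X, evA a w = evA a w' → evT t w = evT t w') :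
    Function.Surjective (transferHom H) := by
  rintro ⟨y, hy⟩
  obtain ⟨w, rfl⟩ := exists_evT_eq t hy
  exact ⟨⟨evA a w, evA_mem a w⟩, Subtype.ext (transferHom_evA H w)⟩

end Lift

/-- **Transfer of relations** (PER-F, abstract form). -/
theorem exists_transferHom {a : X → Module.End ℤ L} {b : X → Module.End ℂ V}
    {t : X → Module.End ℂ S} {ι : L →+ V} {per : S →ₗ[ℂ] V}
    (hι : ∀ x l, b x (ι l) = ι (a x l))
    (hper : ∀ x s, per (t x s) = b x (per s)) (hinj : Function.Injective per)
    (hspan : ∀ s, per s ∈ Submodule.span ℂ (Set.range ι)) :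
    ∃ φ : Algebra.adjoin ℤ (Set.range a) →ₐ[ℤ] Algebra.adjoin ℤ (Set.range t),
      Function.Surjective φ ∧
      ∀ x : X, (φ ⟨a x, Algebra.subset_adjoin ⟨x, rfl⟩⟩ : Module.End ℂ S) = t x :=
  ⟨transferHom (fun _ _ h => evT_eq_of_evA_eq hι hper hinj hspan h),
    transferHom_surjective _, transferHom_gen _⟩

/-- Subalgebras of the endomorphism ring of a finite free `ℤ`-module are finite over `ℤ`. -/
theorem finite_subalgebra_end [Module.Finite ℤ L] [Module.Free ℤ L]
    (A : Subalgebra ℤ (Module.End ℤ L)) : Module.Finite ℤ A := by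
  have h1 : Module.Finite ℤ (Module.End ℤ L) := Module.Finite.linearMap ℤ ℤ L L
  have h2 : IsNoetherian ℤ (Module.End ℤ L) := isNoetherian_of_isNoetherianRing_of_finite ℤ _
  exact Module.Finite.of_injective (Subalgebra.toSubmodule A).subtype
    (Submodule.subtype_injective _)

/-- **Finiteness** (PER-F, abstract form): under the hypotheses of `exists_transferHom`, if `L` is
finite free then `adjoin ℤ (range t)` is a finite `ℤ`-module. -/
theorem finite_adjoin_of_transfer [Module.Finite ℤ L] [Module.Free ℤ L]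
    {a : X → Module.End ℤ L} {b : X → Module.End ℂ V}
    {t : X → Module.End ℂ S} {ι : L →+ V} {per : S →ₗ[ℂ] V}
    (hι : ∀ x l, b x (ι l) = ι (a x l))
    (hper : ∀ x s, per (t x s) = b x (per s)) (hinj : Function.Injective per)
    (hspan : ∀ s, per s ∈ Submodule.span ℂ (Set.range ι)) :
    Module.Finite ℤ (Algebra.adjoin ℤ (Set.range t)) := by
  obtain ⟨φ, hφ, -⟩ := exists_transferHom hι hper hinj hspan
  have : Module.Finite ℤ (Algebra.adjoin ℤ (Set.range a)) := finite_subalgebra_end _
  exact Module.Finite.of_surjective φ.toLinearMap hφ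

end Fermat.Agent.DS.Per1.TransferAlg
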