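/-
DS programme (S48), chapter G-PER (helper78): PER-F, conditional on a period package.

* `Gen M` : the generators (`p ∤ M` prime, `d : (ZMod M)ˣ`);
* `opZ M`, `opC M` : the transfer operators on `Λ = parabolicHoms ℤ Γ₁(M) ℤ` and on
  `parabolicHoms ℂ Γ₁(M) ℂ` attached to `heckeRepsT'` / `diamondReps`;  `opS M` : `T_p`, `⟨d⟩` on
  `S_2(Γ₁(M))` (HECKE1);
* `latticeAlg M = adjoin ℤ (range (opZ M))`, a finite `ℤ`-module (unconditionally);
* `PeriodData M` : an injective linear map `per : S_2(Γ₁(M)) → parabolicHoms ℂ Γ₁(M) ℂ` intertwining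
  `opS` with `opC` (to be supplied by PER-A/B/D);
* `exists_toT2 P` : a surjective `ℤ`-algebra homomorphism `latticeAlg M → T2 M` mapping generators
  to generators;  `finite_T2 P : Module.Finite ℤ (T2 M)`.
-/
import Mathlib
import Fermat.Agent.DS.Per1.RepsBridge
import Fermat.Agent.DS.Per1.TransferAlg
import Fermat.Agent.DS.Hecke1.Algebra
import Fermat.Agent.ES.HEQ.ParLattice11

set_option autoImplicit false
set_option linter.unusedSectionVars false

open Matrix.SpecialLinearGroup UpperHalfPlane CongruenceSubgroup ModularForm ModularCurve.Period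
open scoped MatrixGroups ModularForm

namespace Fermat.Agent.DS.Per1.LatticeTransfer

open Fermat.Agent.DS.Per1.HeckeReps Fermat.Agent.DS.Per1.RepsGamma1
open Fermat.Agent.DS.Hecke1.Diamond Fermat.Agent.DS.Hecke1.HeckeT1 Fermat.Agent.DS.Hecke1.Algebra
open Fermat.Agent.ES.HEQ.ParLattice11

/-- The transfer operator commutes with the coefficient extension `ℤ → ℂ`. -/
theorem dPar_castPar {Γ : Subgroup SL(2, ℤ)} {I : Type*} [Fintype I] (H : HeckeReps Γ I)
    (φ : parabolicHoms ℤ Γ ℤ) :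
    H.dPar ℂ ℂ (castPar Γ ℂ φ) = castPar Γ ℂ (H.dPar ℤ ℤ φ) :=
  Subtype.ext (H.dHom_comp (Int.castAddHom ℂ) (φ : Additive Γ →+ ℤ))

variable (M : ℕ) [NeZero M]

local notation "Γ1M" => ((Gamma1 M : Subgroup SL(2, ℤ)) : Subgroup (GL (Fin 2) ℝ))

/-- Primes not dividing `M`. -/
abbrev PrimeIdx (M : ℕ) : Type := {p : ℕ // p.Prime ∧ ¬ p ∣ M}

/-- The index type of the generators of the Hecke algebra. -/
abbrev Gen (M : ℕ) : Type := PrimeIdx M ⊕ (ZMod M)ˣ

instance instFintypeIdx (x : PrimeIdx M) : Fintype (Option (ZMod x.1)) :=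
  haveI : NeZero x.1 := ⟨x.2.1.ne_zero⟩
  inferInstance

/-- The `T_p`-representatives. -/
noncomputable def repsT (x : PrimeIdx M) : HeckeReps (Gamma1 M) (Option (ZMod x.1)) :=
  haveI : Fact x.1.Prime := ⟨x.2.1⟩
  heckeRepsT' M x.2.2

/-- The diamond representatives (with the lift used by HECKE1). -/
noncomputable def repsD (d : (ZMod M)ˣ) : HeckeReps (Gamma1 M) Unit :=
  diamondReps M (lift d) (lift_mem d)

/-- The operators on the lattice. -/
noncomputable def opZ : Gen M → Module.End ℤ (parabolicHoms ℤ (Gamma1 M) ℤ)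
  | Sum.inl x => (repsT M x).dPar ℤ ℤ
  | Sum.inr d => (repsD M d).dPar ℤ ℤ

/-- The operators on the complex parabolic homomorphisms. -/
noncomputable def opC : Gen M → Module.End ℂ (parabolicHoms ℂ (Gamma1 M) ℂ)
  | Sum.inl x => (repsT M x).dPar ℂ ℂ
  | Sum.inr d => (repsD M d).dPar ℂ ℂ

/-- The operators on cusp forms. -/
noncomputable def opS : Gen M → Module.End ℂ (CuspForm Γ1M 2)
  | Sum.inl x => heckeT1 x.2.1 x.2.2
  | Sum.inr d => diamond d

theorem range_opS : Set.range (opS M) = heckeGenerators1 M 2 := by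
  ext T
  constructor
  · rintro ⟨x | d, rfl⟩
    · exact heckeT1_mem_heckeGenerators1 x.2.1 x.2.2
    · exact diamond_mem_heckeGenerators1 d
  · rintro (⟨p, hp, hpM, rfl⟩ | ⟨d, rfl⟩)
    · exact ⟨Sum.inl ⟨p, hp, hpM⟩, rfl⟩
    · exact ⟨Sum.inr d, rfl⟩

theorem opC_castPar (x : Gen M) (φ : parabolicHoms ℤ (Gamma1 M) ℤ) :
    opC M x (castPar (Gamma1 M) ℂ φ) = castPar (Gamma1 M) ℂ (opZ M x φ) := by
  cases x with
  | inl x => exact dPar_castPar (repsT M x) φ
  | inr d => exact dPar_castPar (repsD M d) φ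

/-- The lattice Hecke algebra. -/
noncomputable def latticeAlg : Subalgebra ℤ (Module.End ℤ (parabolicHoms ℤ (Gamma1 M) ℤ)) :=
  Algebra.adjoin ℤ (Set.range (opZ M))

theorem opZ_mem_latticeAlg (x : Gen M) : opZ M x ∈ latticeAlg M :=
  Algebra.subset_adjoin ⟨x, rfl⟩

theorem fg_Gamma1 : (Gamma1 M).FG := Fermat.Agent.S22.fg_of_finiteIndex (Gamma1 M)

instance finite_par_Gamma1 : Module.Finite ℤ (parabolicHoms ℤ (Gamma1 M) ℤ) :=
  finite_par (fg_Gamma1 M)

instance free_par_Gamma1 : Module.Free ℤ (parabolicHoms ℤ (Gamma1 M) ℤ) :=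
  free_par (fg_Gamma1 M)

/-- The lattice Hecke algebra is a finite `ℤ`-module. -/
instance finite_latticeAlg : Module.Finite ℤ (latticeAlg M) :=
  Fermat.Agent.DS.Per1.TransferAlg.finite_subalgebra_end _

/-- The period package to be supplied by PER-A (definition), PER-B (injectivity) and PER-D
(equivariance). -/
structure PeriodData where
  /-- the period map -/
  per : CuspForm Γ1M 2 →ₗ[ℂ] parabolicHoms ℂ (Gamma1 M) ℂ
  /-- injectivity (maximum principle) -/
  inj : Function.Injective per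
  /-- Hecke equivariance -/
  equivariant : ∀ (x : Gen M) (f : CuspForm Γ1M 2), per (opS M x f) = opC M x (per f)

variable {M}

theorem exists_toT2_aux (P : PeriodData M)
    (B : Subalgebra ℤ (Module.End ℂ (CuspForm Γ1M 2)))
    (hB : Algebra.adjoin ℤ (Set.range (opS M)) = B) :
    ∃ φ : latticeAlg M →ₐ[ℤ] B, Function.Surjective φ ∧
      ∀ x : Gen M, ((φ ⟨opZ M x, opZ_mem_latticeAlg M x⟩ : B) :
        Module.End ℂ (CuspForm Γ1M 2)) = opS M x := by
  subst hB
  have hspan : ∀ s, P.per s ∈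
      Submodule.span ℂ (Set.range ((castPar (Gamma1 M) ℂ).toAddMonoidHom)) := by
    intro s
    have h := span_range_castPar (Γ := Gamma1 M) ℂ (fg_Gamma1 M)
    have h2 : Set.range ((castPar (Gamma1 M) ℂ).toAddMonoidHom) =
        Set.range (castPar (Gamma1 M) ℂ) := rfl
    rw [h2, h]
    exact Submodule.mem_top
  exact Fermat.Agent.DS.Per1.TransferAlg.exists_transferHom
    (a := opZ M) (b := opC M) (t := opS M)
    (ι := (castPar (Gamma1 M) ℂ).toAddMonoidHom) (per := P.per)
    (fun x l => opC_castPar M x l) P.equivariant P.inj hspan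

/-- **PER-F**: the surjection `T_Λ ↠ T2(M)`. -/
theorem exists_toT2 (P : PeriodData M) :
    ∃ φ : latticeAlg M →ₐ[ℤ] T2 M, Function.Surjective φ ∧
      ∀ x : Gen M, ((φ ⟨opZ M x, opZ_mem_latticeAlg M x⟩ : T2 M) :
        Module.End ℂ (CuspForm Γ1M 2)) = opS M x :=
  exists_toT2_aux P (T2 M) (congrArg (Algebra.adjoin ℤ) (range_opS M))

/-- **Finiteness of the Hecke algebra** of level `Γ₁(M)`, weight 2. -/
theorem finite_T2 (P : PeriodData M) : Module.Finite ℤ (T2 M) := by
  obtain ⟨φ, hφ, -⟩ := exists_toT2 P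
  exact Module.Finite.of_surjective φ.toLinearMap hφ

end Fermat.Agent.DS.Per1.LatticeTransfer
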